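import Mathlib.AlgebraicGeometry.EllipticCurve.Affine.Point
import Mathlib.AlgebraicGeometry.EllipticCurve.VariableChange
import Mathlib.Tactic.LinearCombination
import Mathlib.Tactic.FieldSimp

/-!
# Points under an admissible change of variables

For an elliptic curve `W` over a field and a change of variables `C`, the map
`(x, y) ↦ (u²x + r, u³y + su²x + t)` is an isomorphism from the points of `C • W` to those of `W`.
-/

namespace FA.Frob

open WeierstrassCurve

universe u

set_option linter.unusedSectionVars false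

variable {L : Type u} [Field L] {W W' : WeierstrassCurve L} (C : VariableChange L)
  (hC : C • W = W')

/-- The abscissa in the old coordinates. -/
def vcX (x : L) : L := (C.u : L) ^ 2 * x + C.r

/-- The ordinate in the old coordinates. -/
def vcY (x y : L) : L := (C.u : L) ^ 3 * y + C.s * (C.u : L) ^ 2 * x + C.t

include hC in
lemma vc_coeffs :
    W.a₁ = C.u * W'.a₁ - 2 * C.s ∧
    W.a₂ = (C.u : L) ^ 2 * W'.a₂ + C.s * (C.u * W'.a₁ - 2 * C.s) - 3 * C.r + C.s ^ 2 ∧
    W.a₃ = (C.u : L) ^ 3 * W'.a₃ - C.r * W.a₁ - 2 * C.t ∧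
    W.a₄ = (C.u : L) ^ 4 * W'.a₄ + C.s * W.a₃ - 2 * C.r * W.a₂ + (C.t + C.r * C.s) * W.a₁
      - 3 * C.r ^ 2 + 2 * C.s * C.t ∧
    W.a₆ = (C.u : L) ^ 6 * W'.a₆ - C.r * W.a₄ - C.r ^ 2 * W.a₂ - C.r ^ 3 + C.t * W.a₃
      + C.t ^ 2 + C.r * C.t * W.a₁ := by
  subst hC
  have hu : (C.u : L) ≠ 0 := C.u.ne_zero
  simp only [variableChange_a₁, variableChange_a₂, variableChange_a₃, variableChange_a₄,
    variableChange_a₆, Units.val_inv_eq_inv_val]
  refine ⟨?_, ?_, ?_, ?_, ?_⟩ <;> field_simp <;> ring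

include hC in
lemma equation_vc (x y : L) :
    W.toAffine.Equation (vcX C x) (vcY C x y) ↔ W'.toAffine.Equation x y := by
  obtain ⟨h1, h2, h3, h4, h6⟩ := vc_coeffs C hC
  rw [Affine.equation_iff', Affine.equation_iff']
  simp only [vcX, vcY]
  rw [h6, h4, h3, h2, h1]
  constructor
  · intro h
    have h6u : (C.u : L) ^ 6 ≠ 0 := pow_ne_zero _ C.u.ne_zero
    apply mul_left_cancel₀ h6u
    linear_combination h
  · intro h
    linear_combination (C.u : L) ^ 6 * h

include hC in
lemma negY_vc (x y : L) :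
    W.toAffine.negY (vcX C x) (vcY C x y) = vcY C x (W'.toAffine.negY x y) := by
  obtain ⟨h1, -, h3, -, -⟩ := vc_coeffs C hC
  simp only [Affine.negY, vcX, vcY]
  rw [h3, h1]
  ring

variable [DecidableEq L] [W.IsElliptic] [W'.IsElliptic]

/-- The change of variables on points. -/
def vcFun : W'.toAffine.Point → W.toAffine.Point
  | .zero => 0
  | .some x y h => .some (vcX C x) (vcY C x y)
      (Affine.equation_iff_nonsingular.mp ((equation_vc C hC x y).mpr h.1))

lemma vcFun_add (P Q : W'.toAffine.Point) :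
    vcFun C hC (P + Q) = vcFun C hC P + vcFun C hC Q := by
  rcases P with _ | ⟨x₁, y₁, h₁⟩
  · rw [← Affine.Point.zero_def, zero_add]
    exact (zero_add (vcFun C hC Q)).symm
  rcases Q with _ | ⟨x₂, y₂, h₂⟩
  · rw [← Affine.Point.zero_def, add_zero]
    exact (add_zero (vcFun C hC (.some x₁ y₁ h₁))).symm
  have hu : (C.u : L) ≠ 0 := C.u.ne_zero
  obtain ⟨ha1, ha2, ha3, ha4, -⟩ := vc_coeffs C hC
  have hneg := negY_vc C hC
  have hXinj : vcX C x₁ = vcX C x₂ ↔ x₁ = x₂ := by simp [vcX, hu]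
  have hYinj : ∀ x y z, vcY C x y = vcY C x z ↔ y = z := fun x y z => by simp [vcY, hu]
  by_cases hxy : x₁ = x₂ ∧ y₁ = W'.toAffine.negY x₂ y₂
  · rw [Affine.Point.add_of_Y_eq hxy.1 hxy.2]
    exact (Affine.Point.add_of_Y_eq (hXinj.mpr hxy.1) (by rw [hneg, hxy.1, hxy.2])).symm
  have hxy' : ¬ (vcX C x₁ = vcX C x₂ ∧ vcY C x₁ y₁ = W.toAffine.negY (vcX C x₂) (vcY C x₂ y₂)) :=
    fun h => hxy ⟨hXinj.mp h.1, by
      rw [hneg, hXinj.mp h.1] at h; exact (hYinj _ _ _).mp h.2⟩
  have hs : W.toAffine.slope (vcX C x₁) (vcX C x₂) (vcY C x₁ y₁) (vcY C x₂ y₂) =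
      C.u * W'.toAffine.slope x₁ x₂ y₁ y₂ + C.s := by
    by_cases hx : x₁ = x₂
    · subst hx
      have hy : y₁ ≠ W'.toAffine.negY x₁ y₂ := fun h => hxy ⟨rfl, h⟩
      obtain rfl := Affine.Y_eq_of_Y_ne h₁.1 h₂.1 rfl hy
      have hy' : vcY C x₁ y₁ ≠ W.toAffine.negY (vcX C x₁) (vcY C x₁ y₁) :=
        fun h => hxy' ⟨rfl, h⟩
      have hd : y₁ - W'.toAffine.negY x₁ y₁ ≠ 0 := sub_ne_zero.mpr hy
      rw [Affine.slope_of_Y_ne rfl hy', Affine.slope_of_Y_ne rfl hy, hneg,
        show vcY C x₁ y₁ - vcY C x₁ (W'.toAffine.negY x₁ y₁) =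
          (C.u : L) ^ 3 * (y₁ - W'.toAffine.negY x₁ y₁) by simp only [vcY]; ring]
      field_simp
      rw [ha4, ha3, ha2, ha1]
      simp only [vcX, vcY, Affine.negY]
      ring
    · have hd : x₁ - x₂ ≠ 0 := sub_ne_zero.mpr hx
      rw [Affine.slope_of_X_ne (fun h => hx (hXinj.mp h)), Affine.slope_of_X_ne hx,
        show vcX C x₁ - vcX C x₂ = (C.u : L) ^ 2 * (x₁ - x₂) by simp only [vcX]; ring]
      simp only [vcY]
      field_simp
      ring
  rw [Affine.Point.add_some hxy]
  simp only [vcFun]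
  rw [Affine.Point.add_some hxy']
  simp only [hs, Affine.Point.some.injEq]
  simp only [Affine.addY, Affine.negAddY, Affine.addX, Affine.negY,
    vcX, vcY]
  rw [ha3, ha2, ha1]
  constructor <;> ring

/-- The change of variables as an isomorphism of point groups. -/
noncomputable def vcEquiv : W'.toAffine.Point ≃+ W.toAffine.Point :=
  AddEquiv.ofBijective (AddMonoidHom.mk' (vcFun C hC) (vcFun_add C hC))
    ⟨by
      rintro (_ | ⟨x₁, y₁, h₁⟩) (_ | ⟨x₂, y₂, h₂⟩) h <;>
        simp only [AddMonoidHom.mk'_apply, vcFun, Affine.Point.zero_def, reduceCtorEq,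
          Affine.Point.some.injEq] at h
      · rfl
      · have hu : (C.u : L) ≠ 0 := C.u.ne_zero
        obtain ⟨hx, hy⟩ := h
        simp [vcX, hu] at hx
        subst hx
        simp [vcY, hu] at hy
        subst hy
        rfl,
    by
      rintro (_ | ⟨x, y, h⟩)
      · exact ⟨0, rfl⟩
      · have hu : (C.u : L) ≠ 0 := C.u.ne_zero
        set x' := (x - C.r) / (C.u : L) ^ 2 with hx'
        set y' := (y - C.s * (x - C.r) - C.t) / (C.u : L) ^ 3 with hy'
        have ex : vcX C x' = x := by simp only [vcX, hx']; field_simp; ring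
        have ey : vcY C x' y' = y := by simp only [vcY, hx', hy']; field_simp; ring
        have he : W'.toAffine.Equation x' y' := (equation_vc C hC x' y').mp (by rw [ex, ey]; exact h.1)
        refine ⟨.some x' y' (Affine.equation_iff_nonsingular.mp he), ?_⟩
        simp only [AddMonoidHom.mk'_apply, vcFun, Affine.Point.some.injEq]
        exact ⟨ex, ey⟩⟩

lemma vcEquiv_some {x y : L} (h : W'.toAffine.Nonsingular x y) :
    vcEquiv C hC (.some x y h) = .some (vcX C x) (vcY C x y)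
      (Affine.equation_iff_nonsingular.mp ((equation_vc C hC x y).mpr h.1)) :=
  rfl

end FA.Frob
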