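import Fermat.Agent.Frob.Trace
import Fermat.Agent.Local.Inertia
import Fermat.Agent.Local.Torsion
import Fermat.Prelude.Def_EllipticCurve_FrobeniusTrace
import Mathlib.RingTheory.Valuation.LocalSubring

/-!
# Good reduction at a place

For a Weierstrass equation over an algebraically closed field which is integral with unit
discriminant at a valuation subring `A`, reduction is a homomorphism to the points over the
residue field, with kernel the points with non-integral coordinates. It is injective on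
`p`-torsion for `p` invertible in the residue field, and it turns a Frobenius element at `A`
into the Frobenius endomorphism.
-/

namespace FA.Frob

open WeierstrassCurve Polynomial FA.EC FA.Local
open scoped Pointwise WeierstrassCurve.Affine

universe u

noncomputable section

set_option linter.unusedSectionVars false

variable {L : Type u} [Field L] (A : ValuationSubring L) (W : Affine L)
  (hI : IntCoeff A.valuation W)

/-- The residue field. -/
abbrev Res : Type u := IsLocalRing.ResidueField A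

lemma mem_of_le {x : L} (h : A.valuation x ≤ 1) : x ∈ A := (A.valuation_le_one_iff x).mp h

/-- The model with coefficients in `A`. -/
def intModel : WeierstrassCurve A :=
  ⟨⟨W.a₁, mem_of_le A hI.h₁⟩, ⟨W.a₂, mem_of_le A hI.h₂⟩, ⟨W.a₃, mem_of_le A hI.h₃⟩,
    ⟨W.a₄, mem_of_le A hI.h₄⟩, ⟨W.a₆, mem_of_le A hI.h₆⟩⟩

lemma intModel_map : (intModel A W hI).map A.subtype = W := rfl

/-- The reduced curve. -/
def redCurve : WeierstrassCurve (Res A) := (intModel A W hI).map (IsLocalRing.residue A)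

lemma valuation_eq_one_iff (a : A) : A.valuation a = 1 ↔ IsUnit a :=
  (A.valuation_eq_one_iff a).symm

lemma residue_eq_iff (a b : A) :
    IsLocalRing.residue A a = IsLocalRing.residue A b ↔ A.valuation ((a : L) - b) < 1 := by
  rw [← sub_eq_zero, ← map_sub, IsLocalRing.residue_eq_zero_iff, ← A.coe_mem_nonunits_iff,
    A.mem_nonunits_iff]
  rfl

/-- The residue class of an integral element, `0` otherwise. -/
def resOf (x : L) : Res A :=
  open Classical in if h : x ∈ A then IsLocalRing.residue A ⟨x, h⟩ else 0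

lemma resOf_coe (a : A) : resOf A (a : L) = IsLocalRing.residue A a := by
  simp [resOf, a.2]

lemma resOf_eq_iff {x y : L} (hx : x ∈ A) (hy : y ∈ A) :
    resOf A x = resOf A y ↔ A.valuation (x - y) < 1 := by
  simp only [resOf, dif_pos hx, dif_pos hy]; exact residue_eq_iff A ⟨x, hx⟩ ⟨y, hy⟩

variable {A W} (hΔ : A.valuation W.Δ = 1)

include hΔ in
lemma redCurve_isElliptic : (redCurve A W hI).IsElliptic := by
  refine ⟨?_⟩
  have h : IsUnit (intModel A W hI).Δ := by
    rw [← valuation_eq_one_iff]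
    show A.valuation (A.subtype (intModel A W hI).Δ) = 1
    rw [← WeierstrassCurve.map_Δ, intModel_map]
    exact hΔ
  rw [redCurve, WeierstrassCurve.map_Δ]
  exact h.map _

lemma equation_resOf {x y : L} (h : W.Equation x y) (hx : x ∈ A) (hy : y ∈ A) :
    (redCurve A W hI).toAffine.Equation (resOf A x) (resOf A y) := by
  have h' : (intModel A W hI).toAffine.Equation ⟨x, hx⟩ ⟨y, hy⟩ :=
    (Affine.map_equation (W := (intModel A W hI).toAffine) (f := A.subtype)
      Subtype.coe_injective ⟨x, hx⟩ ⟨y, hy⟩).mp h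
  rw [resOf, resOf, dif_pos hx, dif_pos hy]
  exact h'.map _

include hI in
lemma y_mem {x y : L} (h : W.Equation x y) (hx : x ∈ A) : y ∈ A :=
  mem_of_le A (le_y_of_le_x hI h ((A.valuation_le_one_iff x).mpr hx))

variable [DecidableEq L] [DecidableEq (Res A)]

/-- Reduction of points. -/
def redFun [(redCurve A W hI).IsElliptic] : W.Point → (redCurve A W hI).toAffine.Point
  | .zero => 0
  | .some x y h =>
    open Classical in if hx : x ∈ A then
      .some (resOf A x) (resOf A y)
        (Affine.equation_iff_nonsingular.mp (equation_resOf hI h.1 hx (y_mem hI h.1 hx)))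
    else 0

variable [(redCurve A W hI).IsElliptic]

lemma redFun_of_mem {x y : L} (h : W.Nonsingular x y) (hx : x ∈ A) :
    ∃ h', redFun hI (.some x y h) = .some (resOf A x) (resOf A y) h' := by
  refine ⟨Affine.equation_iff_nonsingular.mp (equation_resOf hI h.1 hx (y_mem hI h.1 hx)), ?_⟩
  rw [redFun, dif_pos hx]

lemma redFun_eq_zero_iff {P : W.Point} : redFun hI P = 0 ↔ E1 A.valuation W P := by
  rcases P with _ | ⟨x, y, h⟩
  · simp [redFun, ← Affine.Point.zero_def]
  · rw [e1_some]
    by_cases hx : x ∈ A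
    · obtain ⟨h', e⟩ := redFun_of_mem hI h hx
      rw [e]
      simpa using (A.valuation_le_one_iff x).mpr hx
    · rw [redFun, dif_neg hx]
      simp only [true_iff]
      exact not_le.mp fun h => hx (mem_of_le A h)

lemma redFun_neg (P : W.Point) : redFun hI (-P) = -redFun hI P := by
  rcases P with _ | ⟨x, y, h⟩
  · rfl
  by_cases hx : x ∈ A
  · have hy := y_mem hI h.1 hx
    have hy' := y_mem hI ((Affine.equation_neg ..).mpr h.1) hx
    obtain ⟨h₁, e₁⟩ := redFun_of_mem hI h hx
    obtain ⟨h₂, e₂⟩ := redFun_of_mem hI ((Affine.nonsingular_neg ..).mpr h) hx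
    rw [Affine.Point.neg_some, e₁, e₂, Affine.Point.neg_some]
    simp only [Affine.Point.some.injEq, true_and, resOf, dif_pos hx, dif_pos hy, dif_pos hy']
    show _ = (redCurve A W hI).toAffine.negY (IsLocalRing.residue A _) (IsLocalRing.residue A _)
    rw [redCurve]
    erw [Affine.map_negY]
    rfl
  · rw [Affine.Point.neg_some, redFun, redFun, dif_neg hx, dif_neg hx]
    rfl

include hΔ in
lemma redFun_add_of_e1 {P Q : W.Point} (hP : E1 A.valuation W P) :
    redFun hI (P + Q) = redFun hI Q := by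
  rcases Q with _ | ⟨x, y, h⟩
  · rw [← Affine.Point.zero_def, add_zero, (redFun_eq_zero_iff hI).mpr hP]; rfl
  by_cases hx : x ∈ A
  · rcases P with _ | ⟨x₂, y₂, h₂⟩
    · rw [← Affine.Point.zero_def, zero_add]
    rw [e1_some] at hP
    obtain ⟨x₃, y₃, h₃, he, hdx, hdy⟩ :=
      add_e1 hI h h₂ ((A.valuation_le_one_iff x).mpr hx) hP
    have hx₃ : x₃ ∈ A := mem_of_le A (by
      simpa using A.valuation.map_add_le hdx.le ((A.valuation_le_one_iff x).mpr hx))
    obtain ⟨h', e⟩ := redFun_of_mem hI h hx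
    obtain ⟨h₃', e₃⟩ := redFun_of_mem hI h₃ hx₃
    rw [add_comm, he, e, e₃]
    simp only [Affine.Point.some.injEq]
    exact ⟨(resOf_eq_iff A hx₃ hx).mpr hdx,
      (resOf_eq_iff A (y_mem hI h₃.1 hx₃) (y_mem hI h.1 hx)).mpr hdy⟩
  · have hQ : E1 A.valuation W (.some x y h) := by
      rw [e1_some]; exact not_le.mp fun h => hx (mem_of_le A h)
    rw [(redFun_eq_zero_iff hI).mpr (e1_add hI hP hQ), (redFun_eq_zero_iff hI).mpr hQ]

include hΔ in
lemma redFun_add (P Q : W.Point) : redFun hI (P + Q) = redFun hI P + redFun hI Q := by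
  by_cases hP : E1 A.valuation W P
  · rw [redFun_add_of_e1 hI hΔ hP, (redFun_eq_zero_iff hI).mpr hP, zero_add]
  by_cases hQ : E1 A.valuation W Q
  · rw [add_comm P, redFun_add_of_e1 hI hΔ hQ, (redFun_eq_zero_iff hI).mpr hQ, add_zero]
  rcases P with _ | ⟨x₁, y₁, h₁⟩
  · exact absurd trivial hP
  rcases Q with _ | ⟨x₂, y₂, h₂⟩
  · exact absurd trivial hQ
  rw [e1_some, not_lt] at hP hQ
  have hx₁ := mem_of_le A hP
  have hx₂ := mem_of_le A hQ
  have hy₁ := y_mem hI h₁.1 hx₁
  have hy₂ := y_mem hI h₂.1 hx₂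
  have hy₂' := y_mem hI ((Affine.equation_neg ..).mpr h₂.1) hx₂
  obtain ⟨k₁, e₁⟩ := redFun_of_mem hI h₁ hx₁
  obtain ⟨k₂, e₂⟩ := redFun_of_mem hI h₂ hx₂
  rw [e₁, e₂]
  let a₁ : A := ⟨x₁, hx₁⟩
  let a₂ : A := ⟨x₂, hx₂⟩
  let b₁ : A := ⟨y₁, hy₁⟩
  let b₂ : A := ⟨y₂, hy₂⟩
  have rn : resOf A (W.negY x₂ y₂) = (redCurve A W hI).toAffine.negY (resOf A x₂) (resOf A y₂) := by
    rw [resOf, resOf, resOf, dif_pos hx₂, dif_pos hy₂, dif_pos hy₂', redCurve]
    erw [Affine.map_negY]
    rfl
  by_cases hop : resOf A x₁ = resOf A x₂ ∧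
      resOf A y₁ = (redCurve A W hI).toAffine.negY (resOf A x₂) (resOf A y₂)
  · rw [Affine.Point.add_of_Y_eq hop.1 hop.2, redFun_eq_zero_iff]
    have := e1_sub_of_congr hI h₁ ((Affine.nonsingular_neg ..).mpr h₂) hP
      (nsRed_of_unit_Δ hI hΔ h₁.1 hP) ((resOf_eq_iff A hx₁ hx₂).mp hop.1)
      ((resOf_eq_iff A hy₁ hy₂').mp (hop.2.trans rn.symm))
    rwa [← Affine.Point.neg_some, sub_neg_eq_add] at this
  have hne : ¬ (x₁ = x₂ ∧ y₁ = W.negY x₂ y₂) := fun h => hop ⟨by rw [h.1], by rw [h.2, rn]⟩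
  have hl : W.slope x₁ x₂ y₁ y₂ ∈ A := by
    refine mem_of_le A (slope_le_one hI h₁.1 h₂.1 hP hQ fun h => hop ⟨?_, ?_⟩)
    · exact (resOf_eq_iff A hx₁ hx₂).mpr h.1
    · rw [← rn]; exact (resOf_eq_iff A hy₁ hy₂').mpr h.2
  let m : A := ⟨W.slope x₁ x₂ y₁ y₂, hl⟩
  -- the relation satisfied by the slope over `A`
  have hrel : m * (b₁ + b₂ + (intModel A W hI).a₁ * a₁ + (intModel A W hI).a₃) =
      a₁ ^ 2 + a₁ * a₂ + a₂ ^ 2 + (intModel A W hI).a₂ * (a₁ + a₂) + (intModel A W hI).a₄
        - (intModel A W hI).a₁ * b₂ := by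
    apply Subtype.ext
    show W.slope x₁ x₂ y₁ y₂ * (y₁ + y₂ + W.a₁ * x₁ + W.a₃) =
      x₁ ^ 2 + x₁ * x₂ + x₂ ^ 2 + W.a₂ * (x₁ + x₂) + W.a₄ - W.a₁ * y₂
    by_cases hx : x₁ = x₂
    · have hy : y₁ ≠ W.negY x₂ y₂ := fun h => hne ⟨hx, h⟩
      have hyy := Affine.Y_eq_of_Y_ne h₁.1 h₂.1 hx hy
      subst hx hyy
      rw [Affine.slope_of_Y_ne rfl hy, show y₁ + y₁ + W.a₁ * x₁ + W.a₃ = y₁ - W.negY x₁ y₁ by
        simp only [Affine.negY]; ring, div_mul_cancel₀ _ (sub_ne_zero.mpr hy)]
      ring
    · rw [Affine.slope_of_X_ne hx, div_mul_eq_mul_div, div_eq_iff (sub_ne_zero.mpr hx)]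
      linear_combination chord_identity h₁.1 h₂.1
  have hrX : resOf A x₁ = IsLocalRing.residue A a₁ ∧ resOf A x₂ = IsLocalRing.residue A a₂ ∧
      resOf A y₁ = IsLocalRing.residue A b₁ ∧ resOf A y₂ = IsLocalRing.residue A b₂ :=
    ⟨resOf_coe A a₁, resOf_coe A a₂, resOf_coe A b₁, resOf_coe A b₂⟩
  have hslope : (redCurve A W hI).toAffine.slope (resOf A x₁) (resOf A x₂) (resOf A y₁)
      (resOf A y₂) = IsLocalRing.residue A m := by
    by_cases hx : resOf A x₁ = resOf A x₂
    · have hy : resOf A y₁ ≠ _ := fun h => hop ⟨hx, h⟩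
      have hyy := Affine.Y_eq_of_Y_ne k₁.1 k₂.1 hx hy
      rw [← hx, ← hyy] at hy ⊢
      rw [Affine.slope_of_Y_ne rfl hy, div_eq_iff (sub_ne_zero.mpr hy)]
      have h := congrArg (IsLocalRing.residue A) hrel
      simp only [map_mul, map_add, map_sub, map_pow] at h
      rw [← hrX.1, ← hrX.2.1, ← hrX.2.2.1, ← hrX.2.2.2, ← hx, ← hyy] at h
      simp only [Affine.negY, redCurve, WeierstrassCurve.map_a₁, WeierstrassCurve.map_a₂,
        WeierstrassCurve.map_a₃, WeierstrassCurve.map_a₄]
      linear_combination -h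
    · rw [Affine.slope_of_X_ne hx, div_eq_iff (sub_ne_zero.mpr hx), hrX.1, hrX.2.1, hrX.2.2.1,
        hrX.2.2.2, ← map_sub, ← map_sub, ← map_mul]
      congr 1
      apply Subtype.ext
      show y₁ - y₂ = W.slope x₁ x₂ y₁ y₂ * (x₁ - x₂)
      have hx' : x₁ ≠ x₂ := fun h => hx (by rw [h])
      rw [Affine.slope_of_X_ne hx', div_mul_cancel₀ _ (sub_ne_zero.mpr hx')]
  rw [Affine.Point.add_some hne, Affine.Point.add_some hop]
  have hX : W.addX x₁ x₂ (W.slope x₁ x₂ y₁ y₂) =
      A.subtype ((intModel A W hI).toAffine.addX a₁ a₂ m) :=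
    Affine.map_addX (f := A.subtype) (W' := (intModel A W hI).toAffine) a₁ a₂ m
  have hY : W.addY x₁ x₂ y₁ (W.slope x₁ x₂ y₁ y₂) =
      A.subtype ((intModel A W hI).toAffine.addY a₁ a₂ b₁ m) :=
    Affine.map_addY (f := A.subtype) (W' := (intModel A W hI).toAffine) a₁ b₁ a₂ m
  obtain ⟨k₃, e₃⟩ := redFun_of_mem hI (Affine.nonsingular_add h₁ h₂ hne) (hX ▸ SetLike.coe_mem _)
  rw [e₃]
  simp only [Affine.Point.some.injEq, hslope]
  rw [hX, hY, hrX.1, hrX.2.1, hrX.2.2.1]
  exact ⟨(resOf_coe A _).trans (Affine.map_addX (f := IsLocalRing.residue A)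
      (W' := (intModel A W hI).toAffine) a₁ a₂ m).symm,
    (resOf_coe A _).trans (Affine.map_addY (f := IsLocalRing.residue A)
      (W' := (intModel A W hI).toAffine) a₁ b₁ a₂ m).symm⟩

/-- Reduction, as a homomorphism. -/
def redHom : W.Point →+ (redCurve A W hI).toAffine.Point where
  toFun := redFun hI
  map_zero' := rfl
  map_add' := redFun_add hI hΔ

lemma redHom_apply (P : W.Point) : redHom hI hΔ P = redFun hI P := rfl

omit [(redCurve A W hI).IsElliptic] [DecidableEq (Res A)] in
include hI in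
/-- The kernel of reduction has no `2`-torsion when `2` is a unit. -/
lemma eq_zero_of_e1_of_two (h2 : A.valuation (2 : L) = 1) {P : W.Point}
    (hP : E1 A.valuation W P) (h0 : 2 • P = 0) : P = 0 := by
  rcases P with _ | ⟨x, y, h⟩
  · rfl
  exfalso
  rw [two_nsmul] at h0
  by_cases hy : y = W.negY x y
  · obtain ⟨hyx, -⟩ := large_of_one_lt hI h.1 hP
    have hlin : A.valuation (W.a₁ * x + W.a₃) < A.valuation y := by
      refine lt_of_le_of_lt (A.valuation.map_add_le ?_ (hI.h₃.trans (le_of_lt hP))) hyx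
      rw [map_mul]; exact mul_le_of_le_one_left' hI.h₁
    have e : A.valuation (2 * y + (W.a₁ * x + W.a₃)) = A.valuation y := by
      rw [A.valuation.map_add_eq_of_lt_left] <;> rw [map_mul, h2, one_mul]
      exact hlin
    rw [show 2 * y + (W.a₁ * x + W.a₃) = y - W.negY x y by simp only [Affine.negY]; ring,
      ← hy, sub_self, map_zero] at e
    exact absurd (e.symm ▸ hlin) not_lt_zero
  · rw [Affine.Point.add_some fun hh => hy hh.2] at h0
    exact Affine.Point.some_ne_zero _ h0

/-- Reduction is injective on `p`-torsion. -/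
lemma redHom_injOn [WeierstrassCurve.IsElliptic W] {p : ℕ} (hp : p.Prime)
    (hpv : A.valuation (p : L) = 1) {P : W.Point} (hP : p • P = 0) (h : redHom hI hΔ P = 0) :
    P = 0 := by
  rcases hp.eq_two_or_odd' with rfl | hodd
  · exact eq_zero_of_e1_of_two hI (by simpa using hpv) ((redFun_eq_zero_iff hI).mp h) hP
  · exact eq_zero_of_e1_of_nsmul hI hodd hpv ((redFun_eq_zero_iff hI).mp h) hP

end

section residue

variable {L : Type u} [Field L] [IsAlgClosed L] (A : ValuationSubring L)

/-- The residue field of a valuation subring of an algebraically closed field is algebraically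
closed. -/
lemma residueField_isAlgClosed : IsAlgClosed (Res A) := by
  refine IsAlgClosed.of_exists_root _ fun p hp hirr => ?_
  obtain ⟨q, hq, hqd, hqm⟩ := lifts_and_degree_eq_and_monic
    (Polynomial.map_surjective _ IsLocalRing.residue_surjective p) hp
  obtain ⟨x, hx⟩ := IsAlgClosed.exists_root (q.map A.subtype) (by
    rw [degree_map_eq_of_injective Subtype.coe_injective, hqd]
    exact (degree_pos_of_irreducible hirr).ne')
  have hxA : x ∈ A := by
    have : IsIntegrallyClosedIn A.toSubring L := inferInstanceAs (IsIntegrallyClosedIn A L)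
    refine Subring.isIntegrallyClosedIn_iff.mp this ⟨q, hqm, ?_⟩
    rw [IsRoot.def, eval_map] at hx
    exact hx
  refine ⟨IsLocalRing.residue A ⟨x, hxA⟩, ?_⟩
  rw [← hq, eval_map, eval₂_at_apply]
  rw [IsRoot.def, eval_map, show x = A.subtype ⟨x, hxA⟩ from rfl, eval₂_at_apply] at hx
  rw [(map_eq_zero_iff A.subtype Subtype.coe_injective).mp hx, map_zero]

lemma residueField_charP {l : ℕ} (hl : l.Prime) (h : (l : L) ∈ A.nonunits) :
    CharP (Res A) l := by
  refine (CharP.charP_iff_prime_eq_zero hl).mpr ?_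
  rw [← map_natCast (IsLocalRing.residue A), IsLocalRing.residue_eq_zero_iff,
    ← A.coe_mem_nonunits_iff]
  simpa using h

end residue

noncomputable section frobenius

variable {F L : Type*} [Field F] [Field L] [Algebra F L] [IsAlgClosed L] [DecidableEq L]
  (W : WeierstrassCurve F) (A : ValuationSubring L)

open scoped Classical in
/-- The characteristic polynomial of a Frobenius element on the `p`-torsion, good reduction. -/
theorem charpoly_of_isFrobeniusAt [W.IsElliptic] (hI : IntCoeff A.valuation (W⁄L).toAffine)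
    (hΔ : A.valuation (W⁄L).toAffine.Δ = 1) {l : ℕ} [Fact l.Prime]
    [CharP (Res A) l] [IsAlgClosed (Res A)] [(redCurve A (W⁄L).toAffine hI).IsElliptic]
    {σ : L ≃ₐ[F] L} (hσ : A.IsFrobeniusAt σ l)
    (hW : (redCurve A (W⁄L).toAffine hI).map (frobenius (Res A) l) = redCurve A (W⁄L).toAffine hI)
    {p : ℕ} [Fact p.Prime] (hpl : p ≠ l)
    [Module.Finite (ZMod p) (Submodule.torsionBy ℤ (W.toAffine⁄L).Point p)] :
    LinearMap.charpoly (Affine.Point.galoisRepModuleEnd (K := L) F W p σ) =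
      X ^ 2 - C (trEnd (redCurve A (W⁄L).toAffine hI) hW : ZMod p) * X + C (l : ZMod p) := by
  classical
  have hpp := (Fact.out : p.Prime)
  have hll := (Fact.out : l.Prime)
  have hstab : σ • A = A := hσ.mem_decompositionSubgroup
  have hmem : ∀ x, σ x ∈ A ↔ x ∈ A := fun x => by
    conv_lhs => rw [← hstab]
    exact ValuationSubring.smul_mem_pointwise_smul_iff (g := σ) (S := A) (x := x)
  have hres : ∀ x, x ∈ A → resOf A (σ x) = resOf A x ^ l := by
    intro x hx
    have h := hσ.smul_residue_eq (IsLocalRing.residue A ⟨x, hx⟩)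
    rw [← IsLocalRing.ResidueField.residue_smul] at h
    rw [resOf, resOf, dif_pos hx, dif_pos ((hmem x).mpr hx), ← h]
    rfl
  set Wk := redCurve A (W⁄L).toAffine hI with hWk
  have hpk : (p : Res A) ≠ 0 := fun h => hpl
    ((Nat.prime_dvd_prime_iff_eq hll hpp).mp ((CharP.cast_eq_zero_iff (Res A) l p).mp h)).symm
  have hpL : (p : L) ≠ 0 := fun h => hpk (by
    rw [← map_natCast (IsLocalRing.residue A) p,
      show ((p : A)) = 0 from Subtype.ext (by simpa using h), map_zero])
  have hpv : A.valuation (p : L) = 1 := by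
    have : IsUnit (p : A) := IsLocalRing.notMem_maximalIdeal.mp fun h => hpk (by
      rw [← map_natCast (IsLocalRing.residue A) p]
      exact IsLocalRing.residue_eq_zero_iff _ |>.mpr h)
    simpa using (valuation_eq_one_iff A _).mpr this
  let T := Submodule.torsionBy ℤ (W⁄L).toAffine.Point p
  have hT : Finite T := finite_torsionBy (W⁄L) hpL
  let r : T →+ Wk.toAffine.Point := (redHom hI hΔ).comp T.subtype.toAddMonoidHom
  have hrinj : Function.Injective r := (injective_iff_map_eq_zero r).mpr fun P hP => Subtype.ext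
    (redHom_injOn hI hΔ hpp hpv (by
      rw [← natCast_zsmul]; exact (Submodule.mem_torsionBy_iff _ _).mp P.2) hP)
  set f : Module.End (ZMod p) T := Affine.Point.galoisRepModuleEnd (K := L) F W p σ
  have key : ∀ P : T, r (f P) = frobEnd Wk hW (r P) := by
    intro P
    show redHom hI hΔ (σ • P.1) = frobEnd Wk hW (redHom hI hΔ P.1)
    rcases P.1 with _ | ⟨x, y, h⟩
    · rfl
    obtain ⟨h', he⟩ := smul_some (σ := σ) W h
    rw [he]
    by_cases hx : x ∈ A
    · have hy := y_mem hI h.1 hx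
      obtain ⟨k₁, e₁⟩ := redFun_of_mem hI h hx
      obtain ⟨k₂, e₂⟩ := redFun_of_mem hI h' ((hmem x).mpr hx)
      rw [redHom_apply, redHom_apply]
      rw [e₁, e₂, frobEnd, mapHom_some]
      simp only [Affine.Point.some.injEq, frobenius_def]
      exact ⟨hres x hx, hres y hy⟩
    · rw [redHom_apply, redHom_apply]
      rw [redFun, redFun, dif_neg hx, dif_neg (fun h => hx ((hmem x).mp h)), map_zero]
  exact charpoly_of_intertwine Wk hW hpl (finrank_torsion_baseChange W.toAffine hpL) f r hrinj key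

end frobenius

end FA.Frob
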