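import Fermat.Agent.Frob.Reduction

/-!
# Frobenius on the `p`-torsion of an integral model over `ℚ`

For an integral Weierstrass equation `W`, a prime `l` of good reduction and a prime `p ≠ l`,
a Frobenius element at `l` has characteristic polynomial `X² - a_l X + l` on `E[p]`.
-/

namespace FA.Frob

open WeierstrassCurve Polynomial FA.EC FA.Local
open scoped WeierstrassCurve.Affine

noncomputable section

set_option linter.unusedSectionVars false

local notation "Qb" => AlgebraicClosure ℚ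

variable (W : WeierstrassCurve ℤ)

/-- The curve over `ℚ` defined by an integral equation. -/
abbrev ratCurve : WeierstrassCurve ℚ := W.map (Int.castRingHom ℚ)

lemma ratCurve_isElliptic_of_Δ {W : WeierstrassCurve ℤ} (h : W.Δ ≠ 0) :
    (ratCurve W).IsElliptic :=
  ⟨by rw [WeierstrassCurve.map_Δ]; exact (Int.cast_ne_zero.mpr h).isUnit⟩

lemma ratCurve_isElliptic {l : ℕ} (hgood : W.IsGoodPrimeFor l) : (ratCurve W).IsElliptic :=
  ratCurve_isElliptic_of_Δ fun h => hgood (h ▸ dvd_zero _)

instance finite_torsion_module (E : WeierstrassCurve ℚ) [E.IsElliptic] (p : ℕ) [Fact p.Prime] :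
    Module.Finite (ZMod p) (Submodule.torsionBy ℤ (E⁄Qb).Point p) := by
  have : Finite (Submodule.torsionBy ℤ (E⁄Qb).Point p) :=
    finite_torsion E (Fact.out (p := p.Prime)).ne_zero
  exact Module.Finite.of_finite

lemma valuation_intCast_of_liesOverPrime {A : ValuationSubring Qb} {l : ℕ} (hl : l.Prime)
    (hA : A.LiesOverPrime l) {n : ℤ} (hn : ¬ (l : ℤ) ∣ n) : A.valuation (n : Qb) = 1 := by
  refine eq_one_of_not_lt (intCast_le_one n) fun h => ?_
  obtain ⟨a, b, hab⟩ := (Nat.prime_iff_prime_int.mp hl).coprime_iff_not_dvd.mpr hn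
  have hlt : A.valuation ((l : ℤ) : Qb) < 1 := by
    rw [Int.cast_natCast]; exact A.mem_nonunits_iff.mp hA
  have h1 := congrArg (Int.cast : ℤ → Qb) hab
  push_cast at h1
  have : A.valuation ((a : Qb) * ((l : ℤ) : Qb) + (b : Qb) * (n : Qb)) < 1 :=
    A.valuation.map_add_lt (map_mul_lt_one (intCast_le_one a) hlt)
      (map_mul_lt_one (intCast_le_one b) h)
  rw [Int.cast_natCast, h1, map_one] at this
  exact lt_irrefl _ this

lemma intCoeff_ratCurve (A : ValuationSubring Qb) :
    IntCoeff A.valuation ((ratCurve W)⁄Qb).toAffine := by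
  have h : ∀ n : ℤ, A.valuation (algebraMap ℚ Qb (Int.castRingHom ℚ n)) ≤ 1 := fun n => by
    simpa using intCast_le_one (v := A.valuation) n
  exact ⟨h W.a₁, h W.a₂, h W.a₃, h W.a₄, h W.a₆⟩

lemma valuation_Δ_ratCurve {A : ValuationSubring Qb} {l : ℕ} (hl : l.Prime)
    (hA : A.LiesOverPrime l) (hgood : W.IsGoodPrimeFor l) :
    A.valuation ((ratCurve W)⁄Qb).toAffine.Δ = 1 := by
  show A.valuation (((W.map (Int.castRingHom ℚ)).map (algebraMap ℚ Qb)).Δ) = 1
  rw [WeierstrassCurve.map_Δ, WeierstrassCurve.map_Δ]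
  simpa using valuation_intCast_of_liesOverPrime hl hA hgood

lemma redCurve_ratCurve (A : ValuationSubring Qb) :
    redCurve A ((ratCurve W)⁄Qb).toAffine (intCoeff_ratCurve W A) =
      W.map (Int.castRingHom (Res A)) := by
  have h : ∀ (n : ℤ) (hn : algebraMap ℚ Qb (Int.castRingHom ℚ n) ∈ A),
      IsLocalRing.residue A ⟨_, hn⟩ = (n : Res A) := fun n hn => by
    rw [← map_intCast (IsLocalRing.residue A) n]
    congr 1
  ext <;> exact h _ _

open scoped Classical in
lemma trEnd_congr {k : Type} [Field k] [IsAlgClosed k] {l : ℕ} [Fact l.Prime] [CharP k l]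
    {W₁ W₂ : WeierstrassCurve k} [W₁.IsElliptic] [W₂.IsElliptic] (h : W₁ = W₂)
    (h₁ : W₁.map (frobenius k l) = W₁) (h₂ : W₂.map (frobenius k l) = W₂) :
    trEnd W₁ h₁ = trEnd W₂ h₂ := by
  subst h; rfl

open scoped Classical in
/-- Frobenius at a good prime `l ≠ p` on `E[p]`. -/
theorem charpoly_galoisRep {l : ℕ} (hl : l.Prime) (hgood : W.IsGoodPrimeFor l) {p : ℕ}
    [Fact p.Prime] (hpl : p ≠ l) {A : ValuationSubring Qb} (hA : A.LiesOverPrime l)
    {σ : Qb ≃ₐ[ℚ] Qb} (hσ : A.IsFrobeniusAt σ l) [(ratCurve W).IsElliptic] :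
    LinearMap.charpoly
        (Affine.Point.galoisRepModuleEnd (K := Qb) ℚ (ratCurve W).toAffine p σ) =
      X ^ 2 - C (W.apOfModel l : ZMod p) * X + C (l : ZMod p) := by
  have : Fact l.Prime := ⟨hl⟩
  have : CharP (Res A) l := residueField_charP A hl hA
  have : IsAlgClosed (Res A) := residueField_isAlgClosed A
  set f : ZMod l →+* Res A := ZMod.castHom (dvd_refl l) (Res A)
  have hmap : redCurve A ((ratCurve W)⁄Qb).toAffine (intCoeff_ratCurve W A) =
      (W.reductionMod l).map f := by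
    rw [redCurve_ratCurve, reductionMod, WeierstrassCurve.map_map]
    congr 1
    exact RingHom.ext_int _ _
  have : (W.reductionMod l).IsElliptic := ⟨by
    rw [reductionMod, WeierstrassCurve.map_Δ]
    refine (Ne.isUnit fun h => hgood ?_)
    exact (ZMod.intCast_zmod_eq_zero_iff_dvd _ l).mp h⟩
  have := redCurve_isElliptic (intCoeff_ratCurve W A) (valuation_Δ_ratCurve W hl hA hgood)
  have hW : (redCurve A ((ratCurve W)⁄Qb).toAffine (intCoeff_ratCurve W A)).map
      (frobenius (Res A) l) = redCurve A ((ratCurve W)⁄Qb).toAffine (intCoeff_ratCurve W A) := by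
    rw [hmap]; exact map_frobenius_map _ f
  rw [charpoly_of_isFrobeniusAt (ratCurve W) A (intCoeff_ratCurve W A)
    (valuation_Δ_ratCurve W hl hA hgood) hσ hW hpl,
    trEnd_congr hmap hW (map_frobenius_map _ f), trEnd_map (W.reductionMod l) f, apOfModel]

/-- The trace of Frobenius at a good prime. -/
theorem galoisTrace_frobenius {l : ℕ} (hl : l.Prime) (hgood : W.IsGoodPrimeFor l) {p : ℕ}
    [Fact p.Prime] (hpl : p ≠ l) {A : ValuationSubring Qb} (hA : A.LiesOverPrime l)
    {σ : Qb ≃ₐ[ℚ] Qb} (hσ : A.IsFrobeniusAt σ l) [(ratCurve W).IsElliptic] :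
    Affine.Point.galoisTrace (K := Qb) ℚ (ratCurve W).toAffine p σ = (W.apOfModel l : ZMod p) := by
  have h := charpoly_galoisRep W hl hgood hpl hA hσ
  let b := Module.Free.chooseBasis (ZMod p)
    (Submodule.torsionBy ℤ ((ratCurve W).toAffine⁄Qb).Point p)
  rw [Affine.Point.galoisTrace_def, LinearMap.trace_eq_matrix_trace _ b,
    Matrix.trace_eq_neg_charpoly_nextCoeff, LinearMap.charpoly_toMatrix, h, nextCoeff, if_neg]
  · have : (X ^ 2 - C (W.apOfModel l : ZMod p) * X + C (l : ZMod p)).natDegree = 2 := by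
      compute_degree!
    rw [this]
    simp [coeff_X, coeff_C]
  · have : (X ^ 2 - C (W.apOfModel l : ZMod p) * X + C (l : ZMod p)).natDegree = 2 := by
      compute_degree!
    omega

/-- The determinant of Frobenius at a good prime. -/
theorem det_frobenius {l : ℕ} (hl : l.Prime) (hgood : W.IsGoodPrimeFor l) {p : ℕ}
    [Fact p.Prime] (hpl : p ≠ l) {A : ValuationSubring Qb} (hA : A.LiesOverPrime l)
    {σ : Qb ≃ₐ[ℚ] Qb} (hσ : A.IsFrobeniusAt σ l) [(ratCurve W).IsElliptic] :
    LinearMap.det (Affine.Point.galoisRepModuleEnd (K := Qb) ℚ (ratCurve W).toAffine p σ) =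
      (l : ZMod p) := by
  have hfin := finrank_torsion (ratCurve W) p
  have h := charpoly_galoisRep W hl hgood hpl hA hσ
  rw [LinearMap.det_eq_sign_charpoly_coeff, h, hfin]
  simp [coeff_X, coeff_C]

end

end FA.Frob
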