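import Fermat.Agent.Frob.Det
import Fermat.Prelude.Def_GaloisRep_Residual
import Fermat.Prelude.Def_GaloisRep_ComplexConjugation

/-!
# Oddness and absolute irreducibility

Every nontrivial involution `c` of `ℚ̄` inverts the roots of unity of odd prime order, so it has
determinant `-1` on `E[p]`. An irreducible odd two-dimensional representation in characteristic
different from `2` is absolutely irreducible.
-/

namespace FA.Frob

open WeierstrassCurve Polynomial FA.EC
open scoped WeierstrassCurve.Affine TensorProduct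

noncomputable section

set_option linter.unusedSectionVars false

local notation "Qb" => AlgebraicClosure ℚ
local notation "GQ" => AlgebraicClosure ℚ ≃ₐ[ℚ] AlgebraicClosure ℚ

lemma exists_involution : ∃ c : GQ, c * c = 1 ∧ c ≠ 1 := by
  refine ⟨complexConjugation, complexConjugation_mul_self, fun h => ?_⟩
  obtain ⟨z, hz⟩ := IsAlgClosed.exists_pow_nat_eq (-1 : Qb) (n := 2) two_pos
  have h1 := complexEmbedding_complexConjugation z
  rw [h, AlgEquiv.one_apply] at h1
  have h2 : complexEmbedding z ^ 2 = -1 := by rw [← map_pow, hz, map_neg, map_one]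
  obtain ⟨r, hr⟩ := Complex.conj_eq_iff_real.mp h1.symm
  rw [hr, ← Complex.ofReal_pow] at h2
  have h3 : r ^ 2 = -1 := by exact_mod_cast h2
  nlinarith [sq_nonneg r]

variable {c : GQ} (hc : c * c = 1) (hc1 : c ≠ 1)

include hc in
lemma invol_apply (x : Qb) : c (c x) = x := by
  rw [← AlgEquiv.mul_apply, hc, AlgEquiv.one_apply]

include hc hc1 in
/-- A nontrivial involution moves the square roots of `-1`. -/
lemma invol_sqrt_neg_one {i : Qb} (hi : i ^ 2 = -1) : c i = -i := by
  have hci : c i = i ∨ c i = -i := by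
    apply sq_eq_sq_iff_eq_or_eq_neg.mp
    rw [← map_pow, hi, map_neg, map_one]
  refine hci.resolve_left fun hfix => ?_
  obtain ⟨y, hy⟩ : ∃ y, c y ≠ y := not_forall.mp fun h => hc1 (AlgEquiv.ext h)
  set b := y - c y with hb
  have hb0 : b ≠ 0 := sub_ne_zero.mpr (Ne.symm hy)
  have hcb : c b = -b := by rw [hb, map_sub, invol_apply hc]; ring
  obtain ⟨z, hz⟩ := IsAlgClosed.exists_pow_nat_eq b (n := 2) two_pos
  have hw : c (z * c z) = z * c z := by rw [map_mul, invol_apply hc, mul_comm]
  have hsq : (z * c z / i) ^ 2 = b ^ 2 := by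
    rw [div_pow, mul_pow, ← map_pow, hz, hcb, hi]
    ring
  have hfix' : c (z * c z / i) = z * c z / i := by rw [map_div₀, hw, hfix]
  rcases sq_eq_sq_iff_eq_or_eq_neg.mp hsq with h | h
  · rw [h, hcb] at hfix'
    exact hb0 (by linear_combination (-1 / 2 : Qb) * hfix')
  · rw [h, map_neg, hcb] at hfix'
    exact hb0 (by linear_combination (1 / 2 : Qb) * hfix')

include hc hc1 in
/-- In the fixed field of an involution a sum of squares is a square. -/
lemma invol_sq_add_sq {a b : Qb} (ha : c a = a) (hb : c b = b) :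
    ∃ d, c d = d ∧ d ^ 2 = a ^ 2 + b ^ 2 := by
  obtain ⟨i, hi⟩ := IsAlgClosed.exists_pow_nat_eq (-1 : Qb) (n := 2) two_pos
  obtain ⟨w, hw⟩ := IsAlgClosed.exists_pow_nat_eq (a + b * i) (n := 2) two_pos
  refine ⟨w * c w, by rw [map_mul, invol_apply hc, mul_comm], ?_⟩
  rw [mul_pow, ← map_pow, hw, map_add, map_mul, ha, hb, invol_sqrt_neg_one hc hc1 hi]
  linear_combination (-b ^ 2) * hi

include hc hc1 in
/-- A nontrivial involution fixes no nontrivial root of unity of odd order. -/
lemma invol_root_of_unity {n : ℕ} (hn : Odd n) {ζ : Qb} (hζ : ζ ^ n = 1) (hfix : c ζ = ζ) :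
    ζ = 1 := by
  by_contra hne
  obtain ⟨m, rfl⟩ := hn
  have key : ∀ k : ℕ, ∃ d, c d = d ∧ d ^ 2 = ∑ j ∈ Finset.range k, ζ ^ (j + 1) := by
    intro k
    induction k with
    | zero => exact ⟨0, map_zero c, by simp⟩
    | succ k ih =>
      obtain ⟨d, hd, hd2⟩ := ih
      obtain ⟨e, he, he2⟩ := invol_sq_add_sq hc hc1 hd
        (b := (ζ ^ (m + 1)) ^ (k + 1)) (by rw [map_pow, map_pow, hfix])
      refine ⟨e, he, ?_⟩
      rw [he2, hd2, Finset.sum_range_succ, ← pow_mul, ← pow_mul,
        show (m + 1) * ((k + 1) * 2) = (2 * m + 1) * (k + 1) + (k + 1) by ring, pow_add, pow_mul,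
        hζ, one_pow, one_mul]
  obtain ⟨d, hd, hd2⟩ := key (2 * m)
  have hsum : ∑ j ∈ Finset.range (2 * m + 1), ζ ^ j = 0 := by
    rw [geom_sum_eq hne, hζ, sub_self, zero_div]
  rw [Finset.sum_range_succ', pow_zero] at hsum
  have hd1 : d ^ 2 = -1 := by rw [hd2]; linear_combination hsum
  have h2 := invol_sqrt_neg_one hc hc1 hd1
  rw [hd] at h2
  have : d = 0 := by linear_combination (1 / 2 : Qb) * h2
  simp [this] at hd1

variable {p : ℕ} [hp : Fact p.Prime] (hp2 : p ≠ 2)

include hc hc1 hp2 in
lemma cycloChar_invol (hn : Nat.card (rootsOfUnity p Qb) = p) :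
    cycloChar p hn c = -1 := by
  have : NeZero p := ⟨hp.out.ne_zero⟩
  have h : cycloChar p hn c * cycloChar p hn c = 1 := by rw [← map_mul, hc, map_one]
  have h' : cycloChar p hn c = 1 ∨ cycloChar p hn c = -1 := by
    rw [Units.ext_iff, Units.ext_iff, Units.val_neg, Units.val_one]
    exact mul_self_eq_one_iff.mp (by rw [← Units.val_mul, h, Units.val_one])
  refine h'.resolve_left fun h1 => ?_
  obtain ⟨ζ, hζ⟩ := HasEnoughRootsOfUnity.exists_primitiveRoot Qb p
  have ht := (IsPrimitiveRoot.isUnit hζ hp.out.ne_zero).unit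
  have hmem : (hζ.isUnit hp.out.ne_zero).unit ∈ rootsOfUnity p Qb := by
    rw [mem_rootsOfUnity, Units.ext_iff, Units.val_pow_eq_pow_val, IsUnit.unit_spec,
      hζ.pow_eq_one, Units.val_one]
  have hspec := modularCyclotomicCharacter.spec Qb hn (c : Qb ≃+* Qb) hmem
  rw [← cycloChar_apply, h1, Units.val_one, ZMod.val_one, pow_one, IsUnit.unit_spec] at hspec
  exact hζ.ne_one hp.out.one_lt
    (invol_root_of_unity hc hc1 (hp.out.odd_of_ne_two hp2) hζ.pow_eq_one hspec)

include hc hc1 hp2 in
/-- A nontrivial involution has determinant `-1` on `E[p]`. -/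
theorem det_invol (E : WeierstrassCurve ℚ) [E.IsElliptic] :
    LinearMap.det (Affine.Point.galoisRepModuleEnd (K := Qb) ℚ E.toAffine p c) = -1 := by
  have : NeZero p := ⟨hp.out.ne_zero⟩
  have hn : Nat.card (rootsOfUnity p Qb) = p := IsAlgClosed.card_rootsOfUnity_eq Qb p
  rw [det_galoisRepModuleEnd p E hn, cycloChar_invol hc hc1 hp2 hn, Units.val_neg, Units.val_one]

section absolute

variable {k : Type} [Field k] (h2 : (2 : k) ≠ 0)

include h2 in
/-- An irreducible odd representation in characteristic `≠ 2` is absolutely irreducible. -/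
theorem isAbsolutelyIrreducible_of_odd (ρ : ResidualGaloisRep k) (hirr : ρ.IsIrreducible)
    (hodd : ρ.IsOdd) : ρ.IsAbsolutelyIrreducible := by
  obtain ⟨c, hc, hc1⟩ := exists_involution
  have hdet := hodd c hc hc1
  set f := ρ.ρ c with hf
  have hff : ∀ x, f (f x) = x := fun x => by
    rw [← Module.End.mul_apply, hf, ← map_mul, hc, map_one, Module.End.one_apply]
  have hne : ∀ e : k, e * e = 1 → ∃ v : ρ.V, v ≠ 0 ∧ f v = e • v := by
    intro e he
    by_contra hcon
    push Not at hcon
    have hall : ∀ x, f x = (-e) • x := fun x => by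
      have h0 : f x + e • x = 0 := by
        by_contra h0
        refine hcon _ h0 ?_
        rw [map_add, map_smul, hff, smul_add, smul_smul, he, one_smul, add_comm]
      rw [neg_smul]; exact eq_neg_of_add_eq_zero_left h0
    have hfe : f = (-e) • (1 : Module.End k ρ.V) := LinearMap.ext fun x => by simpa using hall x
    rw [hfe, LinearMap.det_smul, map_one, mul_one, ρ.finrank_eq, sq, neg_mul_neg, he] at hdet
    exact h2 (by linear_combination hdet)
  obtain ⟨v₁, hv₁, e₁⟩ := hne 1 (one_mul 1)
  obtain ⟨v₂, hv₂, e₂⟩ := hne (-1) (by ring)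
  rw [one_smul] at e₁
  have hli : LinearIndependent k ![v₁, v₂] := by
    rw [LinearIndependent.pair_iff]
    intro s t hst
    have h1 := congrArg f hst
    rw [map_add, map_smul, map_smul, e₁, e₂, map_zero, smul_smul] at h1
    have hs : (2 * s) • v₁ = 0 := by
      have := congrArg₂ (· + ·) hst h1
      simp only [add_zero] at this
      rw [← this]; module
    have hs0 : s = 0 := by
      rcases smul_eq_zero.mp hs with h | h
      · exact (mul_eq_zero.mp h).resolve_left h2
      · exact absurd h hv₁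
    subst hs0
    rw [zero_smul, zero_add] at hst
    exact ⟨rfl, (smul_eq_zero.mp hst).resolve_right hv₂⟩
  let b : Module.Basis (Fin 2) k ρ.V :=
    basisOfLinearIndependentOfCardEqFinrank hli (by simp [ρ.finrank_eq])
  have hb : ∀ i, b i = ![v₁, v₂] i := fun i => by simp [b]
  let e : Fin 2 → k := ![1, -1]
  have he : ∀ i, f (b i) = e i • b i := fun i => by
    fin_cases i <;> simp [hb, e, e₁, e₂]
  let K := AlgebraicClosure k
  let B : Module.Basis (Fin 2) K (K ⊗[k] ρ.V) := b.baseChange K
  intro (N : Submodule K (K ⊗[k] ρ.V)) hN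
  by_contra hcon
  rw [not_or] at hcon
  obtain ⟨w, hwN, hw0⟩ := N.exists_mem_ne_zero_of_ne_bot hcon.1
  have hfin : Module.finrank K (K ⊗[k] ρ.V) = 2 := by
    rw [Module.finrank_baseChange, ρ.finrank_eq]
  have : Module.Finite K (K ⊗[k] ρ.V) := Module.Finite.of_basis B
  have hN1 : Module.finrank K N = 1 := by
    have h1 := Submodule.finrank_lt hcon.2
    have h0 : Module.finrank K N ≠ 0 := fun h => hcon.1 (Submodule.finrank_eq_zero.mp h)
    omega
  have hline : ∀ x ∈ N, ∃ μ : K, μ • w = x := fun x hx => by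
    obtain ⟨μ, hμ⟩ := (finrank_eq_one_iff_of_nonzero' (⟨w, hwN⟩ : N)
      (fun h => hw0 (congrArg Subtype.val h))).mp hN1 ⟨x, hx⟩
    exact ⟨μ, congrArg Subtype.val hμ⟩
  set co := B.repr w with hco
  -- the coordinates of `w` are eigen-coordinates, so one of them vanishes
  have hfB : ∀ j, (ρ.ρ c).baseChange K (B j) = algebraMap k K (e j) • B j := fun j => by
    rw [show B j = (1 : K) ⊗ₜ[k] b j from Module.Basis.baseChange_apply K b j,
      LinearMap.baseChange_tmul, ← hf, he, TensorProduct.tmul_smul, algebraMap_smul]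
  have hfw : ∀ i, B.repr ((ρ.ρ c).baseChange K w) i = algebraMap k K (e i) * co i := by
    intro i
    have hsum : w = co 0 • B 0 + co 1 • B 1 := by
      rw [hco]; exact (B.sum_repr w).symm.trans (Fin.sum_univ_two _)
    have hb' : (ρ.ρ c).baseChange K w =
        (co 0 * algebraMap k K (e 0)) • B 0 + (co 1 * algebraMap k K (e 1)) • B 1 := by
      conv_lhs => rw [hsum]
      rw [map_add, LinearMap.map_smul, LinearMap.map_smul]
      erw [hfB 0, hfB 1]
      rw [smul_smul, smul_smul]
    rw [hb', map_add, map_smul, map_smul, Module.Basis.repr_self, Module.Basis.repr_self]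
    fin_cases i <;> simp [mul_comm]
  obtain ⟨i, hi, j, hij, hj⟩ : ∃ i, co i ≠ 0 ∧ ∃ j, i ≠ j ∧ co j = 0 := by
    obtain ⟨μ, hμ⟩ := hline _ (hN c w hwN)
    have hμ' : ∀ i, μ * co i = algebraMap k K (e i) * co i := fun i => by
      rw [← hfw i]
      have := congrArg (fun x => B.repr x i) hμ
      simp only [map_smul, Finsupp.smul_apply, smul_eq_mul] at this
      exact this
    have h2K : (2 : K) ≠ 0 := by
      rw [← map_ofNat (algebraMap k K)]
      exact (map_ne_zero_iff _ (algebraMap k K).injective).mpr h2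
    by_cases h0 : co 0 = 0
    · refine ⟨1, fun h1 => hw0 ?_, 0, by decide, h0⟩
      refine B.ext_elem fun i => ?_
      fin_cases i <;> simp [← hco, h0, h1]
    · refine ⟨0, h0, 1, by decide, ?_⟩
      by_contra h1
      have a0 := mul_right_cancel₀ h0 (hμ' 0)
      have a1 := mul_right_cancel₀ h1 (hμ' 1)
      simp only [e, Matrix.cons_val_zero, Matrix.cons_val_one, map_one, map_neg] at a0 a1
      exact h2K (by linear_combination a1 - a0)
  have hwi : w = co i • B i := by
    refine B.ext_elem fun l => ?_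
    rw [map_smul, Finsupp.smul_apply, Module.Basis.repr_self_apply, smul_eq_mul, ← hco]
    by_cases hl : i = l
    · subst hl; simp
    · have : l = j := by omega
      rw [this, hj, if_neg hij, mul_zero]
  have hBi : B i ∈ N := by
    have := N.smul_mem (co i)⁻¹ hwN
    rwa [hwi, smul_smul, inv_mul_cancel₀ hi, one_smul] at this
  have hstab : ∀ (σ : GQ) (x : ρ.V), x ∈ k ∙ b i → ρ.ρ σ x ∈ k ∙ b i := by
    intro σ x hx
    obtain ⟨a, rfl⟩ := Submodule.mem_span_singleton.mp hx
    obtain ⟨μ, hμ⟩ := hline _ (hN σ _ hBi)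
    have hj' : b.repr (ρ.ρ σ (b i)) j = 0 := by
      have e1 : (ρ.baseChange K).ρ σ (B i) = (1 : K) ⊗ₜ[k] ρ.ρ σ (b i) := by
        show (ρ.ρ σ).baseChange K (B i) = _
        rw [show B i = (1 : K) ⊗ₜ[k] b i from Module.Basis.baseChange_apply K b i,
          LinearMap.baseChange_tmul]
      have h : B.repr (μ • w) j = B.repr ((1 : K) ⊗ₜ[k] ρ.ρ σ (b i)) j :=
        congrArg (fun y => B.repr y j) (hμ.trans e1)
      simp only [map_smul, Finsupp.smul_apply, ← hco, hj, smul_zero, B,
        Module.Basis.baseChange_repr_tmul] at h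
      rw [Algebra.smul_def, mul_one, eq_comm] at h
      exact (map_eq_zero_iff _ (algebraMap k K).injective).mp h
    rw [map_smul]
    refine Submodule.smul_mem _ a (Submodule.mem_span_singleton.mpr
      ⟨b.repr (ρ.ρ σ (b i)) i, ?_⟩)
    refine b.ext_elem fun l => ?_
    rw [map_smul, Finsupp.smul_apply, Module.Basis.repr_self_apply, smul_eq_mul]
    by_cases hl : i = l
    · subst hl; simp
    · have : l = j := by omega
      rw [this, hj', if_neg hij, mul_zero]
  rcases hirr (k ∙ b i) hstab with h | h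
  · exact b.ne_zero i ((Submodule.span_singleton_eq_bot.mp h))
  · have h1 := finrank_span_singleton (K := k) (b.ne_zero i)
    rw [h, finrank_top, ρ.finrank_eq] at h1
    omega

end absolute

/-- The mod `p` representation of `E` as a residual representation. -/
def residualRep (p : ℕ) [Fact p.Prime] (E : WeierstrassCurve ℚ) [E.IsElliptic] :
    ResidualGaloisRep (ZMod p) :=
  E.residualGaloisRepOf p (natCard_torsion E (Fact.out (p := p.Prime)).ne_zero)
    (galoisFactorsThroughFiniteLevel E (Fact.out (p := p.Prime)).ne_zero)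

include hp2 in
/-- Irreducible mod `p` representations of elliptic curves are absolutely irreducible. -/
theorem isAbsolutelyIrreducible_torsion (E : WeierstrassCurve ℚ) [E.IsElliptic]
    (hirr : Affine.Point.GaloisRepIsIrreducible (K := Qb) ℚ E.toAffine p)
    (hcard : Nat.card (Submodule.torsionBy ℤ (E⁄Qb).Point p) = p ^ 2)
    (hker : GaloisFactorsThroughFiniteLevel
      (Affine.Point.galoisRepModuleEnd (K := Qb) ℚ E.toAffine p)) :
    (E.residualGaloisRepOf p hcard hker).IsAbsolutelyIrreducible := by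
  refine isAbsolutelyIrreducible_of_odd ?_ _ (fun N hN => hirr.2 N fun σ x hx => hN σ x hx)
    fun c hc hc1 => det_invol hc hc1 hp2 E
  intro h
  exact hp2 ((Nat.prime_dvd_prime_iff_eq hp.out Nat.prime_two).mp
    ((ZMod.natCast_eq_zero_iff 2 p).mp (by exact_mod_cast h)))

end

end FA.Frob
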