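import Fermat.Agent.Frob.Det
import Fermat.Agent.Local.OrdinaryTorsion
import Fermat.Agent.Local.Primes
import Fermat.Prelude.Def_EllipticCurve_ZeroComponentAt
import Mathlib.NumberTheory.Padics.PadicVal.Basic

/-!
# Inertia at a multiplicative prime of an integral equation

Let `q` be a prime of multiplicative reduction of an integral equation `W` and `A` a place over
`q`. Inertia moves every point into the component of the identity. On `E[p]` for `p ≠ q` it is
unipotent, and trivial if `p ∣ v_q(Δ)`. At `q = p` odd the `p`-torsion in the kernel of reduction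
is a line on which inertia acts by the cyclotomic character, with trivial action on the quotient.
-/

namespace FA.Frob

open WeierstrassCurve FA.EC FA.Local
open scoped WeierstrassCurve.Affine Pointwise

noncomputable section

set_option linter.unusedSectionVars false

local notation "Qb" => AlgebraicClosure ℚ
local notation "GQ" => AlgebraicClosure ℚ ≃ₐ[ℚ] AlgebraicClosure ℚ

/-- The data of a prime of multiplicative reduction and a place over it. -/
structure MultAt (W : WeierstrassCurve ℤ) (q : ℕ) (A : ValuationSubring Qb) : Prop where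
  ne_zero : W.Δ ≠ 0
  prime : q.Prime
  dvd : (q : ℤ) ∣ W.Δ
  not_dvd : ¬ (q : ℤ) ∣ W.c₄
  lies : A.LiesOverPrime q

variable {W : WeierstrassCurve ℤ} {q : ℕ} {A : ValuationSubring Qb}

lemma map_Δ_ratCurve (W : WeierstrassCurve ℤ) : ((ratCurve W)⁄Qb).Δ = (W.Δ : Qb) := by
  show ((W.map (Int.castRingHom ℚ)).map (algebraMap ℚ Qb)).Δ = _
  rw [WeierstrassCurve.map_Δ, WeierstrassCurve.map_Δ]
  simp

lemma map_c₄_ratCurve (W : WeierstrassCurve ℤ) : ((ratCurve W)⁄Qb).c₄ = (W.c₄ : Qb) := by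
  show ((W.map (Int.castRingHom ℚ)).map (algebraMap ℚ Qb)).c₄ = _
  rw [WeierstrassCurve.map_c₄, WeierstrassCurve.map_c₄]
  simp

lemma MultAt.map_lt_one (h : MultAt W q A) : A.valuation (q : Qb) < 1 :=
  A.mem_nonunits_iff.mp h.lies

lemma MultAt.isElliptic (h : MultAt W q A) : (ratCurve W).IsElliptic :=
  ratCurve_isElliptic_of_Δ h.ne_zero

lemma MultAt.exists_node (h : MultAt W q A) : ∃ r, psi2 ((ratCurve W)⁄Qb) r = 0 ∧
    A.valuation r ≤ 1 ∧ Node A.valuation (toOrigin ((ratCurve W)⁄Qb) r).toAffine := by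
  refine FA.Local.exists_node (intCoeff_ratCurve W A) two_ne_zero ?_ ?_ ?_
  · rw [map_Δ_ratCurve]; exact intCast_lt_one_of_dvd h.map_lt_one h.dvd
  · rw [map_Δ_ratCurve]; exact Int.cast_ne_zero.mpr h.ne_zero
  · rw [map_c₄_ratCurve]; exact natCast_eq_one_of_not_dvd h.prime h.map_lt_one h.not_dvd

lemma residue_ne_zero_iff (a : A) : IsLocalRing.residue A a ≠ 0 ↔ A.valuation (a : Qb) = 1 := by
  rw [Ne, IsLocalRing.residue_eq_zero_iff, IsLocalRing.notMem_maximalIdeal,
    A.valuation_eq_one_iff]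

/-- `InZeroComponentAt` in terms of `NsE0`. -/
theorem inZeroComponentAt_iff (P : ((W.map (Int.castRingHom ℚ))⁄Qb).Point) :
    W.InZeroComponentAt A P ↔ NsE0 A.valuation ((ratCurve W)⁄Qb).toAffine P := by
  have hI := intCoeff_ratCurve W A
  rcases P with _ | ⟨x, y, h⟩
  · exact iff_of_true (Or.inl rfl) fun x y h e => absurd e.symm (Affine.Point.some_ne_zero h)
  set V := ((ratCurve W)⁄Qb).toAffine with hV
  have key : ∀ (hx : x ∈ A) (hy : y ∈ A),
      (W.map (Int.castRingHom (IsLocalRing.ResidueField A))).toAffine.Nonsingular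
        (IsLocalRing.residue A ⟨x, hx⟩) (IsLocalRing.residue A ⟨y, hy⟩) ↔
      NsRed A.valuation V x y := by
    intro hx hy
    rw [← redCurve_ratCurve]
    have hE := equation_resOf hI h.1 hx hy
    rw [resOf, resOf, dif_pos hx, dif_pos hy] at hE
    set M := intModel A V hI
    rw [Affine.nonsingular_iff']
    refine (and_iff_right hE).trans ?_
    have e1 : (redCurve A V hI).toAffine.a₁ * IsLocalRing.residue A ⟨y, hy⟩ -
        (3 * IsLocalRing.residue A ⟨x, hx⟩ ^ 2 + 2 * (redCurve A V hI).toAffine.a₂ *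
          IsLocalRing.residue A ⟨x, hx⟩ + (redCurve A V hI).toAffine.a₄) =
        IsLocalRing.residue A (M.a₁ * ⟨y, hy⟩ - (3 * ⟨x, hx⟩ ^ 2 + 2 * M.a₂ * ⟨x, hx⟩ + M.a₄)) := by
      simp only [map_sub, map_add, map_mul, map_pow, map_ofNat]; rfl
    have e2 : 2 * IsLocalRing.residue A ⟨y, hy⟩ + (redCurve A V hI).toAffine.a₁ *
          IsLocalRing.residue A ⟨x, hx⟩ + (redCurve A V hI).toAffine.a₃ =
        IsLocalRing.residue A (2 * ⟨y, hy⟩ + M.a₁ * ⟨x, hx⟩ + M.a₃) := by
      simp only [map_sub, map_add, map_mul, map_pow, map_ofNat]; rfl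
    rw [e1, e2, residue_ne_zero_iff, residue_ne_zero_iff]
    have c1 : ((M.a₁ * ⟨y, hy⟩ - (3 * ⟨x, hx⟩ ^ 2 + 2 * M.a₂ * ⟨x, hx⟩ + M.a₄) : A) : Qb) =
        -(fx V x y) := by
      show V.a₁ * y - (3 * x ^ 2 + 2 * V.a₂ * x + V.a₄) = _
      simp only [fx]; ring
    have c2 : ((2 * ⟨y, hy⟩ + M.a₁ * ⟨x, hx⟩ + M.a₃ : A) : Qb) = fy V x y := rfl
    rw [c1, c2, Valuation.map_neg, NsRed, or_comm]
  constructor
  · rintro (h0 | ⟨x', y', h', he, hh⟩) x₀ y₀ h₀ he₀ hx₀
    · exact absurd h0 (Affine.Point.some_ne_zero h)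
    simp only [Affine.Point.some.injEq] at he he₀
    obtain ⟨rfl, rfl⟩ := he₀
    obtain ⟨rfl, rfl⟩ := he
    rcases hh with hh | ⟨hx, hy, hh⟩
    · exact absurd ((A.valuation_le_one_iff _).mp hx₀) hh
    · exact (key hx hy).mp hh
  · intro hns
    refine Or.inr ⟨x, y, h, rfl, ?_⟩
    by_cases hx : x ∈ A
    · have hy := y_mem hI h.1 hx
      exact Or.inr ⟨hx, hy, (key hx hy).mpr
        (hns x y h rfl ((A.valuation_le_one_iff _).mpr hx))⟩
    · exact Or.inl hx

/-- Inertia moves every point into the component of the identity. -/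
theorem MultAt.inZeroComponentAt_smul_sub (h : MultAt W q A) {σ : GQ}
    (hσ : σ ∈ A.inertiaSubgroupIn ℚ) (P : ((W.map (Int.castRingHom ℚ))⁄Qb).Point) :
    W.InZeroComponentAt A (σ • P - P) := by
  have := h.isElliptic
  obtain ⟨r, hr, hr1, hN⟩ := h.exists_node
  exact (inZeroComponentAt_iff _).mpr (nsE0_smul_sub (ratCurve W) hr hr1 hN two_ne_zero
    (intCoeff_ratCurve W A) (inert_of_mem_inertiaSubgroupIn A hσ) P)

/-- Inertia sends the component of the identity into itself modulo the kernel of reduction. -/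
theorem MultAt.e1_smul_sub_smul_sub (h : MultAt W q A) {σ τ : GQ}
    (hσ : σ ∈ A.inertiaSubgroupIn ℚ) (hτ : τ ∈ A.inertiaSubgroupIn ℚ)
    (P : ((ratCurve W)⁄Qb).toAffine.Point) :
    E1 A.valuation ((ratCurve W)⁄Qb).toAffine (τ • (σ • P - P) - (σ • P - P)) := by
  have := h.isElliptic
  obtain ⟨r, hr, hr1, hN⟩ := h.exists_node
  exact FA.Local.e1_smul_sub_smul_sub (ratCurve W) hr hr1 hN two_ne_zero (intCoeff_ratCurve W A)
    (inert_of_mem_inertiaSubgroupIn A hσ) (inert_of_mem_inertiaSubgroupIn A hτ) P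

variable {p : ℕ} [hp : Fact p.Prime]

lemma eq_zero_of_e1_of_ne (hq : q.Prime) (hA : A.LiesOverPrime q) (hpq : p ≠ q)
    [(ratCurve W).IsElliptic] {P : ((ratCurve W)⁄Qb).toAffine.Point}
    (hP : E1 A.valuation ((ratCurve W)⁄Qb).toAffine P) (hpP : p • P = 0) : P = 0 := by
  have hI := intCoeff_ratCurve W A
  have hv : A.valuation (p : Qb) = 1 := by
    have := valuation_intCast_of_liesOverPrime hq hA (n := (p : ℤ)) fun hd =>
      hpq ((Nat.prime_dvd_prime_iff_eq hq hp.out).mp (Int.natCast_dvd_natCast.mp hd)).symm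
    rwa [Int.cast_natCast] at this
  rcases hp.out.eq_two_or_odd' with rfl | hodd
  · exact eq_zero_of_e1_of_two hI (by simpa using hv) hP hpP
  · exact eq_zero_of_e1_of_nsmul hI hodd hv hP hpP

lemma nsmul_torsion {E : WeierstrassCurve ℚ} (x : Submodule.torsionBy ℤ (E⁄Qb).Point p) :
    p • (x.1 : (E⁄Qb).toAffine.Point) = 0 := by
  rw [← natCast_zsmul]; exact (Submodule.mem_torsionBy_iff _ _).mp x.2

/-- Away from `p` inertia is unipotent on `E[p]`. -/
theorem MultAt.smul_smul_sub (h : MultAt W q A) (hpq : p ≠ q) {σ τ : GQ}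
    (hσ : σ ∈ A.inertiaSubgroupIn ℚ) (hτ : τ ∈ A.inertiaSubgroupIn ℚ)
    (x : Submodule.torsionBy ℤ ((ratCurve W)⁄Qb).Point p) :
    τ • (σ • x - x) = σ • x - x := by
  have := h.isElliptic
  refine sub_eq_zero.mp (Subtype.ext ?_)
  exact eq_zero_of_e1_of_ne h.prime h.lies hpq (h.e1_smul_sub_smul_sub hσ hτ x.1)
    (nsmul_torsion (τ • (σ • x - x) - (σ • x - x)))

lemma exists_valuation_eq_pow (hq : q.Prime) (hA : A.LiesOverPrime q) {n : ℤ} (hn : n ≠ 0) :
    A.valuation (n : Qb) = A.valuation (q : Qb) ^ padicValInt q n := by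
  have : Fact q.Prime := ⟨hq⟩
  obtain ⟨m, hm⟩ := padicValInt_dvd (p := q) n
  have hndvd : ¬ (q : ℤ) ∣ m := by
    rintro ⟨c, rfl⟩
    have hdiv : (q : ℤ) ^ (padicValInt q n + 1) ∣ n :=
      ⟨c, by rw [pow_succ, mul_assoc]; exact hm⟩
    rcases (padicValInt_dvd_iff _ _).mp hdiv with h | h
    · exact hn h
    · omega
  conv_lhs => rw [hm]
  push_cast
  rw [map_mul, map_pow, natCast_eq_one_of_not_dvd hq (A.mem_nonunits_iff.mp hA) hndvd, mul_one]

/-- A `p`-torsion point is congruent to an inertia-fixed point modulo the component of the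
identity when `p ∣ v_q(Δ)`. -/
theorem MultAt.exists_fixed (h : MultAt W q A) (hp2 : p ≠ 2)
    (hdvd : (p : ℤ) ∣ padicValRat q (ratCurve W).Δ)
    (x : Submodule.torsionBy ℤ ((ratCurve W)⁄Qb).Point p) :
    ∃ R : ((ratCurve W)⁄Qb).toAffine.Point,
      NsE0 A.valuation ((ratCurve W)⁄Qb).toAffine (x.1 - R) ∧
      ∀ σ ∈ A.inertiaSubgroupIn ℚ, σ • R = R := by
  have := h.isElliptic
  obtain ⟨r, hr, hr1, hN⟩ := h.exists_node
  rw [WeierstrassCurve.map_Δ, eq_intCast, padicValRat.of_int, Int.natCast_dvd_natCast] at hdvd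
  obtain ⟨k, hk⟩ := hdvd
  obtain ⟨R, hR, hfix⟩ := exists_fixed_of_torsion (ratCurve W) hr hr1 hN two_ne_zero
    (intCoeff_ratCurve W A) hp.out (hp.out.odd_of_ne_two hp2) (D := (q : Qb) ^ k)
    (fun τ _ => by rw [map_pow, map_natCast])
    (by rw [map_Δ_ratCurve, exists_valuation_eq_pow h.prime h.lies h.ne_zero, hk, map_pow,
      ← pow_mul, mul_comm]) (nsmul_torsion x)
  exact ⟨R, hR, fun σ hσ => hfix σ (inert_of_mem_inertiaSubgroupIn A hσ)⟩

/-- `p ∣ v_q(Δ)` makes `E[p]` unramified at `q ≠ p`. -/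
theorem MultAt.smul_eq (h : MultAt W q A) (hp2 : p ≠ 2) (hpq : p ≠ q)
    (hdvd : (p : ℤ) ∣ padicValRat q (ratCurve W).Δ) {σ : GQ} (hσ : σ ∈ A.inertiaSubgroupIn ℚ)
    (x : Submodule.torsionBy ℤ ((ratCurve W)⁄Qb).Point p) : σ • x = x := by
  have := h.isElliptic
  obtain ⟨R, hR, hfix⟩ := h.exists_fixed hp2 hdvd x
  refine sub_eq_zero.mp (Subtype.ext ?_)
  refine eq_zero_of_e1_of_ne h.prime h.lies hpq ?_ (nsmul_torsion (σ • x - x))
  have e := (inert_of_mem_inertiaSubgroupIn A hσ).e1_smul_sub (ratCurve W)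
    (intCoeff_ratCurve W A) _ hR
  rw [gal_smul_sub, hfix σ hσ, sub_sub_sub_cancel_right] at e
  exact e

section atP

variable (h : MultAt W p A) (hp2 : p ≠ 2)

/-- The `p`-torsion in the kernel of reduction. -/
def e1Torsion (W : WeierstrassCurve ℤ) [(ratCurve W).IsElliptic] (A : ValuationSubring Qb)
    (p : ℕ) [Fact p.Prime] :
    Submodule (ZMod p) (Submodule.torsionBy ℤ ((ratCurve W)⁄Qb).Point p) :=
  AddSubgroup.toZModSubmodule p
    { carrier := {x : Submodule.torsionBy ℤ ((ratCurve W)⁄Qb).Point p |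
        E1 (v := A.valuation) ((ratCurve W)⁄Qb).toAffine x.1}
      zero_mem' := e1_zero (v := A.valuation) (W := ((ratCurve W)⁄Qb).toAffine)
      add_mem' := fun ha hb => e1_add (intCoeff_ratCurve W A) ha hb
      neg_mem' := fun ha => e1_neg.mpr ha }

lemma mem_e1Torsion [(ratCurve W).IsElliptic]
    {x : Submodule.torsionBy ℤ ((ratCurve W)⁄Qb).Point p} :
    x ∈ e1Torsion W A p ↔ E1 A.valuation ((ratCurve W)⁄Qb).toAffine x.1 := Iff.rfl

lemma smul_mem_e1Torsion [(ratCurve W).IsElliptic] {σ : GQ}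
    (hσ : σ ∈ A.decompositionSubgroup ℚ) {x : Submodule.torsionBy ℤ ((ratCurve W)⁄Qb).Point p}
    (hx : x ∈ e1Torsion W A p) : σ • x ∈ e1Torsion W A p := by
  rw [mem_e1Torsion] at hx ⊢
  show E1 A.valuation ((ratCurve W)⁄Qb).toAffine (σ • x.1)
  rcases hxe : (x.1 : ((ratCurve W)⁄Qb).toAffine.Point) with _ | ⟨a, b, hab⟩
  · exact e1_zero
  rw [hxe] at hx
  obtain ⟨h', he⟩ := smul_some (σ := σ) (ratCurve W) hab
  rw [he, e1_some]
  rw [e1_some] at hx
  by_contra hc
  rw [not_lt, A.valuation_le_one_iff] at hc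
  refine absurd hx (not_lt.mpr ((A.valuation_le_one_iff a).mpr ?_))
  have hstab : σ • A = A := hσ
  rwa [← hstab, ← AlgEquiv.smul_def, ValuationSubring.smul_mem_pointwise_smul_iff] at hc

include h hp2 in
lemma finrank_e1Torsion [(ratCurve W).IsElliptic] :
    Module.finrank (ZMod p) (e1Torsion W A p) = 1 := by
  obtain ⟨r, hr, hr1, hN⟩ := h.exists_node
  obtain ⟨⟨P, hP, hP0, hP1⟩, Q, hQ, hQ1⟩ := exists_torsion_e1_and_not hr1 hN hp.out hp2
    (Nat.cast_ne_zero.mpr hp.out.ne_zero) h.map_lt_one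
  have hb : e1Torsion W A p ≠ ⊥ := fun hb => hP0 (by
    have : (⟨P, (Submodule.mem_torsionBy_iff _ _).mpr (by rw [natCast_zsmul]; exact hP)⟩ :
        Submodule.torsionBy ℤ ((ratCurve W)⁄Qb).Point p) ∈ e1Torsion W A p := hP1
    rw [hb, Submodule.mem_bot] at this
    exact congrArg Subtype.val this)
  have ht : e1Torsion W A p ≠ ⊤ := fun ht => hQ1 (by
    have : (⟨Q, (Submodule.mem_torsionBy_iff _ _).mpr (by rw [natCast_zsmul]; exact hQ)⟩ :
        Submodule.torsionBy ℤ ((ratCurve W)⁄Qb).Point p) ∈ e1Torsion W A p := by rw [ht]; trivial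
    exact this)
  have h1 := Submodule.finrank_lt ht
  rw [finrank_torsion (ratCurve W) p] at h1
  have h0 : Module.finrank (ZMod p) (e1Torsion W A p) ≠ 0 := fun h0 =>
    hb (Submodule.finrank_eq_zero.mp h0)
  omega

include h hp2 in
/-- Inertia at `p` is trivial on the quotient by the kernel of reduction. -/
theorem smul_sub_mem_e1Torsion [(ratCurve W).IsElliptic] {σ : GQ}
    (hσ : σ ∈ A.inertiaSubgroupIn ℚ) (x : Submodule.torsionBy ℤ ((ratCurve W)⁄Qb).Point p) :
    σ • x - x ∈ e1Torsion W A p := by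
  by_contra hx
  set N := e1Torsion W A p
  have hσ' : σ ∈ A.decompositionSubgroup ℚ := by obtain ⟨τ, -, rfl⟩ := hσ; exact τ.2
  have htop : N ⊔ Submodule.span (ZMod p) {σ • x - x} = ⊤ := by
    apply Submodule.eq_top_of_finrank_eq
    have hlt : N < N ⊔ Submodule.span (ZMod p) {σ • x - x} := by
      refine lt_of_le_of_ne le_sup_left fun e => hx ?_
      rw [e]; exact Submodule.mem_sup_right (Submodule.mem_span_singleton_self _)
    have h1 := Submodule.finrank_lt_finrank_of_lt hlt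
    have h2 := Submodule.finrank_le (N ⊔ Submodule.span (ZMod p) {σ • x - x})
    rw [finrank_e1Torsion h hp2] at h1
    rw [finrank_torsion (ratCurve W) p] at h2 ⊢
    omega
  obtain ⟨n, hn, m, hm, hnm⟩ := Submodule.mem_sup.mp (htop.ge (Submodule.mem_top (x := x)))
  obtain ⟨c, rfl⟩ := Submodule.mem_span_singleton.mp hm
  refine hx ?_
  rw [← hnm, smul_add, smul_comm σ c, add_sub_add_comm, ← smul_sub c]
  exact N.add_mem (N.sub_mem (smul_mem_e1Torsion hσ' hn) hn)
    (N.smul_mem c (h.e1_smul_sub_smul_sub hσ hσ x.1))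

include h hp2 in
/-- Inertia at `p` acts on the kernel of reduction by the cyclotomic character. -/
theorem smul_eq_cycloChar_smul [(ratCurve W).IsElliptic]
    (hn : Nat.card (rootsOfUnity p Qb) = p) {σ : GQ} (hσ : σ ∈ A.inertiaSubgroupIn ℚ)
    {z : Submodule.torsionBy ℤ ((ratCurve W)⁄Qb).Point p} (hz : z ∈ e1Torsion W A p) :
    σ • z = ((cycloChar p hn σ : (ZMod p)ˣ) : ZMod p) • z := by
  by_cases hz0 : z = 0
  · rw [hz0, smul_zero, smul_zero]
  set N := e1Torsion W A p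
  have hσ' : σ ∈ A.decompositionSubgroup ℚ := by obtain ⟨τ, -, rfl⟩ := hσ; exact τ.2
  have hN1 := finrank_e1Torsion h hp2
  obtain ⟨c, hc⟩ := (finrank_eq_one_iff_of_nonzero' (⟨z, hz⟩ : N)
    (fun e => hz0 (congrArg Subtype.val e))).mp hN1 ⟨σ • z, smul_mem_e1Torsion hσ' hz⟩
  replace hc : c • z = σ • z := congrArg Subtype.val hc
  obtain ⟨y, hy⟩ : ∃ y, y ∉ N := by
    by_contra hall
    push Not at hall
    have : N = ⊤ := eq_top_iff.mpr fun y _ => hall y
    rw [show e1Torsion W A p = ⊤ from this, finrank_top, finrank_torsion (ratCurve W) p] at hN1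
    omega
  have hli : LinearIndependent (ZMod p) ![z, y] := by
    rw [LinearIndependent.pair_iff' hz0]
    intro a ha
    exact hy (ha ▸ N.smul_mem a hz)
  let b : Module.Basis (Fin 2) (ZMod p) (Submodule.torsionBy ℤ ((ratCurve W)⁄Qb).Point p) :=
    basisOfLinearIndependentOfCardEqFinrank hli (by simp [finrank_torsion (ratCurve W) p])
  obtain ⟨d, hd⟩ := (finrank_eq_one_iff_of_nonzero' (⟨z, hz⟩ : N)
    (fun e => hz0 (congrArg Subtype.val e))).mp hN1
    ⟨σ • y - y, smul_sub_mem_e1Torsion h hp2 hσ y⟩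
  replace hd : d • z = σ • y - y := congrArg Subtype.val hd
  have hdet := det_galoisRepModuleEnd p (ratCurve W) hn σ
  rw [← LinearMap.det_toMatrix b, Matrix.det_fin_two] at hdet
  have hb0 : b 0 = z := by simp [b]
  have hb1 : b 1 = y := by simp [b]
  have f0 : Affine.Point.galoisRepModuleEnd (K := Qb) ℚ (ratCurve W).toAffine p σ (b 0) =
      c • b 0 := by
    rw [Affine.Point.galoisRepModuleEnd_apply, hb0]; exact hc.symm
  have f1 : Affine.Point.galoisRepModuleEnd (K := Qb) ℚ (ratCurve W).toAffine p σ (b 1) =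
      d • b 0 + b 1 := by
    rw [Affine.Point.galoisRepModuleEnd_apply, hb0, hb1, hd, sub_add_cancel]
  simp only [LinearMap.toMatrix_apply, f0, f1, map_smul, map_add, Finsupp.smul_apply,
    Finsupp.add_apply, Module.Basis.repr_self, Finsupp.single_apply] at hdet
  simp at hdet
  rw [← hc, hdet]

include h hp2 in
/-- The line at a multiplicative `p`. -/
theorem exists_line_at_p (hn : Nat.card (rootsOfUnity p Qb) = p) :
    ∃ z : Submodule.torsionBy ℤ ((ratCurve W)⁄Qb).Point p, z ≠ 0 ∧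
      (∀ σ ∈ A.inertiaSubgroupIn ℚ,
        σ • z = ((cycloChar p hn σ : (ZMod p)ˣ) : ZMod p) • z ∧
        ∀ y, σ • y - y ∈ Submodule.span (ZMod p) {z}) ∧
      ∀ σ ∈ A.decompositionSubgroup ℚ, σ • z ∈ Submodule.span (ZMod p) {z} := by
  have := h.isElliptic
  obtain ⟨⟨z, hz⟩, hz0, hspan⟩ := finrank_eq_one_iff'.mp (finrank_e1Torsion h hp2)
  have hz0' : z ≠ 0 := fun e => hz0 (Subtype.ext e)
  have hsp : e1Torsion W A p = Submodule.span (ZMod p) {z} := by
    refine le_antisymm (fun x hx => ?_) ((Submodule.span_singleton_le_iff_mem _ _).mpr hz)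
    obtain ⟨c, hc⟩ := hspan ⟨x, hx⟩
    exact Submodule.mem_span_singleton.mpr ⟨c, congrArg Subtype.val hc⟩
  exact ⟨z, hz0', fun σ hσ => ⟨smul_eq_cycloChar_smul h hp2 hn hσ hz,
    fun y => hsp ▸ smul_sub_mem_e1Torsion h hp2 hσ y⟩,
    fun σ hσ => hsp ▸ smul_mem_e1Torsion hσ hz⟩

end atP

end

end FA.Frob
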