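import Fermat.Agent.Frob.Charpoly
import Fermat.Agent.Frob.VarChange
import Fermat.Agent.Deform.Frobenius

/-!
# Independence of the integral model

For an elliptic curve `E` over `ℚ` with an integral model good at `l ≠ p`, Frobenius at `l` acts
on `E[p]` with characteristic polynomial `X² - a_l X + l`. In particular `a_l` is the same for
all integral models which are good at `l`.
-/

namespace FA.Frob

open WeierstrassCurve Polynomial FA.EC
open scoped WeierstrassCurve.Affine

noncomputable section

set_option linter.unusedSectionVars false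

local notation "Qb" => AlgebraicClosure ℚ

variable {E E' : WeierstrassCurve ℚ} [E.IsElliptic] [E'.IsElliptic] (C : VariableChange ℚ)
  (hC : C • E = E')

include hC in
lemma baseChange_vc : C.map (algebraMap ℚ Qb) • (E⁄Qb) = (E'⁄Qb) := by
  show C.map (algebraMap ℚ Qb) • E.map (algebraMap ℚ Qb) = E'.map (algebraMap ℚ Qb)
  rw [WeierstrassCurve.map_variableChange, hC]

/-- The change of variables on points over the algebraic closure. -/
def pointEquiv : (E'⁄Qb).toAffine.Point ≃+ (E⁄Qb).toAffine.Point :=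
  vcEquiv (C.map (algebraMap ℚ Qb)) (baseChange_vc C hC)

lemma pointEquiv_smul (σ : Qb ≃ₐ[ℚ] Qb) (P : (E'⁄Qb).toAffine.Point) :
    pointEquiv C hC (σ • P) = σ • pointEquiv C hC P := by
  rcases P with _ | ⟨x, y, h⟩
  · rfl
  · show Affine.Point.some (vcX (C.map (algebraMap ℚ Qb)) (σ x))
        (vcY (C.map (algebraMap ℚ Qb)) (σ x) (σ y)) _ =
      Affine.Point.some (σ (vcX (C.map (algebraMap ℚ Qb)) x))
        (σ (vcY (C.map (algebraMap ℚ Qb)) x y)) _
    simp [vcX, vcY, VariableChange.map, Affine.Point.some.injEq]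

/-- The change of variables on `p`-torsion. -/
def torsionEquiv (p : ℕ) [Fact p.Prime] :
    Submodule.torsionBy ℤ (E'⁄Qb).Point p ≃ₗ[ZMod p] Submodule.torsionBy ℤ (E⁄Qb).Point p :=
  let e : Submodule.torsionBy ℤ (E'⁄Qb).Point p ≃+ Submodule.torsionBy ℤ (E⁄Qb).Point p :=
    { toFun := fun P => ⟨pointEquiv C hC P.1, by
        rw [Submodule.mem_torsionBy_iff]
        show (p : ℤ) • pointEquiv C hC P.1 = 0
        rw [← map_zsmul]
        exact (congrArg (pointEquiv C hC) ((Submodule.mem_torsionBy_iff _ _).mp P.2)).trans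
          (map_zero _)⟩
      invFun := fun P => ⟨(pointEquiv C hC).symm P.1, by
        rw [Submodule.mem_torsionBy_iff]
        show (p : ℤ) • (pointEquiv C hC).symm P.1 = 0
        rw [← map_zsmul]
        exact (congrArg (pointEquiv C hC).symm ((Submodule.mem_torsionBy_iff _ _).mp P.2)).trans
          (map_zero _)⟩
      left_inv := fun P => Subtype.ext ((pointEquiv C hC).symm_apply_apply P.1)
      right_inv := fun P => Subtype.ext ((pointEquiv C hC).apply_symm_apply P.1)
      map_add' := fun P Q => Subtype.ext (map_add (pointEquiv C hC) P.1 Q.1) }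
  LinearEquiv.ofBijective (e.toAddMonoidHom.toZModLinearMap p) e.bijective

lemma torsionEquiv_apply (p : ℕ) [Fact p.Prime] (P : Submodule.torsionBy ℤ (E'⁄Qb).Point p) :
    ((torsionEquiv C hC p P).1 : (E⁄Qb).toAffine.Point) = pointEquiv C hC P.1 := rfl

/-- The representations of isomorphic curves are conjugate. -/
lemma galoisRepModuleEnd_conj (p : ℕ) [Fact p.Prime] (σ : Qb ≃ₐ[ℚ] Qb) :
    (torsionEquiv C hC p).conj (Affine.Point.galoisRepModuleEnd (K := Qb) ℚ E'.toAffine p σ) =
      Affine.Point.galoisRepModuleEnd (K := Qb) ℚ E.toAffine p σ := by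
  refine LinearMap.ext fun P => ?_
  rw [LinearEquiv.conj_apply_apply]
  apply Subtype.ext
  rw [torsionEquiv_apply]
  show pointEquiv C hC (σ • ((torsionEquiv C hC p).symm P).1) = σ • P.1
  rw [pointEquiv_smul]
  exact congrArg (σ • ·) (congrArg Subtype.val ((torsionEquiv C hC p).apply_symm_apply P))

open scoped Classical in
/-- Frobenius on `E[p]` for a curve with an integral model good at `l`. -/
theorem charpoly_galoisRep_of_model {W : WeierstrassCurve ℤ} (hW : W.IsIntegralModelOf E) {l : ℕ}
    (hl : l.Prime) (hgood : W.IsGoodPrimeFor l) {p : ℕ} [Fact p.Prime] (hpl : p ≠ l)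
    {A : ValuationSubring Qb} (hA : A.LiesOverPrime l) {σ : Qb ≃ₐ[ℚ] Qb}
    (hσ : A.IsFrobeniusAt σ l) :
    LinearMap.charpoly (Affine.Point.galoisRepModuleEnd (K := Qb) ℚ E.toAffine p σ) =
      X ^ 2 - Polynomial.C (W.apOfModel l : ZMod p) * X + Polynomial.C (l : ZMod p) := by
  obtain ⟨C, hC⟩ := hW
  have := ratCurve_isElliptic W hgood
  rw [← charpoly_galoisRep W hl hgood hpl hA hσ, ← galoisRepModuleEnd_conj C hC p σ,
    LinearEquiv.charpoly_conj]

/-- The trace and the determinant. -/
theorem apOfModel_congr {W W' : WeierstrassCurve ℤ} (hW : W.IsIntegralModelOf E)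
    (hW' : W'.IsIntegralModelOf E) {l : ℕ} (hl : l.Prime) (hgood : W.IsGoodPrimeFor l)
    (hgood' : W'.IsGoodPrimeFor l) {p : ℕ} [Fact p.Prime] (hpl : p ≠ l) :
    (W.apOfModel l : ZMod p) = W'.apOfModel l := by
  obtain ⟨A, hA⟩ := FA.Deform.exists_liesOverPrime hl
  obtain ⟨σ, hσ⟩ := FA.Deform.exists_isFrobeniusAt hl hA
  have h := (charpoly_galoisRep_of_model hW hl hgood hpl hA hσ).symm.trans
    (charpoly_galoisRep_of_model hW' hl hgood' hpl hA hσ)
  have h1 := congrArg (fun q : (ZMod p)[X] => q.coeff 1) h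
  simpa [coeff_C] using h1

/-- `a_l` does not depend on the integral model good at `l`. -/
theorem apOfModel_eq {W W' : WeierstrassCurve ℤ} (hW : W.IsIntegralModelOf E)
    (hW' : W'.IsIntegralModelOf E) {l : ℕ} (hl : l.Prime) (hgood : W.IsGoodPrimeFor l)
    (hgood' : W'.IsGoodPrimeFor l) : W.apOfModel l = W'.apOfModel l := by
  obtain ⟨p, hp1, hp⟩ :=
    Nat.exists_infinite_primes (max (l + 1) ((W.apOfModel l - W'.apOfModel l).natAbs + 1))
  have : Fact p.Prime := ⟨hp⟩
  have h := apOfModel_congr hW hW' hl hgood hgood' (p := p) (by omega)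
  rw [ZMod.intCast_eq_intCast_iff_dvd_sub] at h
  by_contra hne
  have := Nat.le_of_dvd (by omega) (Int.natCast_dvd.mp h)
  omega

end

end FA.Frob
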