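import Mathlib.AlgebraicGeometry.EllipticCurve.Affine.Point

/-!
# Points along a field homomorphism
-/

namespace FA.Frob

open WeierstrassCurve

universe u v

variable {F : Type u} {K : Type v} [Field F] [Field K] [DecidableEq F] [DecidableEq K]
  {W : Affine F} {W' : Affine K} (f : F →+* K) (hW : W.map f = W')

include hW in
lemma nonsingular_mapHom {x y : F} (h : W.Nonsingular x y) : W'.Nonsingular (f x) (f y) :=
  hW ▸ (W.map_nonsingular f.injective x y).mpr h

/-- The map on points induced by a field homomorphism carrying `W` to `W'`. -/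
def mapHom : W.Point →+ W'.Point where
  toFun P := match P with
    | .zero => 0
    | .some x y h => .some (f x) (f y) (nonsingular_mapHom f hW h)
  map_zero' := rfl
  map_add' := by
    subst hW
    rintro (_ | ⟨x₁, y₁, h₁⟩) (_ | ⟨x₂, y₂, h₂⟩)
    any_goals rfl
    have hn : (W.map f).toAffine.negY (f x₂) (f y₂) = f (W.negY x₂ y₂) := Affine.map_negY f x₂ y₂
    by_cases hxy : x₁ = x₂ ∧ y₁ = W.negY x₂ y₂
    · rw [Affine.Point.add_of_Y_eq hxy.1 hxy.2]
      exact (Affine.Point.add_of_Y_eq (by rw [hxy.1]) (by rw [hn, hxy.2])).symm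
    · have hxy' : ¬ (f x₁ = f x₂ ∧ f y₁ = (W.map f).toAffine.negY (f x₂) (f y₂)) := by
        rw [hn]; exact fun h => hxy ⟨f.injective h.1, f.injective h.2⟩
      rw [Affine.Point.add_some hxy]
      refine Eq.trans ?_ (Affine.Point.add_some hxy').symm
      simp only [Affine.Point.some.injEq, Affine.map_slope, Affine.map_addX, Affine.map_addY,
        and_self]

@[simp] lemma mapHom_zero : mapHom f hW 0 = 0 := rfl

lemma mapHom_some {x y : F} (h : W.Nonsingular x y) :
    mapHom f hW (.some x y h) = .some (f x) (f y) (nonsingular_mapHom f hW h) := rfl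

lemma mapHom_injective : Function.Injective (mapHom f hW) := by
  rintro (_ | ⟨x₁, y₁, h₁⟩) (_ | ⟨x₂, y₂, h₂⟩) h
  any_goals contradiction
  · rfl
  · simp only [mapHom_some, Affine.Point.some.injEq] at h
    simp only [Affine.Point.some.injEq]
    exact ⟨f.injective h.1, f.injective h.2⟩

end FA.Frob
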