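import Fermat.Agent.Frob.Models
import Fermat.Agent.Density.Traces
import Fermat.Prelude.Def_FreyPackage_DetCyclotomic

/-!
# The determinant is the cyclotomic character

For every elliptic curve over `ℚ` and every prime `p` the determinant of the representation on
`E[p]` is the mod `p` cyclotomic character.
-/

namespace FA.Frob

open WeierstrassCurve Polynomial FA.EC
open scoped WeierstrassCurve.Affine

noncomputable section

set_option linter.unusedSectionVars false

local notation "Qb" => AlgebraicClosure ℚ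
local notation "GQ" => AlgebraicClosure ℚ ≃ₐ[ℚ] AlgebraicClosure ℚ

/-- Every curve over `ℚ` has an integral model. -/
theorem exists_integralModel (E : WeierstrassCurve ℚ) :
    ∃ W : WeierstrassCurve ℤ, W.IsIntegralModelOf E := by
  set d : ℤ := ((E.a₁.den * E.a₂.den * E.a₃.den * E.a₄.den * E.a₆.den : ℕ) : ℤ) with hd
  have hd0 : (d : ℚ) ≠ 0 := by simp [hd, Rat.den_ne_zero]
  have key : ∀ q : ℚ, (q.den : ℤ) ∣ d → ∀ i : ℕ, 0 < i → ∃ n : ℤ, (d : ℚ) ^ i * q = n := by
    rintro q ⟨c, hc⟩ i hi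
    obtain ⟨j, rfl⟩ := Nat.exists_eq_succ_of_ne_zero hi.ne'
    refine ⟨d ^ j * c * q.num, ?_⟩
    have hq : (q.den : ℚ) * q = q.num := by rw [mul_comm]; exact Rat.mul_den_eq_num q
    have hc' : (d : ℚ) = (q.den : ℚ) * c := by rw [hc]; push_cast; ring
    rw [pow_succ]
    push_cast
    rw [← hq]
    conv_lhs => arg 1; arg 2; rw [hc']
    ring
  have hdiv : ∀ x ∈ [E.a₁, E.a₂, E.a₃, E.a₄, E.a₆], (x.den : ℤ) ∣ d := by
    intro x hx
    rw [hd, Int.natCast_dvd_natCast]
    simp only [List.mem_cons, List.not_mem_nil, or_false] at hx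
    rcases hx with rfl | rfl | rfl | rfl | rfl
    · exact dvd_mul_of_dvd_left (dvd_mul_of_dvd_left (dvd_mul_of_dvd_left (dvd_mul_right _ _) _) _) _
    · exact dvd_mul_of_dvd_left (dvd_mul_of_dvd_left (dvd_mul_of_dvd_left (dvd_mul_left _ _) _) _) _
    · exact dvd_mul_of_dvd_left (dvd_mul_of_dvd_left (dvd_mul_left _ _) _) _
    · exact dvd_mul_of_dvd_left (dvd_mul_left _ _) _
    · exact dvd_mul_left _ _
  obtain ⟨n₁, h₁⟩ := key E.a₁ (hdiv _ (by simp)) 1 one_pos
  obtain ⟨n₂, h₂⟩ := key E.a₂ (hdiv _ (by simp)) 2 two_pos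
  obtain ⟨n₃, h₃⟩ := key E.a₃ (hdiv _ (by simp)) 3 (by norm_num)
  obtain ⟨n₄, h₄⟩ := key E.a₄ (hdiv _ (by simp)) 4 (by norm_num)
  obtain ⟨n₆, h₆⟩ := key E.a₆ (hdiv _ (by simp)) 6 (by norm_num)
  refine ⟨⟨n₁, n₂, n₃, n₄, n₆⟩, ⟨(Units.mk0 (d : ℚ) hd0)⁻¹, 0, 0, 0⟩, ?_⟩
  ext <;> simp [variableChange_a₁, variableChange_a₂, variableChange_a₃, variableChange_a₄,
    variableChange_a₆, ← h₁, ← h₂, ← h₃, ← h₄, ← h₆]

lemma Δ_ne_zero_of_model {E : WeierstrassCurve ℚ} [E.IsElliptic] {W : WeierstrassCurve ℤ}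
    (hW : W.IsIntegralModelOf E) : W.Δ ≠ 0 := by
  obtain ⟨C, hC⟩ := hW
  intro h
  have h1 : (C • E).Δ = 0 := by
    rw [hC, WeierstrassCurve.map_Δ, h, map_zero]
  exact (C • E).isUnit_Δ.ne_zero h1

/-- A Frobenius element at `q ≠ p` acts as `ζ ↦ ζ ^ q` on the `p`-th roots of unity. -/
theorem frobenius_rootsOfUnity {p q : ℕ} (hp : p.Prime) (hq : q.Prime) (hqp : q ≠ p)
    {A : ValuationSubring Qb} (hA : A.LiesOverPrime q) {σ : GQ} (hσ : A.IsFrobeniusAt σ q)
    {ζ : Qb} (hζ : ζ ^ p = 1) : σ ζ = ζ ^ q := by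
  have hζ0 : ζ ≠ 0 := fun h => by simp [h, zero_pow hp.ne_zero] at hζ
  have hmem : ∀ {x : Qb}, x ^ p = 1 → x ∈ A := fun {x} hx => by
    rw [← A.valuation_le_one_iff]
    by_contra hc
    have := one_lt_pow₀ (not_le.mp hc) hp.ne_zero
    rw [← map_pow, hx, map_one] at this
    exact lt_irrefl _ this
  have h := FA.Density.sub_pow_mem_nonunits hσ (hmem hζ)
  set μ := σ ζ / ζ ^ q with hμ
  have hμp : μ ^ p = 1 := by
    rw [hμ, div_pow, ← map_pow, hζ, map_one, ← pow_mul, mul_comm, pow_mul, hζ, one_pow, div_one]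
  have hv : A.valuation (ζ ^ q) = 1 := by
    rw [map_pow]
    have : A.valuation ζ ^ p = 1 := by rw [← map_pow, hζ, map_one]
    rw [(pow_eq_one_iff.mp this).resolve_right hp.ne_zero, one_pow]
  have h1 : A.valuation (μ - 1) < 1 := by
    rw [hμ, div_sub_one (pow_ne_zero _ hζ0), map_div₀, hv, div_one]
    exact A.mem_nonunits_iff.mp h
  rw [← div_eq_one_iff_eq (pow_ne_zero _ hζ0)]
  by_contra hne
  have hsum : ∑ i ∈ Finset.range p, μ ^ i = 0 := by
    rw [geom_sum_eq hne, hμp, sub_self, zero_div]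
  have hle : A.valuation μ ≤ 1 := (A.valuation_le_one_iff μ).mpr (hmem hμp)
  have hpow : ∀ i : ℕ, A.valuation (μ ^ i - 1) < 1 := fun i => by
    rw [← geom_sum_mul μ i, map_mul]
    refine lt_of_le_of_lt (mul_le_of_le_one_left' (A.valuation.map_sum_le fun j _ => ?_)) h1
    rw [map_pow]; exact pow_le_one₀ zero_le hle
  have hs : A.valuation (∑ i ∈ Finset.range p, (μ ^ i - 1)) < 1 :=
    A.valuation.map_sum_lt one_ne_zero fun i _ => hpow i
  rw [Finset.sum_sub_distrib, hsum, Finset.sum_const, Finset.card_range, nsmul_one, zero_sub,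
    A.valuation.map_neg, ← Int.cast_natCast,
    valuation_intCast_of_liesOverPrime hq hA fun hd =>
      hqp ((Nat.prime_dvd_prime_iff_eq hq hp).mp (Int.natCast_dvd_natCast.mp hd))] at hs
  exact lt_irrefl _ hs

variable (p : ℕ) [hp : Fact p.Prime]

/-- The mod `p` cyclotomic character of the Galois group. -/
def cycloChar (hn : Nat.card (rootsOfUnity p Qb) = p) : GQ →* (ZMod p)ˣ :=
  haveI : NeZero p := ⟨hp.out.ne_zero⟩
  (modularCyclotomicCharacter Qb hn).comp
    { toFun := fun σ => (σ : Qb ≃+* Qb)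
      map_one' := rfl
      map_mul' := fun _ _ => rfl }

lemma cycloChar_apply (hn : Nat.card (rootsOfUnity p Qb) = p) [NeZero p] (σ : GQ) :
    cycloChar p hn σ = modularCyclotomicCharacter Qb hn (σ : Qb ≃+* Qb) := rfl

lemma cycloChar_frobenius (hn : Nat.card (rootsOfUnity p Qb) = p) {q : ℕ} (hq : q.Prime)
    (hqp : q ≠ p) {A : ValuationSubring Qb} (hA : A.LiesOverPrime q) {σ : GQ}
    (hσ : A.IsFrobeniusAt σ q) : ((cycloChar p hn σ : (ZMod p)ˣ) : ZMod p) = q := by
  have : NeZero p := ⟨hp.out.ne_zero⟩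
  rw [cycloChar_apply]
  symm
  refine modularCyclotomicCharacter.unique Qb hn _ fun t ht => ?_
  have ht' : (t : Qb) ^ p = 1 := by
    rw [← Units.val_pow_eq_pow_val, (mem_rootsOfUnity p t).mp ht, Units.val_one]
  show σ (t : Qb) = _
  rw [frobenius_rootsOfUnity hp.out hq hqp hA hσ ht', ZMod.val_natCast]
  exact pow_eq_pow_mod q ht'

lemma isOpen_ker_cycloChar (hn : Nat.card (rootsOfUnity p Qb) = p) :
    IsOpen ((cycloChar p hn).ker : Set GQ) := by
  have : NeZero p := ⟨hp.out.ne_zero⟩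
  let S : Set Qb := {x | x ^ p = 1}
  have hfin : S.Finite := by
    refine ((Polynomial.X ^ p - 1 : Qb[X]).roots.toFinset.finite_toSet).subset fun x hx => ?_
    simp only [Finset.mem_coe, Multiset.mem_toFinset, mem_roots']
    exact ⟨by simpa using X_pow_sub_C_ne_zero hp.out.pos (1 : Qb), by simp [show x ^ p = 1 from hx]⟩
  have : FiniteDimensional ℚ (IntermediateField.adjoin ℚ S) := by
    have : Finite S := hfin.to_subtype
    exact IntermediateField.finiteDimensional_adjoin fun x _ =>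
      ((AlgebraicClosure.isAlgebraic ℚ).isAlgebraic x).isIntegral
  refine Subgroup.isOpen_mono (H₁ := (IntermediateField.adjoin ℚ S).fixingSubgroup) (fun σ hσ => ?_)
    (IntermediateField.fixingSubgroup_isOpen _)
  rw [MonoidHom.mem_ker, Units.ext_iff, cycloChar_apply, Units.val_one]
  symm
  refine modularCyclotomicCharacter.unique Qb hn _ fun t ht => ?_
  have ht' : (t : Qb) ^ p = 1 := by
    rw [← Units.val_pow_eq_pow_val, (mem_rootsOfUnity p t).mp ht, Units.val_one]
  rw [ZMod.val_one, pow_one]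
  exact (IntermediateField.mem_fixingSubgroup_iff _ _).mp hσ _
    (IntermediateField.subset_adjoin ℚ S ht')

variable (E : WeierstrassCurve ℚ) [E.IsElliptic]

lemma galoisRep_eq_galoisRepModuleEnd (σ : GQ) :
    (Affine.Point.galoisRep (K := Qb) (S := ℚ) E.toAffine p σ).toLinearMap =
      Affine.Point.galoisRepModuleEnd (K := Qb) ℚ E.toAffine p σ := rfl

lemma isOpen_ker_galoisRepDet :
    IsOpen ((Affine.Point.galoisRepDet (K := Qb) (S := ℚ) E.toAffine p).ker : Set GQ) := by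
  obtain ⟨L, hL, h⟩ := galoisFactorsThroughFiniteLevel E (n := p) hp.out.ne_zero
  refine Subgroup.isOpen_mono (H₁ := L.fixingSubgroup) (fun σ hσ => ?_)
    (IntermediateField.fixingSubgroup_isOpen L)
  rw [MonoidHom.mem_ker, Units.ext_iff, Affine.Point.galoisRepDet_apply, LinearEquiv.coe_det,
    galoisRep_eq_galoisRepModuleEnd, h σ ((IntermediateField.mem_fixingSubgroup_iff _ _).mp hσ)]
  simp

/-- The determinant of `E[p]` is the cyclotomic character. -/
theorem galoisRepDet_eq_cycloChar (hn : Nat.card (rootsOfUnity p Qb) = p) :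
    Affine.Point.galoisRepDet (K := Qb) (S := ℚ) E.toAffine p = cycloChar p hn := by
  obtain ⟨W, hW⟩ := exists_integralModel E
  have hΔ := Δ_ne_zero_of_model hW
  refine FA.Density.monoidHom_eq_of_frobenius _ _ (isOpen_ker_galoisRepDet p E)
    (isOpen_ker_cycloChar p hn) (insert p W.Δ.natAbs.divisors) fun q hq hqS A hA σ hσ => ?_
  rw [Finset.mem_insert, not_or, Nat.mem_divisors] at hqS
  have hgood : W.IsGoodPrimeFor q := fun h =>
    hqS.2 ⟨Int.natCast_dvd.mp h, Int.natAbs_ne_zero.mpr hΔ⟩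
  have h := charpoly_galoisRep_of_model hW hq hgood (p := p) (Ne.symm hqS.1) hA hσ
  have hV := finrank_torsion E p
  rw [Units.ext_iff, Affine.Point.galoisRepDet_apply, LinearEquiv.coe_det,
    galoisRep_eq_galoisRepModuleEnd, cycloChar_frobenius p hn hq hqS.1 hA hσ,
    LinearMap.det_eq_sign_charpoly_coeff, h, hV]
  simp [coeff_X, coeff_C]

/-- The determinant of `E[p]` is the cyclotomic character, in the packaged form. -/
theorem galoisRepDetEqCyclotomic [NeZero p] (hn : Nat.card (rootsOfUnity p Qb) = p) :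
    Affine.Point.GaloisRepDetEqCyclotomic (K := Qb) ℚ E.toAffine p hn := fun σ => by
  rw [galoisRepDet_eq_cycloChar p E hn, cycloChar_apply]

/-- The determinant of `galoisRepModuleEnd`. -/
theorem det_galoisRepModuleEnd (hn : Nat.card (rootsOfUnity p Qb) = p) (σ : GQ) :
    LinearMap.det (Affine.Point.galoisRepModuleEnd (K := Qb) ℚ E.toAffine p σ) =
      ((cycloChar p hn σ : (ZMod p)ˣ) : ZMod p) := by
  rw [← galoisRepDet_eq_cycloChar p E hn, Affine.Point.galoisRepDet_apply, LinearEquiv.coe_det,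
    galoisRep_eq_galoisRepModuleEnd]

end

end FA.Frob
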