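import Fermat.Agent.Frob.Spec

/-!
# The kernel of a separable endomorphism

If the abscissa of `Z` is not a rational function in `T ^ l` (its numerator and denominator do
not both have derivative zero), then an endomorphism given by `Z` has exactly `hgt Z` elements
in its kernel. Such `Z` are for instance `c • gen - W` with `l ∤ c` and `W` inseparable.
-/

namespace FA.Frob

open WeierstrassCurve Polynomial FA.EC Filter

universe u

noncomputable section

set_option linter.unusedSectionVars false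

variable {k : Type u} [Field k]

lemma derivative_eq_zero_of_isCoprime {a b : k[X]} (h : IsCoprime a b)
    (e : derivative a * b = a * derivative b) : derivative a = 0 ∧ derivative b = 0 := by
  have key : ∀ p : k[X], p ∣ derivative p → derivative p = 0 := by
    intro p hp
    by_contra hne
    by_cases hd : p.natDegree = 0
    · rw [eq_C_of_natDegree_eq_zero hd, derivative_C] at hne
      exact hne rfl
    · exact absurd (natDegree_le_of_dvd hp hne) (not_le.mpr (natDegree_derivative_lt hd))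
  exact ⟨key a (h.dvd_of_dvd_mul_right ⟨derivative b, e⟩),
    key b (h.symm.dvd_of_dvd_mul_right ⟨derivative a, by rw [mul_comm, ← e, mul_comm]⟩)⟩

variable (W : WeierstrassCurve k) [W.IsElliptic] [DecidableEq (FF W)]

/-- The abscissa has derivative zero. -/
def Insep (Z : (WF W).toAffine.Point) : Prop :=
  derivative (pvec W Z 0) = 0 ∧ derivative (pvec W Z 1) = 0

lemma insep_zero : Insep W 0 := by
  simp [Insep, pvec, ← Affine.Point.zero_def]

lemma pvec_neg (Z : (WF W).toAffine.Point) : pvec W (-Z) = pvec W Z := by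
  rcases Z with _ | ⟨x, y, h⟩
  · rfl
  · rfl

lemma insep_neg {Z : (WF W).toAffine.Point} : Insep W (-Z) ↔ Insep W Z := by
  rw [Insep, Insep, pvec_neg]

lemma isCoprime_pvec (Z : (WF W).toAffine.Point) : IsCoprime (pvec W Z 0) (pvec W Z 1) := by
  rcases Z with _ | ⟨x, y, h⟩
  · exact isCoprime_one_left
  · exact RatFunc.isCoprime_num_denom x.re

lemma eq_or_eq_neg_of_pvec {P Q : (WF W).toAffine.Point} (hP : P ∈ MM W) (hQ : Q ∈ MM W)
    (e : pvec W P 1 * pvec W Q 0 = pvec W P 0 * pvec W Q 1) : P = Q ∨ P = -Q := by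
  rcases P with _ | ⟨x, y, h⟩ <;> rcases Q with _ | ⟨x', y', h'⟩
  · exact Or.inl rfl
  · exact absurd (by simpa [pvec] using e) (RatFunc.denom_ne_zero x'.re).symm
  · exact absurd (by simpa [pvec] using e) (RatFunc.denom_ne_zero x.re)
  · have hre : x.re = x'.re := by
      rw [← RatFunc.num_div_denom x.re, ← RatFunc.num_div_denom x'.re,
        div_eq_div_iff (RatFunc.algebraMap_ne_zero (RatFunc.denom_ne_zero _))
          (RatFunc.algebraMap_ne_zero (RatFunc.denom_ne_zero _)), ← map_mul, ← map_mul]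
      congr 1
      simp only [pvec, Matrix.cons_val_zero, Matrix.cons_val_one] at e
      rw [← e, mul_comm]
    have hx : x = x' := QuadraticAlgebra.ext hre ((im_eq_zero W hP).trans (im_eq_zero W hQ).symm)
    rcases Affine.Y_eq_of_X_eq h.1 h'.1 hx with hy | hy
    · subst hx hy; exact Or.inl rfl
    · subst hx hy; exact Or.inr rfl

section closure

variable [IsAlgClosed k]

lemma add_self_ne_zero {Z : (WF W).toAffine.Point} (hZ : Z ∈ MM W) (h : hgt W Z ≠ 0) :
    Z + Z ≠ 0 := fun h0 => by
  have := hgt_parallelogram W hZ hZ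
  rw [h0, sub_self, hgt_zero] at this
  omega

/-- Inseparable points of positive height are closed under sums. -/
lemma Insep.add {Z₁ Z₂ : (WF W).toAffine.Point} (h₁ : Z₁ ∈ MM W) (h₂ : Z₂ ∈ MM W)
    (n₁ : hgt W Z₁ ≠ 0) (n₂ : hgt W Z₂ ≠ 0) (i₁ : Insep W Z₁) (i₂ : Insep W Z₂) :
    Insep W (Z₁ + Z₂) := by
  obtain ⟨c, hc, e⟩ := exists_asub_pvec W h₁ h₂
  obtain ⟨i₁₀, i₁₁⟩ := i₁
  obtain ⟨i₂₀, i₂₁⟩ := i₂
  have hu : ∀ i, derivative (symPair (pvec W (Z₁ + Z₂)) (pvec W (Z₁ - Z₂)) i) = 0 := by
    intro i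
    have h0 : derivative (asubPoly W (symPair (pvec W Z₁) (pvec W Z₂)) i) = 0 := by
      fin_cases i <;>
        simp [asubPoly, asub, symPair, derivative_mul, derivative_pow, map_ofNat, i₁₀, i₁₁, i₂₀, i₂₁]
    rw [e] at h0
    simpa [derivative_C_mul, hc] using h0
  set a := pvec W (Z₁ + Z₂) 0
  set b := pvec W (Z₁ + Z₂) 1
  set a' := pvec W (Z₁ - Z₂) 0
  set b' := pvec W (Z₁ - Z₂) 1
  have u0 : derivative (a * a') = 0 := hu 0
  have u1 : derivative (a * b' + b * a') = 0 := hu 1
  have u2 : derivative (b * b') = 0 := hu 2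
  rw [derivative_mul] at u0 u2
  rw [derivative_add, derivative_mul, derivative_mul] at u1
  have key : (derivative a * b - a * derivative b) * (b * a' - a * b') = 0 := by
    linear_combination b ^ 2 * u0 - a * b * u1 + a ^ 2 * u2
  rcases mul_eq_zero.mp key with h | h
  · exact derivative_eq_zero_of_isCoprime (isCoprime_pvec W _) (sub_eq_zero.mp h)
  · exfalso
    rcases eq_or_eq_neg_of_pvec W ((MM W).add_mem h₁ h₂) ((MM W).sub_mem h₁ h₂)
      (sub_eq_zero.mp h) with hh | hh
    · refine add_self_ne_zero W h₂ n₂ ?_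
      rw [sub_eq_add_neg, add_right_inj] at hh
      exact eq_neg_iff_add_eq_zero.mp hh
    · refine add_self_ne_zero W h₁ n₁ ?_
      rw [← add_eq_zero_iff_eq_neg] at hh
      rwa [show Z₁ + Z₂ + (Z₁ - Z₂) = Z₁ + Z₁ by abel] at hh

end closure

lemma eval_map_tGen (p : k[X]) : (p.map (kEmb W)).eval (tGen W) = polyEmb W p := by
  rw [eval_map]
  suffices eval₂RingHom (kEmb W) (tGen W) = polyEmb W from congrFun (congrArg DFunLike.coe this) p
  refine Polynomial.ringHom_ext (fun a => ?_) ?_
  · simp [polyEmb, kEmb, RatFunc.algebraMap_C]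
  · simp [polyEmb, tGen, RatFunc.algebraMap_X]

/-- A multiple of the generic point by an integer invertible in `k` is not inseparable. -/
lemma not_insep_nsmul_gen {n : ℕ} (hn : (n : k) ≠ 0) : ¬ Insep W (n • gen W) := by
  classical
  rintro ⟨hN, hD⟩
  have hn0 : n ≠ 0 := by rintro rfl; simp at hn
  set Φ := W.Φ n
  set Ψ := W.ΨSq n
  have hΨ0 : Ψ ≠ 0 := fun h => wronskian_ne_zero W hn (by simp [Ψ] at h; simp [h])
  have eΦ : ((WF W).Φ n).eval (tGen W) = polyEmb W Φ := by rw [map_Φ, eval_map_tGen]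
  have eΨ : ((WF W).ΨSq n).eval (tGen W) = polyEmb W Ψ := by rw [map_ΨSq, eval_map_tGen]
  have hne : ((WF W).ΨSq n).eval (tGen W) ≠ 0 := by
    rw [eΨ]; exact (map_ne_zero_iff _ (polyEmb_injective W)).mpr hΨ0
  obtain ⟨Y, h', he⟩ := zsmul_eq_some (nonsingular_gen W) (n : ℤ) hne
  rw [natCast_zsmul] at he
  rw [gen, he] at hN hD
  set r := (((WF W).Φ n).eval (tGen W) / ((WF W).ΨSq n).eval (tGen W)).re
  have hr : r = algebraMap k[X] (RatFunc k) Φ / algebraMap k[X] (RatFunc k) Ψ := by
    show (((WF W).Φ n).eval (tGen W) / ((WF W).ΨSq n).eval (tGen W)).re = _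
    rw [eΦ, eΨ, polyEmb, RingHom.comp_apply, RingHom.comp_apply, ← map_div₀,
      QuadraticAlgebra.algebraMap_re]
  have hcross : r.num * Ψ = Φ * r.denom := by
    apply FaithfulSMul.algebraMap_injective k[X] (RatFunc k)
    rw [map_mul, map_mul, ← div_eq_div_iff (RatFunc.algebraMap_ne_zero (RatFunc.denom_ne_zero _))
      (RatFunc.algebraMap_ne_zero hΨ0), RatFunc.num_div_denom, hr]
  change derivative r.num = 0 at hN
  change derivative r.denom = 0 at hD
  have hd := congrArg derivative hcross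
  rw [derivative_mul, derivative_mul, hN, hD] at hd
  have : (derivative Φ * Ψ - Φ * derivative Ψ) * r.denom = 0 := by
    linear_combination (derivative Ψ) * hcross - Ψ * hd
  exact wronskian_ne_zero W hn ((mul_eq_zero.mp this).resolve_right r.denom_ne_zero)

lemma not_insep_zsmul_gen {c : ℤ} (hc : (c : k) ≠ 0) : ¬ Insep W (c • gen W) := by
  obtain ⟨n, rfl | rfl⟩ := c.eq_nat_or_neg
  · rw [natCast_zsmul]; exact not_insep_nsmul_gen W (by simpa using hc)
  · rw [neg_zsmul, insep_neg, natCast_zsmul]; exact not_insep_nsmul_gen W (by simpa using hc)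

variable [IsAlgClosed k] [DecidableEq k]

/-- The general fibre of a separable endomorphism has `hgt` elements. -/
theorem eventually_natCard_fibre {Z : (WF W).toAffine.Point} (hM : Z ∈ MM W)
    {g : W.toAffine.Point →+ W.toAffine.Point} (hS : Spec W Z g) (hi : ¬ Insep W Z) :
    ∀ᶠ Q in cofinite, Nat.card {P // g P = Q} = hgt W Z ∧ 0 < hgt W Z := by
  classical
  rcases Z with _ | ⟨X₁, Y₁, hXY⟩
  · exact absurd (insep_zero W) hi
  set N := X₁.re.num with hN
  set D := X₁.re.denom with hD
  set d := hgt W (.some X₁ Y₁ hXY) with hd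
  have hpv : pvec W (.some X₁ Y₁ hXY) = ![N, D] := rfl
  have hNd : N.natDegree ≤ d := natDegree_le_pdeg (pvec W (.some X₁ Y₁ hXY)) 0
  have hDd : D.natDegree ≤ d := natDegree_le_pdeg (pvec W (.some X₁ Y₁ hXY)) 1
  have htop : ¬ (N.coeff d = 0 ∧ D.coeff d = 0) := fun h =>
    topv_ne_zero (noZero_pvec W (.some X₁ Y₁ hXY)).ne_zero (funext fun i => by
      fin_cases i
      · exact h.1
      · exact h.2)
  have hcop : ∀ r, N.eval r = 0 → D.eval r ≠ 0 := fun r h0 h1 =>
    noZero_pvec W (.some X₁ Y₁ hXY) r (funext fun i => by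
      fin_cases i
      · exact h0
      · exact h1)
  set V := derivative N * D - N * derivative D
  have hV : V ≠ 0 := fun h => hi (derivative_eq_zero_of_isCoprime
    (isCoprime_pvec W (.some X₁ Y₁ hXY)) (sub_eq_zero.mp h))
  have hdpos : 0 < d := by
    rcases Nat.eq_zero_or_pos d with h0 | h0
    · exact absurd ⟨derivative_of_natDegree_zero (Nat.le_zero.mp (h0 ▸ hNd)),
        derivative_of_natDegree_zero (Nat.le_zero.mp (h0 ▸ hDd))⟩ hi
    · exact h0
  have hbad : {P | ¬ Rel W (.some X₁ Y₁ hXY) P (g P)}.Finite := eventually_cofinite.mp hS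
  set T : Finset k :=
    ((V.roots.toFinset.image fun r => N.eval r / D.eval r) ∪ W.Ψ₂Sq.roots.toFinset ∪
      {N.coeff d / D.coeff d} ∪ (hbad.toFinset.image fun P => xc (g P)) ∪
      (hbad.toFinset.image fun P => N.eval (xc P) / D.eval (xc P))) with hT
  filter_upwards [eventually_point W (p := fun t => t ∉ T)
    (eventually_cofinite.mpr (T.finite_toSet.subset fun t ht => not_not.mp ht))] with Q₀ hQ₀
  obtain ⟨hQ0, ht⟩ := hQ₀
  obtain ⟨t, Y₀, hQ, rfl⟩ := exists_some_of_ne_zero hQ0
  rw [xc_some] at ht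
  simp only [hT, Finset.mem_union, Finset.mem_image, Multiset.mem_toFinset, Finset.mem_singleton,
    Set.Finite.mem_toFinset, Set.mem_ofPred_eq, not_or, not_exists, not_and] at ht
  obtain ⟨⟨⟨⟨htV, htΨ⟩, httop⟩, htg⟩, htx⟩ := ht
  set G := N - C t * D with hG
  have hGd : G.natDegree = d := by
    refine natDegree_eq_of_le_of_coeff_ne_zero
      ((natDegree_sub_le _ _).trans (max_le hNd ((natDegree_C_mul_le _ _).trans hDd))) ?_
    rw [hG, coeff_sub, coeff_C_mul]
    intro h
    by_cases hD0 : D.coeff d = 0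
    · exact htop ⟨by simpa [hD0] using h, hD0⟩
    · exact httop (by rw [eq_div_iff hD0]; linear_combination -h)
  have hG0 : G ≠ 0 := fun h => by rw [h, natDegree_zero] at hGd; omega
  have hroot : ∀ r, G.IsRoot r → D.eval r ≠ 0 ∧ N.eval r = t * D.eval r := by
    intro r hr
    simp only [IsRoot.def, hG, eval_sub, eval_mul, eval_C, sub_eq_zero] at hr
    exact ⟨fun h0 => hcop r (by rw [hr, h0, mul_zero]) h0, hr⟩
  have hnodup : G.roots.Nodup := by
    refine Multiset.nodup_iff_count_le_one.mpr fun r => ?_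
    rw [count_roots]
    by_contra hc
    have h1 : 1 < rootMultiplicity r G := by omega
    obtain ⟨hr, hr'⟩ := (one_lt_rootMultiplicity_iff_isRoot hG0).mp h1
    obtain ⟨hDr, hNr⟩ := hroot r hr
    simp only [IsRoot.def, hG, derivative_sub, derivative_mul, derivative_C, zero_mul, zero_add,
      eval_sub, eval_mul, eval_C, sub_eq_zero] at hr'
    refine htV r ((mem_roots hV).mpr ?_) (by rw [hNr, mul_div_cancel_right₀ _ hDr])
    simp only [V, IsRoot.def, eval_sub, eval_mul, hr', hNr]
    ring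
  have hcard : G.roots.toFinset.card = d := by
    rw [Multiset.toFinset_card_of_nodup hnodup, IsAlgClosed.card_roots_eq_natDegree, hGd]
  -- the value of the abscissa at a good point
  have hval : ∀ P, Rel W (.some X₁ Y₁ hXY) P (g P) →
      ∃ x y, ∃ h : W.toAffine.Nonsingular x y, P = .some x y h ∧ g P ≠ 0 ∧
        xc (g P) = N.eval x / D.eval x := by
    intro P hP
    rcases P with _ | ⟨x, y, h⟩
    · exact hP.elim
    obtain ⟨-, -, h', he⟩ := hP
    refine ⟨x, y, h, rfl, by rw [he]; exact Affine.Point.some_ne_zero h', ?_⟩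
    rw [he, xc_some]
    simp [ev, im_eq_zero W hM, RatFunc.eval, hN, hD]
  set Q : W.toAffine.Point := .some t Y₀ hQ
  have hQne : Q ≠ -Q := by
    intro h
    have : Q + Q = 0 := by
      nth_rw 1 [h]
      rw [neg_add_cancel]
    have h0 := pc_eq_zero_of_add_self this
    have h2 := pc_sq (Affine.Point.some_ne_zero hQ)
    rw [h0, zero_pow two_ne_zero] at h2
    exact htΨ ((mem_roots (Ψ₂Sq_ne_zero_of_isElliptic W)).mpr h2.symm)
  have hgood : ∀ P, g P = Q → Rel W (.some X₁ Y₁ hXY) P (g P) := fun P hP => by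
    by_contra hc
    exact htg P hc (by rw [hP, xc_some])
  let f : {P // g P = Q} → {r // r ∈ G.roots.toFinset} := fun P => ⟨xc P.1, by
    obtain ⟨x, y, h, hPe, -, hx⟩ := hval P.1 (hgood P.1 P.2)
    rw [P.2, xc_some] at hx
    rw [Multiset.mem_toFinset, mem_roots hG0, hPe, xc_some]
    have hD0 : D.eval x ≠ 0 := by
      rcases P with ⟨P, hP⟩
      have := hgood P hP
      simp only at hPe
      subst hPe
      exact this.1.1
    simp only [IsRoot.def, hG, eval_sub, eval_mul, eval_C, sub_eq_zero]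
    rw [hx, div_mul_cancel₀ _ hD0]⟩
  have hne : ∀ P, g P = Q → P ≠ 0 := fun P hP => by
    rintro rfl
    rw [map_zero] at hP
    exact Affine.Point.some_ne_zero hQ hP.symm
  have hf : Function.Bijective f := by
    constructor
    · rintro ⟨P, hP⟩ ⟨P', hP'⟩ h
      have h' : xc P = xc P' := congrArg Subtype.val h
      rcases eq_or_eq_neg_of_xc_eq (hne P hP) (hne P' hP') h' with rfl | rfl
      · rfl
      · rw [map_neg, hP'] at hP
        exact absurd hP.symm hQne
    · rintro ⟨r, hr⟩
      rw [Multiset.mem_toFinset, mem_roots hG0] at hr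
      obtain ⟨hDr, hNr⟩ := hroot r hr
      obtain ⟨b, hb⟩ := FA.EC.exists_nonsingular W r
      have hrel : Rel W (.some X₁ Y₁ hXY) (.some r b hb) (g (.some r b hb)) := by
        by_contra hc
        exact htx _ hc (by rw [xc_some, hNr, mul_div_cancel_right₀ _ hDr])
      obtain ⟨x, y, h, hPe, hg0, hx⟩ := hval _ hrel
      simp only [Affine.Point.some.injEq] at hPe
      obtain ⟨rfl, rfl⟩ := hPe
      have hx' : xc (g (.some r b hb)) = xc Q := by
        rw [hx, hNr, mul_div_cancel_right₀ _ hDr, xc_some]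
      rcases eq_or_eq_neg_of_xc_eq hg0 (Affine.Point.some_ne_zero hQ) hx' with h | h
      · exact ⟨⟨_, h⟩, Subtype.ext (xc_some hb)⟩
      · exact ⟨⟨-Affine.Point.some r b hb, by rw [map_neg, h, neg_neg]⟩,
          Subtype.ext ((xc_neg _).trans (xc_some hb))⟩
  have hfib : Nat.card {P // g P = Q} = d := by
    rw [Nat.card_congr (Equiv.ofBijective f hf), Nat.card_eq_fintype_card, Fintype.card_coe, hcard]
  exact ⟨hfib, hdpos⟩

/-- The kernel of a separable endomorphism has `hgt` elements. -/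
theorem natCard_ker {Z : (WF W).toAffine.Point} (hM : Z ∈ MM W)
    {g : W.toAffine.Point →+ W.toAffine.Point} (hS : Spec W Z g) (hi : ¬ Insep W Z) :
    Nat.card g.ker = hgt W Z := by
  have := infinite_point W
  obtain ⟨Q, hfib, hdpos⟩ := (eventually_natCard_fibre W hM hS hi).exists
  obtain ⟨⟨P₀, hP₀⟩⟩ := (Nat.card_pos_iff.mp (hfib ▸ hdpos)).1
  rw [← hfib]
  exact Nat.card_congr
    { toFun := fun P => ⟨P.1 + P₀, by
        rw [map_add, AddMonoidHom.mem_ker.mp P.2, hP₀, zero_add]⟩
      invFun := fun P => ⟨P.1 - P₀, AddMonoidHom.mem_ker.mpr (by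
        rw [map_sub, P.2, hP₀, sub_self])⟩
      left_inv := fun P => Subtype.ext (add_sub_cancel_right _ _)
      right_inv := fun P => Subtype.ext (sub_add_cancel _ _) }

/-- A separable endomorphism is surjective. -/
theorem surjective_of_spec {Z : (WF W).toAffine.Point} (hM : Z ∈ MM W)
    {g : W.toAffine.Point →+ W.toAffine.Point} (hS : Spec W Z g) (hi : ¬ Insep W Z) :
    Function.Surjective g := fun Q => by
  have := infinite_point W
  have hR : ∀ᶠ R in cofinite, R ∈ g.range := by
    filter_upwards [eventually_natCard_fibre W hM hS hi] with R hR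
    obtain ⟨⟨P, hP⟩⟩ := (Nat.card_pos_iff.mp (hR.1 ▸ hR.2)).1
    exact ⟨P, hP⟩
  obtain ⟨R, h₁, h₂⟩ :=
    (hR.and ((Function.Injective.tendsto_cofinite (sub_right_injective (b := Q))).eventually hR)).exists
  simpa using add_mem h₁ h₂

end

end FA.Frob
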