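import Fermat.Agent.Frob.Degree
import Mathlib.Algebra.CharP.Algebra
import Mathlib.Algebra.CharP.Frobenius

/-!
# The quadratic equation of the Frobenius endomorphism

For an elliptic curve over an algebraically closed field of characteristic `l` whose
coefficients are fixed by the `l`-power map, the Frobenius `π` satisfies `π² - aπ + l = 0`
for an integer `a` with `#ker (c - π) = c² - ac + l` for every `c` prime to `l`.
-/

namespace FA.Frob

open WeierstrassCurve Polynomial FA.EC Filter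

universe u

noncomputable section

set_option linter.unusedSectionVars false

variable {k : Type u} [Field k] {l : ℕ} [Fact l.Prime] [CharP k l]
  (W : WeierstrassCurve k) (hW : W.map (frobenius k l) = W)

instance : CharP (FF W) l := charP_of_injective_ringHom (kEmb W).injective l

lemma map_frobenius_WF (hW : W.map (frobenius k l) = W) :
    (WF W).map (frobenius (FF W) l) = WF W := by
  have h : (frobenius (FF W) l).comp (kEmb W) = (kEmb W).comp (frobenius k l) := by
    ext a <;> simp [frobenius_def, map_pow]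
  rw [WF, WeierstrassCurve.map_map, h, ← WeierstrassCurve.map_map, hW]

variable [DecidableEq k] [DecidableEq (FF W)]

/-- The Frobenius endomorphism. -/
def frobEnd : W.toAffine.Point →+ W.toAffine.Point :=
  mapHom (frobenius k l) hW

/-- The Frobenius on the points over the function field. -/
def frobGen : (WF W).toAffine.Point →+ (WF W).toAffine.Point :=
  mapHom (frobenius (FF W) l) (map_frobenius_WF W hW)

variable [W.IsElliptic]

lemma frobGen_mem {Z : (WF W).toAffine.Point} (hZ : Z ∈ MM W) : frobGen W hW Z ∈ MM W := by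
  rw [mem_MM_iff] at hZ ⊢
  rw [← map_neg, ← hZ]
  rcases Z with _ | ⟨x, y, h⟩
  · rfl
  · simp only [frobGen, mapHom_some, frobenius_def, map_pow]

lemma spec_frobGen {Z : (WF W).toAffine.Point} {g : W.toAffine.Point →+ W.toAffine.Point}
    (h : Spec W Z g) : Spec W (frobGen W hW Z) ((frobEnd W hW).comp g) := by
  filter_upwards [h] with P hP
  rcases Z with _ | ⟨X, Y, hXY⟩
  · show frobEnd W hW (g P) = 0
    rw [show g P = 0 from hP, map_zero]
  rcases P with _ | ⟨x, y, hxy⟩
  · exact hP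
  obtain ⟨hX, hY, h', he⟩ := hP
  have e : ∀ z : FF W, z ∈ regRing W x →
      frobenius (FF W) l z ∈ regRing W x ∧
        ev W (frobenius (FF W) l z) x y = frobenius k l (ev W z x y) := fun z hz => by
    refine ⟨pow_mem hz l, ?_⟩
    have := map_pow (evHom W x y hxy.1) ⟨z, hz⟩ l
    simpa [evHom_apply, frobenius_def] using this
  refine ⟨(e X hX).1, (e Y hY).1,
    by rw [(e X hX).2, (e Y hY).2]; exact nonsingular_mapHom _ hW h', ?_⟩
  rw [AddMonoidHom.comp_apply, he, frobEnd, mapHom_some]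
  simp only [(e X hX).2, (e Y hY).2]

lemma im_pow_eq_zero {x : FF W} (h : x.im = 0) (n : ℕ) : (x ^ n).re = x.re ^ n := by
  have hx : x = algebraMap (RatFunc k) (FF W) x.re := by
    ext
    · rfl
    · exact h
  conv_lhs => rw [hx, ← map_pow]
  rw [QuadraticAlgebra.algebraMap_re]

lemma pdeg_pow {n : ℕ} (v : Fin n → k[X]) (m : ℕ) :
    pdeg (fun i => v i ^ m) = m * pdeg v := by
  simp only [pdeg, natDegree_pow]
  refine le_antisymm (Finset.sup_le fun i _ => Nat.mul_le_mul_left m (natDegree_le_pdeg v i)) ?_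
  rcases n with _ | n
  · simp
  · obtain ⟨i, hi, e⟩ := Finset.exists_mem_eq_sup Finset.univ Finset.univ_nonempty
      fun i => (v i).natDegree
    rw [e]
    exact Finset.le_sup (f := fun i => m * (v i).natDegree) hi

variable [IsAlgClosed k]

lemma exists_pvec_frobGen {Z : (WF W).toAffine.Point} (hZ : Z ∈ MM W) :
    ∃ c : k, c ≠ 0 ∧ pvec W (frobGen W hW Z) = C c • fun i => pvec W Z i ^ l := by
  have hp := (Fact.out : l.Prime)
  refine exists_C_smul (noZero_pvec W _) (fun t ht => noZero_pvec W Z t (funext fun i => ?_))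
    fun i j => ?_
  · have h0 := congrFun ht i
    simp only [eval_pow, Pi.zero_apply] at h0 ⊢
    exact (pow_eq_zero_iff hp.ne_zero).mp h0
  rcases Z with _ | ⟨x, y, h⟩
  · fin_cases i <;> fin_cases j <;>
      simp [frobGen, pvec, ← Affine.Point.zero_def, zero_pow hp.ne_zero]
  have key : (x ^ l).re.num * x.re.denom ^ l = x.re.num ^ l * (x ^ l).re.denom := by
    apply FaithfulSMul.algebraMap_injective k[X] (RatFunc k)
    rw [map_mul, map_mul, ← div_eq_div_iff (RatFunc.algebraMap_ne_zero (RatFunc.denom_ne_zero _))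
      (RatFunc.algebraMap_ne_zero (pow_ne_zero _ (RatFunc.denom_ne_zero _))), RatFunc.num_div_denom,
      im_pow_eq_zero W (im_eq_zero W hZ), map_pow, map_pow, ← div_pow, RatFunc.num_div_denom]
  fin_cases i <;> fin_cases j <;> simp [frobGen, mapHom_some, pvec, frobenius_def]
  all_goals first | linear_combination key | linear_combination -key

lemma hgt_frobGen {Z : (WF W).toAffine.Point} (hZ : Z ∈ MM W) :
    hgt W (frobGen W hW Z) = l * hgt W Z := by
  obtain ⟨c, hc, e⟩ := exists_pvec_frobGen W hW hZ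
  rw [hgt, e, pdeg_C_smul hc, pdeg_pow]
  rfl

lemma insep_frobGen {Z : (WF W).toAffine.Point} (hZ : Z ∈ MM W) :
    Insep W (frobGen W hW Z) := by
  obtain ⟨c, hc, e⟩ := exists_pvec_frobGen W hW hZ
  have : CharP k[X] l := Polynomial.instCharP l
  constructor <;>
    simp [e, derivative_pow, CharP.cast_eq_zero]

lemma hgt_gen : hgt W (gen W) = 1 := by
  simp [hgt, pdeg, pvec, gen, tGen, QuadraticAlgebra.algebraMap_eq, RatFunc.num_X, RatFunc.denom_X,
    Fin.univ_succ]

/-- The height on the anti-invariant points. -/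
def hM (Z : MM W) : ℤ := hgt W Z.1

lemma isPara_hM : IsPara (hM W) := fun Z₁ Z₂ => by
  simp only [hM, AddSubgroup.coe_add, AddSubgroup.coe_sub]
  exact_mod_cast hgt_parallelogram W Z₁.2 Z₂.2

/-- The generic point, its image and the image of its image under Frobenius. -/
def g0 : MM W := ⟨gen W, gen_mem W⟩

/-- See `g0`. -/
def g1 : MM W := ⟨frobGen W hW (gen W), frobGen_mem W hW (gen_mem W)⟩

/-- See `g0`. -/
def g2 : MM W := ⟨frobGen W hW (g1 W hW).1, frobGen_mem W hW (g1 W hW).2⟩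

lemma hM_g0 : hM W (g0 W) = 1 := by simp [hM, g0, hgt_gen]

lemma hM_g1 : hM W (g1 W hW) = l := by
  simp [hM, g1, hgt_frobGen W hW (gen_mem W), hgt_gen]

lemma hM_g2 : hM W (g2 W hW) = (l : ℤ) ^ 2 := by
  simp [hM, g2, g1, hgt_frobGen W hW (frobGen_mem W hW (gen_mem W)),
    hgt_frobGen W hW (gen_mem W), hgt_gen, pow_two]

/-- The trace of Frobenius. -/
def trEnd : ℤ := pol (hM W) (g0 W) (g1 W hW)

lemma spec_gen' : Spec W (g0 W).1 (AddMonoidHom.id _) := spec_gen W

lemma spec_g1 : Spec W (g1 W hW).1 (frobEnd W hW) := spec_frobGen W hW (spec_gen W)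

lemma spec_g2 : Spec W (g2 W hW).1 ((frobEnd W hW).comp (frobEnd W hW)) :=
  spec_frobGen W hW (spec_g1 W hW)

/-- `#ker (c - F)` for an inseparable `F`. -/
lemma natCard_ker_sub_aux {c : ℤ} (hc : (c : k) ≠ 0) {F : MM W}
    {π : W.toAffine.Point →+ W.toAffine.Point} (hS : Spec W F.1 π) (hi : Insep W F.1)
    (hF : hM W F ≠ 0) (hne : c ^ 2 ≠ hM W F) :
    (Nat.card (c • AddMonoidHom.id _ - π).ker : ℤ) =
      c ^ 2 + hM W F - c * pol (hM W) (g0 W) F ∧
    Function.Surjective (c • AddMonoidHom.id _ - π : W.toAffine.Point →+ W.toAffine.Point) := by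
  have hh := isPara_hM W
  have hval : hM W (c • g0 W + (-1 : ℤ) • F) = c ^ 2 + hM W F - c * pol (hM W) (g0 W) F := by
    rw [hh.map_combo, hM_g0]; ring
  set Z := c • g0 W + (-1 : ℤ) • F with hZ
  have hpos : hM W Z ≠ 0 := by
    intro h0
    have e1 := hh.pol_eq_zero (fun x => Int.natCast_nonneg _) h0 (g0 W)
    have e2 := hh.pol_eq_zero (fun x => Int.natCast_nonneg _) h0 F
    rw [hh.pol_add_left, hh.pol_zsmul_left, hh.pol_zsmul_left, hh.pol_self, hM_g0,
      hh.pol_comm F] at e1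
    rw [hh.pol_add_left, hh.pol_zsmul_left, hh.pol_zsmul_left, hh.pol_self] at e2
    have : pol (hM W) (g0 W) F = 2 * c := by linarith
    rw [this] at e2
    exact hne (by linarith)
  have hZv : Z.1 = c • gen W - F.1 := by
    simp [hZ, g0, sub_eq_add_neg]
  have hS' : Spec W Z.1 (c • AddMonoidHom.id _ - π) := by
    rw [hZv]; exact ((spec_gen W).zsmul W c).sub W hS
  have hns : ¬ Insep W Z.1 := by
    intro hZi
    refine not_insep_zsmul_gen W hc ?_
    have := hZi.add W Z.2 F.2 (fun h => hpos (by simp [hM, h]))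
      (fun h => hF (by simp [hM, h])) hi
    rwa [hZv, sub_add_cancel] at this
  refine ⟨?_, surjective_of_spec W Z.2 hS' hns⟩
  rw [natCard_ker W Z.2 hS' hns, ← hval]
  rfl

lemma cast_ne_zero_of_not_dvd {c : ℤ} (hc : ¬ (l : ℤ) ∣ c) : (c : k) ≠ 0 :=
  fun h => hc ((CharP.intCast_eq_zero_iff k l c).mp h)

lemma insep_g1 : Insep W (g1 W hW).1 := insep_frobGen W hW (gen_mem W)

lemma insep_g2 : Insep W (g2 W hW).1 := insep_frobGen W hW (g1 W hW).2

/-- `#ker (c - π) = c² - ac + l`. -/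
theorem natCard_ker_sub {c : ℤ} (hc : ¬ (l : ℤ) ∣ c) :
    (Nat.card (c • AddMonoidHom.id _ - frobEnd W hW).ker : ℤ) =
      c ^ 2 - trEnd W hW * c + l := by
  have hp := (Fact.out : l.Prime)
  have := natCard_ker_sub_aux W (cast_ne_zero_of_not_dvd (k := k) hc) (spec_g1 W hW) (insep_g1 W hW)
    (by rw [hM_g1]; exact_mod_cast hp.ne_zero) (by
      rw [hM_g1]
      intro h
      exact (Nat.prime_iff_prime_int.mp hp).not_isSquare ⟨c, by rw [← h, sq]⟩)
  rw [this.1, hM_g1, trEnd]
  ring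

/-- The Frobenius equation. -/
theorem frobEnd_quadratic (P : W.toAffine.Point) :
    frobEnd W hW (frobEnd W hW P) - trEnd W hW • frobEnd W hW P + (l : ℤ) • P = 0 := by
  have hp := (Fact.out : l.Prime)
  have hl1 : ¬ (l : ℤ) ∣ 1 := fun h => hp.one_lt.ne'
    (Nat.dvd_one.mp (by exact_mod_cast h))
  have hh := isPara_hM W
  set π := frobEnd W hW
  set a := trEnd W hW
  have hsq : ∀ c : ℤ, c ^ 2 = 1 → (c ^ 2 ≠ hM W (g1 W hW)) ∧ (c ^ 2 ≠ hM W (g2 W hW)) := by
    intro c hc
    rw [hM_g1, hM_g2, hc]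
    have : (2 : ℤ) ≤ l := by exact_mod_cast hp.two_le
    constructor
    · omega
    · nlinarith
  have hl : hM W (g1 W hW) ≠ 0 ∧ hM W (g2 W hW) ≠ 0 := by
    rw [hM_g1, hM_g2]
    exact ⟨by exact_mod_cast hp.ne_zero, pow_ne_zero 2 (by exact_mod_cast hp.ne_zero)⟩
  obtain ⟨k₁, s₁⟩ := natCard_ker_sub_aux W (c := 1) (by simp) (spec_g1 W hW) (insep_g1 W hW)
    hl.1 (hsq 1 (by norm_num)).1
  obtain ⟨k₂, -⟩ := natCard_ker_sub_aux W (c := -1) (by simp) (spec_g1 W hW) (insep_g1 W hW)
    hl.1 (hsq (-1) (by norm_num)).1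
  obtain ⟨k₃, -⟩ := natCard_ker_sub_aux W (c := 1) (by simp) (spec_g2 W hW) (insep_g2 W hW)
    hl.2 (hsq 1 (by norm_num)).2
  set f₁ := (1 : ℤ) • AddMonoidHom.id _ - π with hf₁
  set f₂ := (-1 : ℤ) • AddMonoidHom.id _ - π with hf₂
  have hcomp : ((1 : ℤ) • AddMonoidHom.id _ - π.comp π).ker = (f₂.comp f₁).ker := by
    ext Q
    simp only [AddMonoidHom.mem_ker, hf₁, hf₂, AddMonoidHom.comp_apply, AddMonoidHom.sub_apply,
      AddMonoidHom.id_apply, one_zsmul, neg_zsmul, AddMonoidHom.neg_apply, map_sub]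
    constructor
    · intro h; rw [← neg_eq_zero] at h; rw [← h]; abel
    · intro h; rw [← neg_eq_zero] at h; rw [← h]; abel
  have hmul : Nat.card (f₂.comp f₁).ker = Nat.card f₁.ker * Nat.card f₂.ker := by
    let r : (f₂.comp f₁).ker →+ f₂.ker :=
      (f₁.comp (f₂.comp f₁).ker.subtype).codRestrict _ fun Q => Q.2
    have hr : Function.Surjective r := fun ⟨Q, hQ⟩ => by
      obtain ⟨R, hR⟩ := s₁ Q
      exact ⟨⟨R, by rw [AddMonoidHom.mem_ker, AddMonoidHom.comp_apply, hR]; exact hQ⟩,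
        Subtype.ext hR⟩
    rw [AddSubgroup.card_eq_card_quotient_mul_card_addSubgroup r.ker,
      Nat.card_congr (QuotientAddGroup.quotientKerEquivOfSurjective r hr).toEquiv, mul_comm]
    congr 1
    refine Nat.card_congr ⟨fun Q => ⟨Q.1.1, congrArg Subtype.val (AddMonoidHom.mem_ker.mp Q.2)⟩,
      fun Q => ⟨⟨Q.1, ?_⟩, ?_⟩, fun Q => rfl, fun Q => rfl⟩
    · rw [AddMonoidHom.mem_ker, AddMonoidHom.comp_apply, AddMonoidHom.mem_ker.mp Q.2, map_zero]
    · exact AddMonoidHom.mem_ker.mpr (Subtype.ext (AddMonoidHom.mem_ker.mp Q.2))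
  rw [hcomp, hmul, Nat.cast_mul, k₁, k₂, hM_g1, hM_g2] at k₃
  have hb : pol (hM W) (g0 W) (g2 W hW) = a ^ 2 - 2 * l := by
    simp only [a, trEnd]
    linarith
  have hb' : pol (hM W) (g1 W hW) (g2 W hW) = l * a := by
    have h₁ : ∀ x y : MM W, hM W ⟨frobGen W hW x.1 + frobGen W hW y.1,
        (MM W).add_mem (frobGen_mem W hW x.2) (frobGen_mem W hW y.2)⟩ = l * hM W (x + y) := by
      intro x y
      simp only [hM, ← map_add, AddSubgroup.coe_add]
      rw [hgt_frobGen W hW ((MM W).add_mem x.2 y.2), Nat.cast_mul]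
    have := h₁ (g0 W) (g1 W hW)
    simp only [a, trEnd, pol]
    rw [mul_sub, mul_sub, ← this, hM_g0, hM_g1, hM_g2]
    show hM W ⟨(g1 W hW).1 + (g2 W hW).1, _⟩ - _ - _ =
      hM W ⟨(g1 W hW).1 + (g2 W hW).1, _⟩ - _ - _
    ring
  set Z := ((-a) • g1 W hW + (l : ℤ) • g0 W) + g2 W hW with hZ
  have h0 : hM W Z = 0 := by
    rw [hh.map_add, hh.map_combo, hh.pol_add_left, hh.pol_zsmul_left, hh.pol_zsmul_left, hb', hb,
      hM_g0, hM_g1, hM_g2, hh.pol_comm (g1 W hW) (g0 W)]
    simp only [a, trEnd]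
    ring
  have hS : Spec W Z.1 (((-a) • π + (l : ℤ) • AddMonoidHom.id _) + π.comp π) :=
    (((spec_g1 W hW).zsmul W _).add W ((spec_gen W).zsmul W _)).add W (spec_g2 W hW)
  have hfin := eq_zero_of_hgt_eq_zero W Z.2 hS (by simpa [hM] using h0)
  have := DFunLike.congr_fun hfin P
  simp only [AddMonoidHom.add_apply, AddMonoidHom.zero_apply, AddMonoidHom.comp_apply,
    AddMonoidHom.id_apply, AddMonoidHom.coe_smul, Pi.smul_apply, neg_zsmul] at this
  rw [← this]
  simp only [AddMonoidHom.neg_apply, AddMonoidHom.coe_smul, Pi.smul_apply]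
  abel

end

end FA.Frob
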