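import Fermat.Agent.Frob.PolyPairs
import Fermat.Agent.Frob.MapHom
import Fermat.Agent.EC.MulFormula
import Mathlib.Algebra.QuadraticAlgebra.Basic
import Mathlib.RingTheory.Polynomial.RationalRoot

/-!
# Heights on the points of an elliptic curve over its own function field

For an elliptic curve `W` over an algebraically closed field `k` let `F = k(T)[Y]` be its
function field. The points of `W` over `F` which are anti-invariant under `Gal(F/k(T))` form a
group (it contains the generic point and all its images under endomorphisms). Their height,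
the degree of the abscissa as a rational function of `T`, satisfies the parallelogram law.
-/

namespace FA.Frob

open WeierstrassCurve Polynomial FA.EC

universe u

noncomputable section

variable {k : Type u} [Field k] (W : WeierstrassCurve k)

/-- `T³ + a₂T² + a₄T + a₆`. -/
def cubA : RatFunc k :=
  algebraMap k[X] (RatFunc k) (X ^ 3 + C W.a₂ * X ^ 2 + C W.a₄ * X + C W.a₆)

/-- `-(a₁T + a₃)`. -/
def linB : RatFunc k := algebraMap k[X] (RatFunc k) (-(C W.a₁ * X + C W.a₃))

/-- The function field of `W`. -/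
abbrev FF : Type u := QuadraticAlgebra (RatFunc k) (cubA W) (linB W)

lemma no_root (r : RatFunc k) : r ^ 2 ≠ cubA W + linB W * r := by
  intro h
  have hr : IsIntegral k[X] r := by
    refine ⟨X ^ 2 + C (C W.a₁ * X + C W.a₃) * X
      - C (X ^ 3 + C W.a₂ * X ^ 2 + C W.a₄ * X + C W.a₆), by monicity!, ?_⟩
    simp only [cubA, linB, map_neg] at h
    simp only [eval₂_sub, eval₂_add, eval₂_mul, eval₂_X_pow, eval₂_C, eval₂_X]
    linear_combination h
  obtain ⟨p, rfl⟩ := IsIntegrallyClosed.isIntegral_iff.mp hr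
  have h' : p ^ 2 + (C W.a₁ * X + C W.a₃) * p = X ^ 3 + C W.a₂ * X ^ 2 + C W.a₄ * X + C W.a₆ := by
    apply FaithfulSMul.algebraMap_injective k[X] (RatFunc k)
    simp only [cubA, linB, map_neg] at h
    rw [map_add, map_mul, map_pow]
    linear_combination h
  have h3 : (X ^ 3 + C W.a₂ * X ^ 2 + C W.a₄ * X + C W.a₆).natDegree = 3 := by compute_degree!
  have hl : (C W.a₁ * X + C W.a₃ : k[X]).natDegree ≤ 1 := by compute_degree
  rw [← h'] at h3
  by_cases hp : p.natDegree ≤ 1
  · have := (natDegree_add_le (p ^ 2) ((C W.a₁ * X + C W.a₃) * p)).trans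
      (max_le (natDegree_pow_le.trans (Nat.mul_le_mul_left 2 hp))
        ((natDegree_mul_le.trans (add_le_add hl hp)).trans_eq (by norm_num)))
    omega
  · have hlt : ((C W.a₁ * X + C W.a₃) * p).natDegree < (p ^ 2).natDegree := by
      rw [natDegree_pow]
      exact lt_of_le_of_lt natDegree_mul_le (by omega)
    rw [natDegree_add_eq_left_of_natDegree_lt hlt, natDegree_pow] at h3
    omega

instance : Fact (∀ r : RatFunc k, r ^ 2 ≠ cubA W + linB W * r) := ⟨no_root W⟩

/-- Constants. -/
def kEmb : k →+* FF W := (algebraMap (RatFunc k) (FF W)).comp RatFunc.C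

/-- The curve over its function field. -/
abbrev WF : WeierstrassCurve (FF W) := W.map (kEmb W)

instance [W.IsElliptic] : (WF W).IsElliptic := inferInstance

/-- The coordinate function `T`. -/
def tGen : FF W := algebraMap (RatFunc k) (FF W) RatFunc.X

/-- The coordinate function `Y`. -/
def yGen : FF W := ⟨0, 1⟩

lemma equation_gen : (WF W).toAffine.Equation (tGen W) (yGen W) := by
  rw [Affine.equation_iff]
  simp only [sq, pow_three]
  apply QuadraticAlgebra.ext
  · simp only [WF, kEmb, tGen, yGen, map_a₁, map_a₂, map_a₃, map_a₄, map_a₆, RingHom.coe_comp,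
      Function.comp_apply, QuadraticAlgebra.algebraMap_eq, QuadraticAlgebra.re_mul,
      QuadraticAlgebra.re_add, QuadraticAlgebra.im_mul]
    simp [cubA] <;> ring
  · simp only [WF, kEmb, tGen, yGen, map_a₁, map_a₂, map_a₃, map_a₄, map_a₆, RingHom.coe_comp,
      Function.comp_apply, QuadraticAlgebra.algebraMap_eq, QuadraticAlgebra.re_mul,
      QuadraticAlgebra.im_add, QuadraticAlgebra.im_mul]
    simp [linB] <;> ring

/-- The conjugation of `F` over `k(T)`. -/
def conj : FF W →+* FF W := (starRingEnd (FF W))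

lemma conj_apply (z : FF W) : conj W z = ⟨z.re + linB W * z.im, -z.im⟩ := rfl

lemma conj_map : (WF W).map (conj W) = WF W := by
  simp only [WF, WeierstrassCurve.map_map]
  congr 1
  ext c <;> simp [kEmb, conj_apply, QuadraticAlgebra.algebraMap_eq]

variable [W.IsElliptic]

lemma nonsingular_gen : (WF W).toAffine.Nonsingular (tGen W) (yGen W) :=
  Affine.equation_iff_nonsingular.mp (equation_gen W)

variable [DecidableEq (FF W)]

set_option linter.unusedSectionVars false

/-- The generic point. -/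
def gen : (WF W).toAffine.Point := .some _ _ (nonsingular_gen W)

/-- The anti-invariant points. -/
def MM : AddSubgroup (WF W).toAffine.Point :=
  (mapHom (conj W) (conj_map W) + AddMonoidHom.id _).ker

lemma mem_MM_iff {Z : (WF W).toAffine.Point} :
    Z ∈ MM W ↔ mapHom (conj W) (conj_map W) Z = -Z := by
  show mapHom (conj W) (conj_map W) Z + Z = 0 ↔ _
  exact add_eq_zero_iff_eq_neg

lemma gen_mem : gen W ∈ MM W := by
  rw [mem_MM_iff, gen, mapHom_some, Affine.Point.neg_some, Affine.Point.some.injEq]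
  constructor
  · simp [conj_apply, tGen, QuadraticAlgebra.algebraMap_eq]
  · rw [conj_apply]
    apply QuadraticAlgebra.ext
    · simp only [Affine.negY, WF, yGen, tGen, kEmb, map_a₁, map_a₃, RingHom.coe_comp,
        Function.comp_apply, QuadraticAlgebra.algebraMap_eq, QuadraticAlgebra.re_sub,
        QuadraticAlgebra.re_neg, QuadraticAlgebra.re_mul]
      simp [linB] <;> ring
    · simp only [Affine.negY, WF, yGen, tGen, kEmb, map_a₁, map_a₃, RingHom.coe_comp,
        Function.comp_apply, QuadraticAlgebra.algebraMap_eq, QuadraticAlgebra.im_sub,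
        QuadraticAlgebra.im_neg, QuadraticAlgebra.im_mul]
      simp

lemma im_eq_zero {x y : FF W} {h : (WF W).toAffine.Nonsingular x y}
    (hZ : Affine.Point.some x y h ∈ MM W) : x.im = 0 := by
  rw [mem_MM_iff, mapHom_some, Affine.Point.neg_some, Affine.Point.some.injEq] at hZ
  obtain ⟨hx, -⟩ := hZ
  rw [conj_apply] at hx
  have h1 : linB W * x.im = 0 := by simpa using congrArg QuadraticAlgebra.re hx
  have h2 : 2 * x.im = 0 := by
    have := congrArg QuadraticAlgebra.im hx
    simp only at this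
    linear_combination -this
  by_contra hne
  have hb : linB W = 0 := (mul_eq_zero.mp h1).resolve_right hne
  have h2' : (2 : RatFunc k) = 0 := (mul_eq_zero.mp h2).resolve_right hne
  have htwo : (2 : k) = 0 := by
    apply (RatFunc.C (K := k)).injective
    rw [map_ofNat, h2', map_zero]
  have hp : -(C W.a₁ * X + C W.a₃) = 0 := by
    apply FaithfulSMul.algebraMap_injective k[X] (RatFunc k)
    rw [map_zero]; exact hb
  rw [neg_eq_zero] at hp
  have ha₁ : W.a₁ = 0 := by simpa using congrArg (fun p => p.coeff 1) hp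
  have ha₃ : W.a₃ = 0 := by simpa using congrArg (fun p => p.coeff 0) hp
  refine W.isUnit_Δ.ne_zero ?_
  simp only [WeierstrassCurve.Δ, WeierstrassCurve.b₂, WeierstrassCurve.b₄, WeierstrassCurve.b₆,
    WeierstrassCurve.b₈, ha₁, ha₃]
  linear_combination (-32 * W.a₂ ^ 3 * W.a₆ + 8 * W.a₂ ^ 2 * W.a₄ ^ 2 - 32 * W.a₄ ^ 3
    - 216 * W.a₆ ^ 2 + 144 * W.a₂ * W.a₄ * W.a₆) * htwo

/-- Numerator and denominator of the abscissa; `(1, 0)` at infinity. -/
def pvec : (WF W).toAffine.Point → Fin 2 → k[X]
  | .zero => ![1, 0]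
  | .some x _ _ => ![x.re.num, x.re.denom]

/-- The height. -/
def hgt (Z : (WF W).toAffine.Point) : ℕ := pdeg (pvec W Z)

@[simp] lemma hgt_zero : hgt W 0 = 0 := by
  simp [hgt, pdeg, pvec, ← Affine.Point.zero_def, Fin.univ_succ]

lemma noZero_pvec (Z : (WF W).toAffine.Point) : NoZero (pvec W Z) := by
  intro t h
  rcases Z with _ | ⟨x, y, hxy⟩
  · simpa [pvec] using congrFun h 0
  · obtain ⟨a, b, hab⟩ := RatFunc.isCoprime_num_denom x.re
    have h0 : x.re.num.eval t = 0 := by simpa [pvec] using congrFun h 0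
    have h1 : x.re.denom.eval t = 0 := by simpa [pvec] using congrFun h 1
    have := congrArg (Polynomial.eval t) hab
    simp [h0, h1] at this

/-- Polynomials inside the function field. -/
def polyEmb : k[X] →+* FF W :=
  (algebraMap (RatFunc k) (FF W)).comp (algebraMap k[X] (RatFunc k))

lemma polyEmb_injective : Function.Injective (polyEmb W) :=
  (algebraMap (RatFunc k) (FF W)).injective.comp (FaithfulSMul.algebraMap_injective k[X] _)

lemma exists_pvec_eq_smul {Z : (WF W).toAffine.Point} (hZ : Z ∈ MM W) :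
    ∃ c : FF W, c ≠ 0 ∧ (fun i => polyEmb W (pvec W Z i)) = c • Z.xRep := by
  rcases Z with _ | ⟨x, y, h⟩
  · refine ⟨1, one_ne_zero, funext fun i => ?_⟩
    fin_cases i <;> simp [pvec, ← Affine.Point.zero_def]
  · refine ⟨polyEmb W x.re.denom, (map_ne_zero_iff _ (polyEmb_injective W)).mpr
      (RatFunc.denom_ne_zero _), funext fun i => ?_⟩
    have hx : x = algebraMap (RatFunc k) (FF W) x.re := by
      ext
      · rfl
      · exact im_eq_zero W hZ
    fin_cases i
    · simp only [pvec, Affine.Point.xRep_some, Pi.smul_apply, smul_eq_mul]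
      simp only [Fin.zero_eta, Matrix.cons_val_zero]
      conv_rhs => rw [hx]
      rw [polyEmb, RingHom.comp_apply, RingHom.comp_apply, ← map_mul]
      congr 1
      rw [QuadraticAlgebra.algebraMap_re]
      conv_rhs => arg 2; rw [← RatFunc.num_div_denom x.re]
      rw [mul_div_cancel₀ _ (RatFunc.algebraMap_ne_zero (RatFunc.denom_ne_zero _))]
    · simp [pvec]

variable [IsAlgClosed k]

/-- The two triples of the addition-and-subtraction formula differ by a constant. -/
lemma exists_asub_pvec {Z₁ Z₂ : (WF W).toAffine.Point} (h₁ : Z₁ ∈ MM W) (h₂ : Z₂ ∈ MM W) :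
    ∃ c : k, c ≠ 0 ∧ asubPoly W (symPair (pvec W Z₁) (pvec W Z₂))
      = C c • symPair (pvec W (Z₁ + Z₂)) (pvec W (Z₁ - Z₂)) := by
  refine exists_C_smul (((noZero_pvec W _).symPair (noZero_pvec W _)).asubPoly W)
    ((noZero_pvec W _).symPair (noZero_pvec W _)) fun i j => ?_
  obtain ⟨c₁, hc₁, e₁⟩ := exists_pvec_eq_smul W h₁
  obtain ⟨c₂, hc₂, e₂⟩ := exists_pvec_eq_smul W h₂
  obtain ⟨c₃, hc₃, e₃⟩ := exists_pvec_eq_smul W ((MM W).add_mem h₁ h₂)
  obtain ⟨c₄, hc₄, e₄⟩ := exists_pvec_eq_smul W ((MM W).sub_mem h₁ h₂)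
  obtain ⟨c, hc, e⟩ := asub_xRep Z₁ Z₂
  have esym : ∀ a b : Fin 2 → k[X], (fun i => polyEmb W (symPair a b i)) =
      symPair (fun i => polyEmb W (a i)) (fun i => polyEmb W (b i)) := fun a b => by
    funext i; fin_cases i <;> simp [symPair]
  have easub : ∀ s : Fin 3 → k[X], (fun i => polyEmb W (asubPoly W s i)) =
      asub (WF W) (fun i => polyEmb W (s i)) := fun s => by
    funext i
    fin_cases i <;>
      simp [asubPoly, asub, WF, polyEmb, kEmb, map_ofNat, RatFunc.algebraMap_C]
  have hu : (fun i => polyEmb W (asubPoly W (symPair (pvec W Z₁) (pvec W Z₂)) i)) =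
      ((c₁ * c₂) ^ 2 * c) • symPair (Z₁ + Z₂).xRep (Z₁ - Z₂).xRep := by
    rw [easub, esym, e₁, e₂, symPair_smul, asub_smul, e, smul_smul]
  have hw : (fun i => polyEmb W (symPair (pvec W (Z₁ + Z₂)) (pvec W (Z₁ - Z₂)) i)) =
      (c₃ * c₄) • symPair (Z₁ + Z₂).xRep (Z₁ - Z₂).xRep := by
    rw [esym, e₃, e₄, symPair_smul]
  apply polyEmb_injective W
  have a1 := congrFun hu i
  have a2 := congrFun hw j
  have a3 := congrFun hu j
  have a4 := congrFun hw i
  simp only [Pi.smul_apply, smul_eq_mul] at a1 a2 a3 a4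
  rw [map_mul, map_mul, a1, a2, a3, a4]
  ring

/-- The parallelogram law. -/
theorem hgt_parallelogram {Z₁ Z₂ : (WF W).toAffine.Point} (h₁ : Z₁ ∈ MM W) (h₂ : Z₂ ∈ MM W) :
    hgt W (Z₁ + Z₂) + hgt W (Z₁ - Z₂) = 2 * hgt W Z₁ + 2 * hgt W Z₂ := by
  obtain ⟨c, hc, e⟩ := exists_asub_pvec W h₁ h₂
  have h := congrArg pdeg e
  rw [pdeg_asubPoly W ((noZero_pvec W _).symPair (noZero_pvec W _)),
    pdeg_symPair (noZero_pvec W _) (noZero_pvec W _), pdeg_C_smul hc,
    pdeg_symPair (noZero_pvec W _) (noZero_pvec W _)] at h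
  simp only [hgt]
  omega

end

end FA.Frob
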