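import Fermat.Agent.EC.DivPolyIdentities
import Mathlib.FieldTheory.RatFunc.AsPolynomial
import Mathlib.RingTheory.PrincipalIdealDomain
import Mathlib.FieldTheory.IsAlgClosed.Basic

/-!
# Degrees of tuples of polynomials without common zero

For pairs and triples of polynomials over an algebraically closed field we study the degree
(the largest degree of an entry) under the symmetric product and the addition-and-subtraction
forms of an elliptic curve. This is the combinatorial core of the parallelogram law.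
-/

namespace FA.Frob

open Polynomial FA.EC

universe u

variable {k : Type u} [Field k]

/-- The largest degree of the entries. -/
def pdeg {n : ℕ} (v : Fin n → k[X]) : ℕ := Finset.univ.sup fun i => (v i).natDegree

/-- The vector of coefficients in degree `d`. -/
def topv {n : ℕ} (v : Fin n → k[X]) (d : ℕ) : Fin n → k := fun i => (v i).coeff d

/-- No common zero. -/
def NoZero {n : ℕ} (v : Fin n → k[X]) : Prop := ∀ t : k, (fun i => (v i).eval t) ≠ 0

lemma natDegree_le_pdeg {n : ℕ} (v : Fin n → k[X]) (i : Fin n) : (v i).natDegree ≤ pdeg v :=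
  Finset.le_sup (f := fun i => (v i).natDegree) (Finset.mem_univ i)

lemma topv_ne_zero {n : ℕ} [NeZero n] {v : Fin n → k[X]} (h : v ≠ 0) : topv v (pdeg v) ≠ 0 := by
  obtain ⟨i, -, hi⟩ := Finset.exists_mem_eq_sup Finset.univ Finset.univ_nonempty
    fun i => (v i).natDegree
  intro h0
  have hi' : (v i).coeff (pdeg v) = 0 := congrFun h0 i
  rw [pdeg, hi] at hi'
  have hvi : v i = 0 := leadingCoeff_eq_zero.mp hi'
  rw [hvi, natDegree_zero] at hi
  refine h (funext fun j => ?_)
  have hj := natDegree_le_pdeg v j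
  rw [pdeg, hi] at hj
  have hj' : (v j).coeff 0 = 0 := by
    have := congrFun h0 j
    rwa [pdeg, hi] at this
  rw [eq_C_of_natDegree_le_zero hj, hj', map_zero]
  rfl

lemma NoZero.ne_zero {n : ℕ} {v : Fin n → k[X]} (h : NoZero v) : v ≠ 0 := by
  rintro rfl
  exact h 0 (funext fun i => by simp)

lemma pdeg_eq_of_topv {n : ℕ} [NeZero n] {v : Fin n → k[X]} {d : ℕ}
    (hle : ∀ i, (v i).natDegree ≤ d) (h : topv v d ≠ 0) : pdeg v = d := by
  refine le_antisymm (Finset.sup_le fun i _ => hle i) ?_
  obtain ⟨i, hi⟩ : ∃ i, (v i).coeff d ≠ 0 := by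
    by_contra hc; push Not at hc; exact h (funext hc)
  exact (le_natDegree_of_ne_zero hi).trans (natDegree_le_pdeg v i)

section symPair

variable {v w : Fin 2 → k[X]}

lemma eval_symPair (v w : Fin 2 → k[X]) (t : k) :
    (fun i => (symPair v w i).eval t) = symPair (fun i => (v i).eval t) (fun i => (w i).eval t) := by
  funext i
  fin_cases i <;> simp [symPair]

lemma symPair_ne_zero_field {v w : Fin 2 → k} (hv : v ≠ 0) (hw : w ≠ 0) : symPair v w ≠ 0 := by
  intro h
  have h0 : v 0 * w 0 = 0 := congrFun h 0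
  have h1 : v 0 * w 1 + v 1 * w 0 = 0 := congrFun h 1
  have h2 : v 1 * w 1 = 0 := congrFun h 2
  rcases mul_eq_zero.mp h0 with hv0 | hw0
  · have hv1 : v 1 ≠ 0 := fun hv1 => hv (funext fun i => by fin_cases i <;> assumption)
    rw [hv0, zero_mul, zero_add] at h1
    exact hw (funext fun i => by
      fin_cases i
      · exact (mul_eq_zero.mp h1).resolve_left hv1
      · exact (mul_eq_zero.mp h2).resolve_left hv1)
  · have hw1 : w 1 ≠ 0 := fun hw1 => hw (funext fun i => by fin_cases i <;> assumption)
    rw [hw0, mul_zero, add_zero] at h1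
    exact hv (funext fun i => by
      fin_cases i
      · exact (mul_eq_zero.mp h1).resolve_right hw1
      · exact (mul_eq_zero.mp h2).resolve_right hw1)

lemma NoZero.symPair (hv : NoZero v) (hw : NoZero w) : NoZero (FA.EC.symPair v w) := fun t => by
  rw [eval_symPair]; exact symPair_ne_zero_field (hv t) (hw t)

lemma pdeg_symPair (hv : NoZero v) (hw : NoZero w) :
    pdeg (FA.EC.symPair v w) = pdeg v + pdeg w := by
  have hm : ∀ i j, (v i * w j).natDegree ≤ pdeg v + pdeg w := fun i j =>
    natDegree_mul_le.trans (add_le_add (natDegree_le_pdeg v i) (natDegree_le_pdeg w j))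
  have hc : ∀ i j, (v i * w j).coeff (pdeg v + pdeg w) =
      (v i).coeff (pdeg v) * (w j).coeff (pdeg w) := fun i j =>
    coeff_mul_add_eq_of_natDegree_le (natDegree_le_pdeg v i) (natDegree_le_pdeg w j)
  refine pdeg_eq_of_topv (fun i => ?_) ?_
  · fin_cases i
    · exact hm 0 0
    · exact natDegree_add_le_of_degree_le (hm 0 1) (hm 1 0)
    · exact hm 1 1
  · have : topv (FA.EC.symPair v w) (pdeg v + pdeg w) =
        FA.EC.symPair (topv v (pdeg v)) (topv w (pdeg w)) := by
      funext i
      fin_cases i <;> simp [topv, FA.EC.symPair, hc]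
    rw [this]
    exact symPair_ne_zero_field (topv_ne_zero hv.ne_zero) (topv_ne_zero hw.ne_zero)

end symPair

section asub

variable (W : WeierstrassCurve k) [W.IsElliptic] {s : Fin 3 → k[X]}

/-- The forms of `asub` on triples of polynomials. -/
noncomputable def asubPoly (s : Fin 3 → k[X]) : Fin 3 → k[X] := asub (W.map C) s

lemma eval_asubPoly (s : Fin 3 → k[X]) (t : k) :
    (fun i => (asubPoly W s i).eval t) = asub W (fun i => (s i).eval t) := by
  funext i
  fin_cases i <;> simp [asubPoly, asub]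

lemma asub_ne_zero_field {s : Fin 3 → k} (hs : s ≠ 0) : asub W s ≠ 0 := by
  rw [asub_eq_eval]; exact W.addSubMap_ne_zero hs

lemma NoZero.asubPoly (hs : NoZero s) : NoZero (FA.Frob.asubPoly W s) := fun t => by
  rw [eval_asubPoly]; exact asub_ne_zero_field W (hs t)

lemma pdeg_asubPoly (hs : NoZero s) : pdeg (FA.Frob.asubPoly W s) = pdeg s + pdeg s := by
  set d := pdeg s
  have hm : ∀ i j, (s i * s j).natDegree ≤ d + d := fun i j =>
    natDegree_mul_le.trans (add_le_add (natDegree_le_pdeg s i) (natDegree_le_pdeg s j))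
  have hc : ∀ i j, (s i * s j).coeff (d + d) = (s i).coeff d * (s j).coeff d := fun i j =>
    coeff_mul_add_eq_of_natDegree_le (natDegree_le_pdeg s i) (natDegree_le_pdeg s j)
  have hC : ∀ (a : k) i j, (C a * s i * s j).natDegree ≤ d + d := fun a i j => by
    rw [mul_assoc]; exact natDegree_mul_le.trans (by simpa using hm i j)
  have hcC : ∀ (a : k) i j, (C a * s i * s j).coeff (d + d) = a * (s i).coeff d * (s j).coeff d :=
    fun a i j => by rw [mul_assoc, coeff_C_mul, hc, mul_assoc]
  have e : FA.Frob.asubPoly W s = ![s 0 * s 0 - C W.b₄ * s 0 * s 2 - C W.b₆ * s 1 * s 2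
      - C W.b₈ * s 2 * s 2,
      C 2 * s 1 * s 0 + C W.b₂ * s 0 * s 2 + C W.b₄ * s 1 * s 2 + C W.b₆ * s 2 * s 2,
      s 1 * s 1 - C 4 * s 0 * s 2] := by
    funext i
    fin_cases i <;> simp [FA.Frob.asubPoly, asub, map_ofNat] <;> ring
  refine pdeg_eq_of_topv (fun i => ?_) ?_
  · rw [e]
    fin_cases i
    · exact natDegree_sub_le_of_le (natDegree_sub_le_of_le (natDegree_sub_le_of_le
        (hm 0 0) (hC _ 0 2) |>.trans_eq (max_self _)) (hC _ 1 2) |>.trans_eq (max_self _))
        (hC _ 2 2) |>.trans_eq (max_self _)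
    · exact natDegree_add_le_of_degree_le (natDegree_add_le_of_degree_le
        (natDegree_add_le_of_degree_le (hC _ 1 0) (hC _ 0 2)) (hC _ 1 2)) (hC _ 2 2)
    · exact (natDegree_sub_le_of_le (hm 1 1) (hC _ 0 2)).trans_eq (max_self _)
  · have : topv (FA.Frob.asubPoly W s) (d + d) = asub W (topv s d) := by
      rw [e]
      funext i
      fin_cases i <;> simp [topv, asub, hc, hcC] <;> ring
    rw [this]
    exact asub_ne_zero_field W (topv_ne_zero hs.ne_zero)

end asub

section proportional

variable [IsAlgClosed k]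

lemma span_eq_top {n : ℕ} {w : Fin n → k[X]} (hw : NoZero w) :
    Ideal.span (Set.range w) = ⊤ := by
  obtain ⟨g, hg⟩ := IsPrincipalIdealRing.principal (Ideal.span (Set.range w))
  rw [hg]
  refine Ideal.span_singleton_eq_top.mpr ?_
  rw [isUnit_iff_degree_eq_zero]
  by_contra hd
  obtain ⟨t, ht⟩ := IsAlgClosed.exists_root g hd
  refine hw t (funext fun i => ?_)
  have hi : w i ∈ Submodule.span k[X] {g} := hg ▸ Ideal.subset_span ⟨i, rfl⟩
  obtain ⟨a, ha⟩ := Submodule.mem_span_singleton.mp hi
  rw [Pi.zero_apply, ← ha, smul_eq_mul, eval_mul, ht.eq_zero, mul_zero]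

/-- Proportional tuples without common zero differ by a nonzero constant. -/
lemma exists_C_smul {n : ℕ} {v w : Fin n → k[X]} (hv : NoZero v) (hw : NoZero w)
    (h : ∀ i j, v i * w j = v j * w i) : ∃ c : k, c ≠ 0 ∧ v = C c • w := by
  obtain ⟨a, ha⟩ := (Submodule.mem_span_range_iff_exists_fun k[X]).mp
    (show (1 : k[X]) ∈ Submodule.span k[X] (Set.range w) by
      rw [show Submodule.span k[X] (Set.range w) = ⊤ from span_eq_top hw]; trivial)
  set c := ∑ j, a j * v j with hc
  have hvi : ∀ i, v i = c * w i := fun i => by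
    calc v i = v i * ∑ j, a j • w j := by rw [ha, mul_one]
      _ = c * w i := by
        rw [hc, Finset.mul_sum, Finset.sum_mul]
        refine Finset.sum_congr rfl fun j _ => ?_
        rw [smul_eq_mul, mul_left_comm, h i j, ← mul_assoc]
  have hu : c.degree = 0 := by
    by_contra hd
    obtain ⟨t, ht⟩ := IsAlgClosed.exists_root c hd
    exact hv t (funext fun i => by simp [hvi, ht.eq_zero])
  obtain ⟨c₀, hc₀⟩ : ∃ c₀, c = C c₀ := ⟨_, eq_C_of_degree_eq_zero hu⟩
  refine ⟨c₀, fun h0 => ?_, funext fun i => by rw [hvi, hc₀]; rfl⟩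
  rw [hc₀, h0, map_zero, degree_zero] at hu
  exact absurd hu (by simp)

lemma pdeg_C_smul {n : ℕ} {c : k} (hc : c ≠ 0) (w : Fin n → k[X]) : pdeg (C c • w) = pdeg w := by
  simp [pdeg, natDegree_C_mul hc]

end proportional

end FA.Frob
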