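import Mathlib.Algebra.Group.Subgroup.Basic
import Mathlib.Algebra.Module.Basic
import Mathlib.Tactic.Abel
import Mathlib.Tactic.Linarith
import Mathlib.Tactic.Ring

/-!
# Functions on an abelian group satisfying the parallelogram law
-/

namespace FA.Frob

variable {G : Type*} [AddCommGroup G] {h : G → ℤ}

/-- The parallelogram law. -/
def IsPara (h : G → ℤ) : Prop := ∀ x y, h (x + y) + h (x - y) = 2 * h x + 2 * h y

/-- The polar form. -/
def pol (h : G → ℤ) (x y : G) : ℤ := h (x + y) - h x - h y

namespace IsPara

variable (hh : IsPara h)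
include hh

lemma map_zero : h 0 = 0 := by
  have := hh 0 0
  simp only [add_zero, sub_zero] at this
  omega

lemma map_neg (x : G) : h (-x) = h x := by
  have := hh 0 x
  simp only [zero_add, zero_sub, hh.map_zero] at this
  omega

lemma map_add₃ (x y z : G) :
    h (x + y + z) = h (x + y) + h (y + z) + h (x + z) - h x - h y - h z := by
  have e1 := hh (x + z) y
  have e2 := hh (y + z) x
  have e3 := hh z (x - y)
  have e4 := hh x y
  rw [show x + z + y = x + y + z by abel, show x + z - y = z + (x - y) by abel] at e1
  rw [show y + z + x = x + y + z by abel, show y + z - x = z - (x - y) by abel] at e2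
  linarith

lemma pol_add_left (x y z : G) : pol h (x + y) z = pol h x z + pol h y z := by
  simp only [pol, hh.map_add₃]
  ring

lemma pol_comm (x y : G) : pol h x y = pol h y x := by
  simp only [pol, add_comm x y]; ring

lemma pol_add_right (x y z : G) : pol h x (y + z) = pol h x y + pol h x z := by
  rw [hh.pol_comm, hh.pol_add_left, hh.pol_comm y, hh.pol_comm z]

lemma pol_zero_left (x : G) : pol h 0 x = 0 := by simp [pol, hh.map_zero]

lemma pol_neg_left (x y : G) : pol h (-x) y = -pol h x y := by
  have := hh.pol_add_left x (-x) y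
  rw [add_neg_cancel, hh.pol_zero_left] at this
  omega

lemma pol_zsmul_left (n : ℤ) (x y : G) : pol h (n • x) y = n * pol h x y := by
  induction n using Int.induction_on with
  | zero => simp [hh.pol_zero_left]
  | succ i ih => rw [add_zsmul, hh.pol_add_left, ih, one_zsmul]; ring
  | pred i ih => rw [sub_zsmul, one_zsmul, sub_eq_add_neg, hh.pol_add_left, hh.pol_neg_left,
      ← sub_eq_add_neg, ih]; ring

lemma pol_zsmul_right (n : ℤ) (x y : G) : pol h x (n • y) = n * pol h x y := by
  rw [hh.pol_comm, hh.pol_zsmul_left, hh.pol_comm]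

lemma pol_self (x : G) : pol h x x = 2 * h x := by
  have := hh x x
  rw [sub_self, hh.map_zero] at this
  simp only [pol]; omega

lemma map_zsmul (n : ℤ) (x : G) : h (n • x) = n ^ 2 * h x := by
  have h1 := hh.pol_self (n • x)
  rw [hh.pol_zsmul_left, hh.pol_zsmul_right, hh.pol_self] at h1
  linarith

lemma map_add (x y : G) : h (x + y) = h x + h y + pol h x y := by
  simp only [pol]; ring

lemma map_combo (m n : ℤ) (x y : G) :
    h (m • x + n • y) = m ^ 2 * h x + n ^ 2 * h y + m * n * pol h x y := by
  rw [hh.map_add, hh.map_zsmul, hh.map_zsmul, hh.pol_zsmul_left, hh.pol_zsmul_right]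
  ring

/-- An element of height zero is orthogonal to everything, if the heights are nonnegative. -/
lemma pol_eq_zero (hpos : ∀ x, 0 ≤ h x) {x : G} (hx : h x = 0) (y : G) : pol h x y = 0 := by
  by_contra hne
  have key : ∀ n : ℤ, 0 ≤ h y + n * pol h x y := fun n => by
    have := hpos (n • x + (1 : ℤ) • y)
    rw [hh.map_combo, hx] at this
    linarith
  rcases lt_or_gt_of_ne hne with hneg | hpos'
  · have := key (h y + 1)
    nlinarith [hpos y]
  · have := key (-(h y + 1))
    nlinarith [hpos y]

end IsPara

end FA.Frob
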