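import Fermat.Agent.Frob.FunctionField
import Fermat.Agent.Frob.Quadratic
import Fermat.Agent.EC.TorsionCard
import Mathlib.Order.Filter.Cofinite

/-!
# Specialising points over the function field

`Spec Z g` says that the endomorphism `g` of `E(k)` is given, outside a finite set, by the
coordinates of the point `Z` over the function field.
-/

namespace FA.Frob

open WeierstrassCurve Polynomial FA.EC Filter

universe u

noncomputable section

set_option linter.unusedSectionVars false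

variable {k : Type u} [Field k] (W : WeierstrassCurve k)

/-- Regular at the abscissa `x`. -/
def Reg (z : FF W) (x : k) : Prop := z.re.denom.eval x ≠ 0 ∧ z.im.denom.eval x ≠ 0

/-- The value at a point. -/
def ev (z : FF W) (x y : k) : k :=
  RatFunc.eval (RingHom.id k) x z.re + RatFunc.eval (RingHom.id k) x z.im * y

lemma eval_add' {r s : RatFunc k} {x : k} (hr : r.denom.eval x ≠ 0) (hs : s.denom.eval x ≠ 0) :
    RatFunc.eval (RingHom.id k) x (r + s) =
      RatFunc.eval (RingHom.id k) x r + RatFunc.eval (RingHom.id k) x s :=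
  RatFunc.eval_add (RingHom.id k) x hr hs

lemma eval_mul' {r s : RatFunc k} {x : k} (hr : r.denom.eval x ≠ 0) (hs : s.denom.eval x ≠ 0) :
    RatFunc.eval (RingHom.id k) x (r * s) =
      RatFunc.eval (RingHom.id k) x r * RatFunc.eval (RingHom.id k) x s :=
  RatFunc.eval_mul (RingHom.id k) x hr hs

lemma denom_add_ne_zero {r s : RatFunc k} {x : k} (hr : r.denom.eval x ≠ 0)
    (hs : s.denom.eval x ≠ 0) : (r + s).denom.eval x ≠ 0 := fun h => by
  have h' := Polynomial.eval₂_eq_zero_of_dvd_of_eval₂_eq_zero (RingHom.id k) x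
    (RatFunc.denom_add_dvd r s) h
  rw [eval₂_mul] at h'
  exact (mul_ne_zero hr hs) h'

lemma denom_mul_ne_zero {r s : RatFunc k} {x : k} (hr : r.denom.eval x ≠ 0)
    (hs : s.denom.eval x ≠ 0) : (r * s).denom.eval x ≠ 0 := fun h => by
  have h' := Polynomial.eval₂_eq_zero_of_dvd_of_eval₂_eq_zero (RingHom.id k) x
    (RatFunc.denom_mul_dvd r s) h
  rw [eval₂_mul] at h'
  exact (mul_ne_zero hr hs) h'

lemma denom_algebraMap_ne_zero (p : k[X]) (x : k) :
    (algebraMap k[X] (RatFunc k) p).denom.eval x ≠ 0 := by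
  simp [RatFunc.denom_algebraMap]

lemma denom_neg_ne_zero {r : RatFunc k} {x : k} (hr : r.denom.eval x ≠ 0) :
    (-r).denom.eval x ≠ 0 := by
  rw [show -r = algebraMap k[X] (RatFunc k) (-1) * r by simp]
  exact denom_mul_ne_zero (denom_algebraMap_ne_zero _ _) hr

/-- The subring of functions regular at `x`. -/
def regRing (x : k) : Subring (FF W) where
  carrier := {z | Reg W z x}
  zero_mem' := by simp [Reg, RatFunc.denom_zero, QuadraticAlgebra.re_zero, QuadraticAlgebra.im_zero]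
  one_mem' := by simp [Reg, RatFunc.denom_zero, RatFunc.denom_one, QuadraticAlgebra.re_one, QuadraticAlgebra.im_one]
  add_mem' := fun {a b} ha hb => ⟨denom_add_ne_zero ha.1 hb.1, denom_add_ne_zero ha.2 hb.2⟩
  neg_mem' := fun {a} ha => ⟨denom_neg_ne_zero ha.1, denom_neg_ne_zero ha.2⟩
  mul_mem' := fun {a b} ha hb => by
    refine ⟨?_, ?_⟩
    · rw [QuadraticAlgebra.re_mul]
      exact denom_add_ne_zero (denom_mul_ne_zero ha.1 hb.1)
        (denom_mul_ne_zero (denom_mul_ne_zero (denom_algebraMap_ne_zero _ x) ha.2) hb.2)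
    · rw [QuadraticAlgebra.im_mul]
      exact denom_add_ne_zero (denom_add_ne_zero (denom_mul_ne_zero ha.1 hb.2)
        (denom_mul_ne_zero ha.2 hb.1))
        (denom_mul_ne_zero (denom_mul_ne_zero (denom_algebraMap_ne_zero _ x) ha.2) hb.2)

/-- Evaluation at a point of the curve. -/
def evHom (x y : k) (h : W.toAffine.Equation x y) : regRing W x →+* k where
  toFun z := ev W z.1 x y
  map_one' := by simp [ev, QuadraticAlgebra.re_one, QuadraticAlgebra.im_one]
  map_zero' := by simp [ev, QuadraticAlgebra.re_zero, QuadraticAlgebra.im_zero]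
  map_add' := fun a b => by
    simp only [ev, Subring.coe_add, QuadraticAlgebra.re_add, QuadraticAlgebra.im_add]
    rw [eval_add' a.2.1 b.2.1, eval_add' a.2.2 b.2.2]
    ring
  map_mul' := fun a b => by
    obtain ⟨a, ha1, ha2⟩ := a
    obtain ⟨b, hb1, hb2⟩ := b
    have hA : (cubA W).denom.eval x ≠ 0 := denom_algebraMap_ne_zero _ x
    have hB : (linB W).denom.eval x ≠ 0 := denom_algebraMap_ne_zero _ x
    have eA : RatFunc.eval (RingHom.id k) x (cubA W)
        = x ^ 3 + W.a₂ * x ^ 2 + W.a₄ * x + W.a₆ := by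
      rw [cubA, RatFunc.eval_algebraMap]; simp
    have eB : RatFunc.eval (RingHom.id k) x (linB W) = -(W.a₁ * x + W.a₃) := by
      rw [linB, RatFunc.eval_algebraMap]; simp
    simp only [ev, Subring.coe_mul, QuadraticAlgebra.re_mul, QuadraticAlgebra.im_mul]
    rw [eval_add' (denom_mul_ne_zero ha1 hb1)
        (denom_mul_ne_zero (denom_mul_ne_zero hA ha2) hb2),
      eval_add' (denom_add_ne_zero (denom_mul_ne_zero ha1 hb2) (denom_mul_ne_zero ha2 hb1))
        (denom_mul_ne_zero (denom_mul_ne_zero hB ha2) hb2),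
      eval_add' (denom_mul_ne_zero ha1 hb2) (denom_mul_ne_zero ha2 hb1),
      eval_mul' ha1 hb1, eval_mul' (denom_mul_ne_zero hA ha2) hb2,
      eval_mul' hA ha2, eval_mul' ha1 hb2, eval_mul' ha2 hb1,
      eval_mul' (denom_mul_ne_zero hB ha2) hb2, eval_mul' hB ha2, eA, eB]
    have he := (Affine.equation_iff x y).mp h
    linear_combination (-(RatFunc.eval (RingHom.id k) x a.im *
      RatFunc.eval (RingHom.id k) x b.im)) * he

lemma evHom_apply (x y : k) (h : W.toAffine.Equation x y) (z : regRing W x) :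
    evHom W x y h z = ev W z.1 x y := rfl

lemma kEmb_mem (c x : k) : kEmb W c ∈ regRing W x := by
  show Reg W (kEmb W c) x
  simp [Reg, kEmb, QuadraticAlgebra.algebraMap_eq, RatFunc.denom_C, RatFunc.denom_zero]

lemma ev_kEmb (c x y : k) : ev W (kEmb W c) x y = c := by
  simp [ev, kEmb, QuadraticAlgebra.algebraMap_eq]

lemma tGen_mem (x : k) : tGen W ∈ regRing W x := by
  show Reg W (tGen W) x
  simp [Reg, tGen, QuadraticAlgebra.algebraMap_eq, RatFunc.denom_X, RatFunc.denom_zero]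

lemma yGen_mem (x : k) : yGen W ∈ regRing W x := by
  show Reg W (yGen W) x
  simp [Reg, yGen, RatFunc.denom_one, RatFunc.denom_zero]

lemma ev_tGen (x y : k) : ev W (tGen W) x y = x := by
  simp [ev, tGen, QuadraticAlgebra.algebraMap_eq]

lemma ev_yGen (x y : k) : ev W (yGen W) x y = y := by
  simp [ev, yGen]

lemma eventually_reg (z : FF W) : ∀ᶠ x in cofinite, z ∈ regRing W x := by
  have h : ∀ r : RatFunc k, {x : k | r.denom.eval x = 0}.Finite := fun r =>
    (finite_setOfPred_isRoot r.denom_ne_zero).subset fun x hx => hx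
  refine eventually_cofinite.mpr (((h z.re).union (h z.im)).subset fun x hx => ?_)
  by_contra hc
  obtain ⟨h1, h2⟩ := not_or.mp hc
  exact hx ⟨h1, h2⟩

/-- Away from finitely many abscissae a nonzero function is regular and nonzero. -/
lemma eventually_ev_ne_zero {z : FF W} (hz : z ≠ 0) :
    ∀ᶠ x in cofinite, z ∈ regRing W x ∧ ∀ y, W.toAffine.Equation x y → ev W z x y ≠ 0 := by
  filter_upwards [eventually_reg W z, eventually_reg W z⁻¹] with x h1 h2
  refine ⟨h1, fun y hy h0 => ?_⟩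
  have hm := (evHom W x y hy).map_mul ⟨z, h1⟩ ⟨z⁻¹, h2⟩
  rw [show (⟨z, h1⟩ * ⟨z⁻¹, h2⟩ : regRing W x) = 1 from Subtype.ext (mul_inv_cancel₀ hz), map_one,
    evHom_apply, h0, zero_mul] at hm
  exact one_ne_zero hm

section points

variable [W.IsElliptic] [DecidableEq (FF W)] [DecidableEq k]

/-- `Q` is the value of `Z` at `P`. -/
def Rel : (WF W).toAffine.Point → W.toAffine.Point → W.toAffine.Point → Prop
  | .zero, _, Q => Q = 0
  | .some X Y _, .some x y _, Q => X ∈ regRing W x ∧ Y ∈ regRing W x ∧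
      ∃ h', Q = .some (ev W X x y) (ev W Y x y) h'
  | .some _ _ _, .zero, _ => False

/-- `g` is given by `Z` outside a finite set. -/
def Spec (Z : (WF W).toAffine.Point) (g : W.toAffine.Point →+ W.toAffine.Point) : Prop :=
  ∀ᶠ P in cofinite, Rel W Z P (g P)

lemma finite_xc_fibre (x : k) : {P : W.toAffine.Point | xc P = x}.Finite := by
  rcases em (∃ P : W.toAffine.Point, P ≠ 0 ∧ xc P = x) with ⟨P₀, h₀, hx₀⟩ | hnone
  · refine ((Set.finite_singleton (0 : W.toAffine.Point)).union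
      ((Set.finite_singleton P₀).union (Set.finite_singleton (-P₀)))).subset fun P hP => ?_
    by_cases hP0 : P = 0
    · exact Or.inl hP0
    · exact Or.inr (eq_or_eq_neg_of_xc_eq hP0 h₀ (hP.trans hx₀.symm))
  · refine (Set.finite_singleton (0 : W.toAffine.Point)).subset fun P hP => ?_
    by_contra hP0
    exact hnone ⟨P, hP0, hP⟩

lemma eventually_point {p : k → Prop} (h : ∀ᶠ x in cofinite, p x) :
    ∀ᶠ P : W.toAffine.Point in cofinite, P ≠ 0 ∧ p (xc P) := by
  rw [eventually_cofinite] at h ⊢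
  refine ((Set.finite_singleton 0).union
    (h.biUnion fun x _ => finite_xc_fibre W x)).subset fun P hP => ?_
  by_cases hP0 : P = 0
  · exact Or.inl hP0
  · refine Or.inr ?_
    simp only [Set.mem_iUnion, Set.mem_ofPred_eq]
    exact ⟨xc P, fun hp => hP ⟨hP0, hp⟩, rfl⟩

lemma spec_zero : Spec W 0 0 := .of_forall fun _ => rfl

lemma spec_gen : Spec W (gen W) (AddMonoidHom.id _) := by
  filter_upwards [eventually_point W (p := fun _ => True) (.of_forall fun _ => trivial)] with P hP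
  obtain ⟨x, y, h, rfl⟩ := exists_some_of_ne_zero hP.1
  exact ⟨tGen_mem W x, yGen_mem W x, by rw [ev_tGen, ev_yGen]; exact h,
    by simp [ev_tGen, ev_yGen]⟩

lemma ev_negY {X Y : FF W} {x y : k} (h : W.toAffine.Equation x y) (hX : X ∈ regRing W x)
    (hY : Y ∈ regRing W x) :
    (WF W).toAffine.negY X Y ∈ regRing W x ∧
      ev W ((WF W).toAffine.negY X Y) x y = W.toAffine.negY (ev W X x y) (ev W Y x y) := by
  let a₁ : regRing W x := ⟨kEmb W W.a₁, kEmb_mem W _ x⟩
  let a₃ : regRing W x := ⟨kEmb W W.a₃, kEmb_mem W _ x⟩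
  let z : regRing W x := -⟨Y, hY⟩ - a₁ * ⟨X, hX⟩ - a₃
  refine ⟨z.2, ?_⟩
  show evHom W x y h z = _
  simp only [z, map_sub, map_neg, map_mul, evHom_apply, a₁, a₃, ev_kEmb, Affine.negY]

lemma Spec.neg {Z : (WF W).toAffine.Point} {g : W.toAffine.Point →+ W.toAffine.Point}
    (hZ : Spec W Z g) : Spec W (-Z) (-g) := by
  filter_upwards [hZ] with P hP
  rcases Z with _ | ⟨X, Y, hXY⟩
  · exact neg_eq_zero.mpr hP
  rcases P with _ | ⟨x, y, h⟩
  · exact hP
  obtain ⟨hX, hY, h', he⟩ := hP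
  obtain ⟨hn, hn'⟩ := ev_negY W h.1 hX hY
  refine ⟨hX, hn, by rw [hn']; exact (Affine.nonsingular_neg ..).mpr h', ?_⟩
  rw [AddMonoidHom.neg_apply, he, Affine.Point.neg_some]
  simp only [hn']

lemma Spec.add {Z₁ Z₂ : (WF W).toAffine.Point} {g₁ g₂ : W.toAffine.Point →+ W.toAffine.Point}
    (h₁ : Spec W Z₁ g₁) (h₂ : Spec W Z₂ g₂) : Spec W (Z₁ + Z₂) (g₁ + g₂) := by
  rcases Z₁ with _ | ⟨X₁, Y₁, hZ₁⟩
  · filter_upwards [h₁, h₂] with P e₁ e₂
    rw [AddMonoidHom.add_apply, show g₁ P = 0 from e₁, zero_add, ← Affine.Point.zero_def, zero_add]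
    exact e₂
  rcases Z₂ with _ | ⟨X₂, Y₂, hZ₂⟩
  · filter_upwards [h₁, h₂] with P e₁ e₂
    rw [AddMonoidHom.add_apply, show g₂ P = 0 from e₂, add_zero, ← Affine.Point.zero_def, add_zero]
    exact e₁
  by_cases hne : X₁ = X₂ ∧ Y₁ = (WF W).toAffine.negY X₂ Y₂
  · rw [Affine.Point.add_of_Y_eq hne.1 hne.2]
    obtain ⟨rfl, rfl⟩ := hne
    filter_upwards [h₁, h₂] with P e₁ e₂
    rcases P with _ | ⟨x, y, h⟩
    · exact e₁.elim
    obtain ⟨-, -, h', he₁⟩ := e₁
    obtain ⟨hX, hY, h'', he₂⟩ := e₂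
    show (g₁ + g₂) _ = 0
    rw [AddMonoidHom.add_apply, he₁, he₂]
    exact Affine.Point.add_of_Y_eq rfl (ev_negY W h.1 hX hY).2
  rw [Affine.Point.add_some hne]
  set L := (WF W).toAffine.slope X₁ X₂ Y₁ Y₂ with hL
  have hden : ∀ᶠ P : W.toAffine.Point in cofinite, P ≠ 0 ∧
      (L ∈ regRing W (xc P) ∧ ((X₁ - X₂ ≠ 0 → ∀ y, W.toAffine.Equation (xc P) y →
          ev W (X₁ - X₂) (xc P) y ≠ 0) ∧
        (Y₁ - (WF W).toAffine.negY X₁ Y₁ ≠ 0 → ∀ y, W.toAffine.Equation (xc P) y →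
          ev W (Y₁ - (WF W).toAffine.negY X₁ Y₁) (xc P) y ≠ 0))) := by
    refine eventually_point W (p := fun x => L ∈ regRing W x ∧ ((X₁ - X₂ ≠ 0 →
        ∀ y, W.toAffine.Equation x y → ev W (X₁ - X₂) x y ≠ 0) ∧
      (Y₁ - (WF W).toAffine.negY X₁ Y₁ ≠ 0 → ∀ y, W.toAffine.Equation x y →
        ev W (Y₁ - (WF W).toAffine.negY X₁ Y₁) x y ≠ 0)))
      ((eventually_reg W L).and (.and ?_ ?_))
    · by_cases h0 : X₁ - X₂ = 0
      · exact .of_forall fun x h => absurd h0 h
      · filter_upwards [eventually_ev_ne_zero W h0] with x hx _ using hx.2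
    · by_cases h0 : Y₁ - (WF W).toAffine.negY X₁ Y₁ = 0
      · exact .of_forall fun x h => absurd h0 h
      · filter_upwards [eventually_ev_ne_zero W h0] with x hx _ using hx.2
  filter_upwards [h₁, h₂, hden] with P e₁ e₂ ⟨_, hLr, hd₁, hd₂⟩
  rcases P with _ | ⟨x, y, h⟩
  · exact e₁.elim
  obtain ⟨hX₁, hY₁, h', he₁⟩ := e₁
  obtain ⟨hX₂, hY₂, h'', he₂⟩ := e₂
  have hE := h.1
  rw [xc_some] at hLr hd₁ hd₂
  let φ := evHom W x y hE
  let c : k → regRing W x := fun a => ⟨kEmb W a, kEmb_mem W a x⟩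
  have hc : ∀ a, φ (c a) = a := fun a => ev_kEmb W a x y
  set u₁ : regRing W x := ⟨X₁, hX₁⟩
  set u₂ : regRing W x := ⟨X₂, hX₂⟩
  set v₁ : regRing W x := ⟨Y₁, hY₁⟩
  set v₂ : regRing W x := ⟨Y₂, hY₂⟩
  set l : regRing W x := ⟨L, hLr⟩
  -- the evaluated points are not opposite, and their slope is the value of the slope
  have key : ¬ (φ u₁ = φ u₂ ∧ φ v₁ = W.toAffine.negY (φ u₂) (φ v₂)) ∧
      W.toAffine.slope (φ u₁) (φ u₂) (φ v₁) (φ v₂) = φ l := by
    by_cases hX : X₁ = X₂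
    · have hy : Y₁ ≠ (WF W).toAffine.negY X₂ Y₂ := fun h => hne ⟨hX, h⟩
      have hY := Affine.Y_eq_of_Y_ne hZ₁.1 hZ₂.1 hX hy
      subst hX hY
      have hd : Y₁ - (WF W).toAffine.negY X₁ Y₁ ≠ 0 := sub_ne_zero.mpr hy
      have hφd : φ v₁ - W.toAffine.negY (φ u₁) (φ v₁) ≠ 0 := by
        have := hd₂ hd y hE
        let z : regRing W x := v₁ - ⟨_, (ev_negY W hE hX₁ hY₁).1⟩
        change φ z ≠ 0 at this
        rw [map_sub] at this
        change φ v₁ - ev W ((WF W).toAffine.negY X₁ Y₁) x y ≠ 0 at this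
        rwa [(ev_negY W hE hX₁ hY₁).2] at this
      have hyφ : φ v₁ ≠ W.toAffine.negY (φ u₁) (φ v₁) := sub_ne_zero.mp hφd
      refine ⟨fun hh => hyφ hh.2, ?_⟩
      rw [Affine.slope_of_Y_ne rfl hyφ, div_eq_iff hφd]
      have heq : l * (v₁ - (-v₁ - c W.a₁ * u₁ - c W.a₃)) =
          3 * u₁ ^ 2 + 2 * c W.a₂ * u₁ + c W.a₄ - c W.a₁ * v₁ := by
        apply Subtype.ext
        show L * (Y₁ - (-Y₁ - kEmb W W.a₁ * X₁ - kEmb W W.a₃)) =
          3 * X₁ ^ 2 + 2 * kEmb W W.a₂ * X₁ + kEmb W W.a₄ - kEmb W W.a₁ * Y₁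
        rw [hL, Affine.slope_of_Y_ne rfl hy]
        exact div_mul_cancel₀ _ hd
      have := congrArg φ heq
      simp only [map_mul, map_sub, map_add, map_neg, map_pow, map_ofNat, hc] at this
      simp only [Affine.negY]
      linear_combination -this
    · have hd : φ u₁ - φ u₂ ≠ 0 := by
        rw [← map_sub]; exact hd₁ (sub_ne_zero.mpr hX) y hE
      refine ⟨fun hh => hd (by rw [hh.1, sub_self]), ?_⟩
      rw [Affine.slope_of_X_ne (sub_ne_zero.mp hd), div_eq_iff hd]
      have heq : l * (u₁ - u₂) = v₁ - v₂ := by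
        apply Subtype.ext
        show L * (X₁ - X₂) = Y₁ - Y₂
        rw [hL, Affine.slope_of_X_ne hX, div_mul_cancel₀ _ (sub_ne_zero.mpr hX)]
      rw [← map_sub, ← map_sub, ← map_mul, heq]
  set zX : regRing W x := l ^ 2 + c W.a₁ * l - c W.a₂ - u₁ - u₂
  set zY : regRing W x := -(l * (zX - u₁) + v₁) - c W.a₁ * zX - c W.a₃
  have ezX : (WF W).toAffine.addX X₁ X₂ L = zX.1 := rfl
  have ezY : (WF W).toAffine.addY X₁ X₂ Y₁ L = zY.1 := rfl
  have eX : ev W ((WF W).toAffine.addX X₁ X₂ L) x y =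
      W.toAffine.addX (φ u₁) (φ u₂) (φ l) := by
    rw [ezX]; show φ zX = _
    simp only [zX, map_sub, map_add, map_mul, map_pow, hc, Affine.addX]
  have eY : ev W ((WF W).toAffine.addY X₁ X₂ Y₁ L) x y =
      W.toAffine.addY (φ u₁) (φ u₂) (φ v₁) (φ l) := by
    rw [ezY]; show φ zY = _
    simp only [zY, zX, map_sub, map_add, map_mul, map_pow, map_neg, hc, Affine.addY,
      Affine.negAddY, Affine.negY, Affine.addX]
  refine ⟨ezX ▸ zX.2, ezY ▸ zY.2, ?_, ?_⟩
  · rw [eX, eY, ← key.2]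
    exact Affine.nonsingular_add h' h'' key.1
  · rw [AddMonoidHom.add_apply, he₁, he₂]
    refine (Affine.Point.add_some (h₁ := h') (h₂ := h'') key.1).trans ?_
    simp only [Affine.Point.some.injEq]
    exact ⟨(congrArg (W.toAffine.addX (φ u₁) (φ u₂)) key.2).trans eX.symm,
      (congrArg (W.toAffine.addY (φ u₁) (φ u₂) (φ v₁)) key.2).trans eY.symm⟩

lemma Spec.sub {Z₁ Z₂ : (WF W).toAffine.Point} {g₁ g₂ : W.toAffine.Point →+ W.toAffine.Point}
    (h₁ : Spec W Z₁ g₁) (h₂ : Spec W Z₂ g₂) : Spec W (Z₁ - Z₂) (g₁ - g₂) := by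
  rw [sub_eq_add_neg, sub_eq_add_neg]; exact h₁.add W (h₂.neg W)

lemma Spec.zsmul {Z : (WF W).toAffine.Point} {g : W.toAffine.Point →+ W.toAffine.Point}
    (h : Spec W Z g) (n : ℤ) : Spec W (n • Z) (n • g) := by
  induction n using Int.induction_on with
  | zero => rw [zero_zsmul, zero_zsmul]; exact spec_zero W
  | succ i ih => rw [add_zsmul, add_zsmul, one_zsmul, one_zsmul]; exact ih.add W h
  | pred i ih => rw [sub_zsmul, sub_zsmul, one_zsmul, one_zsmul]; exact ih.sub W h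

variable [IsAlgClosed k]

lemma infinite_point : Infinite W.toAffine.Point := by
  choose y hy using fun x => FA.EC.exists_nonsingular W x
  exact Infinite.of_injective (fun x => Affine.Point.some x (y x) (hy x))
    fun a b h => (Affine.Point.some.inj h).1

/-- An endomorphism which is constant outside a finite set is zero. -/
lemma eq_zero_of_eventually_const {g : W.toAffine.Point →+ W.toAffine.Point}
    {C₀ : W.toAffine.Point} (h : ∀ᶠ P in cofinite, g P = C₀) : g = 0 := by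
  have := infinite_point W
  have hshift : ∀ P : W.toAffine.Point, ∀ᶠ P₂ in cofinite, g P₂ = C₀ ∧ g (P + P₂) = C₀ := fun P =>
    h.and ((Function.Injective.tendsto_cofinite (add_right_injective P)).eventually h)
  ext P
  obtain ⟨P₂, e₁, e₂⟩ := (hshift P).exists
  rw [map_add, e₁] at e₂
  exact add_right_cancel (e₂.trans (zero_add C₀).symm)

/-- An element of height zero specialises to zero. -/
theorem eq_zero_of_hgt_eq_zero {Z : (WF W).toAffine.Point} (hM : Z ∈ MM W)
    {g : W.toAffine.Point →+ W.toAffine.Point} (hZ : Spec W Z g) (h0 : hgt W Z = 0) : g = 0 := by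
  rcases Z with _ | ⟨X, Y, hXY⟩
  · exact eq_zero_of_eventually_const W (C₀ := 0) hZ
  have hn : X.re.num.natDegree = 0 := Nat.le_zero.mp (h0 ▸ natDegree_le_pdeg (pvec W (.some X Y hXY)) 0)
  have hd : X.re.denom = 1 :=
    eq_one_of_monic_natDegree_zero (RatFunc.monic_denom _)
      (Nat.le_zero.mp (h0 ▸ natDegree_le_pdeg (pvec W (.some X Y hXY)) 1))
  obtain ⟨c, hc⟩ : ∃ c, X = kEmb W c := by
    refine ⟨X.re.num.coeff 0, QuadraticAlgebra.ext ?_ (im_eq_zero W hM)⟩
    conv_lhs => rw [← RatFunc.num_div_denom X.re, hd, map_one, div_one,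
      eq_C_of_natDegree_eq_zero hn]
    simp [kEmb, QuadraticAlgebra.algebraMap_eq, RatFunc.algebraMap_C]
  subst hc
  obtain ⟨r, hr⟩ : ∃ r, W.toAffine.Equation c r := ⟨_, (FA.EC.exists_nonsingular W c).choose_spec.1⟩
  have hr' : (WF W).toAffine.Equation (kEmb W c) (kEmb W r) := hr.map (kEmb W)
  obtain ⟨d, rfl⟩ : ∃ d, Y = kEmb W d := by
    rcases Affine.Y_eq_of_X_eq hXY.1 hr' rfl with h | h
    · exact ⟨r, h⟩
    · exact ⟨W.toAffine.negY c r, by rw [h]; exact Affine.map_negY _ _ _⟩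
  have hns : W.toAffine.Nonsingular c d :=
    (W.toAffine.map_nonsingular (kEmb W).injective c d).mp hXY
  have hev : ∀ᶠ P in cofinite, g P = .some c d hns := by
    filter_upwards [hZ] with P hP
    rcases P with _ | ⟨x, y, h⟩
    · exact hP.elim
    obtain ⟨-, -, h', he⟩ := hP
    rw [he]
    simp only [ev_kEmb]
  exact eq_zero_of_eventually_const W hev

end points

end

end FA.Frob
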