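import Fermat.Agent.Frob.Endo
import Fermat.Agent.EC.TorsionGalois
import Fermat.Prelude.Def_FLTPrelim_Modularity
import Mathlib.LinearAlgebra.Charpoly.Basic
import Mathlib.LinearAlgebra.Charpoly.ToMatrix
import Mathlib.FieldTheory.Finite.Basic

/-!
# Trace and determinant of Frobenius on the `p`-torsion

For an elliptic curve over `ZMod l` and a prime `p ≠ l` the Frobenius of the torsion points
over an algebraically closed field has characteristic polynomial `X² - aX + l`, where
`a = l + 1 - #E(F_l)`.
-/

namespace FA.Frob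

open WeierstrassCurve Polynomial FA.EC

universe u

noncomputable section

set_option linter.unusedSectionVars false

lemma two_smul_charpoly {K : Type*} {V : Type*} [Field K] [AddCommGroup V] [Module K V]
    [FiniteDimensional K V] (hV : Module.finrank K V = 2) (c : K) :
    (c • (1 : Module.End K V)).charpoly = X ^ 2 - C (2 * c) * X + C (c ^ 2) := by
  classical
  let b := Module.finBasisOfFinrankEq K V hV
  rw [← LinearMap.charpoly_toMatrix _ b, map_smul, LinearMap.toMatrix_one,
    Matrix.smul_one_eq_diagonal, Matrix.charpoly_diagonal]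
  simp [map_mul, map_pow, map_ofNat]
  ring

lemma charpoly_eq_of_aeval {K : Type*} {V : Type*} [Field K] [AddCommGroup V] [Module K V]
    [FiniteDimensional K V] (hV : Module.finrank K V = 2) {f : Module.End K V} {q : K[X]}
    (hq : q.Monic) (hd : q.natDegree = 2) (h : aeval f q = 0)
    (hns : ∀ c : K, f ≠ c • 1) : f.charpoly = q := by
  have : Nontrivial V := Module.nontrivial_of_finrank_eq_succ hV
  have hint : IsIntegral K f := Algebra.IsIntegral.isIntegral f
  have hmq : minpoly K f = q := by
    refine (eq_of_monic_of_dvd_of_natDegree_le (minpoly.monic hint) hq (minpoly.dvd K f h) ?_).symm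
    rw [hd]
    by_contra hlt
    have h1 : (minpoly K f).natDegree = 1 := by
      have := minpoly.natDegree_pos hint
      omega
    have e := minpoly.aeval K f
    rw [(minpoly.monic hint).eq_X_add_C h1, map_add, aeval_X, aeval_C] at e
    refine hns (-(minpoly K f).coeff 0) ((eq_neg_of_add_eq_zero_left e).trans ?_)
    rw [neg_smul, Algebra.algebraMap_eq_smul_one]
  refine eq_of_monic_of_dvd_of_natDegree_le hq (LinearMap.charpoly_monic f)
    (hmq ▸ minpoly.dvd K f (LinearMap.aeval_self_charpoly f)) ?_
  rw [LinearMap.charpoly_natDegree, hV, hd]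

variable {k : Type u} [Field k] [IsAlgClosed k] [DecidableEq k] {l : ℕ} [Fact l.Prime] [CharP k l]
  (W : WeierstrassCurve k) [W.IsElliptic] [DecidableEq (FF W)] (hW : W.map (frobenius k l) = W)

/-- The characteristic polynomial of an endomorphism of a plane over `ZMod p` embedded in the
points compatibly with Frobenius. -/
theorem charpoly_of_intertwine {p : ℕ} [Fact p.Prime] (hpl : p ≠ l) {V : Type*} [AddCommGroup V]
    [Module (ZMod p) V] [Module.Finite (ZMod p) V] (hV : Module.finrank (ZMod p) V = 2)
    (f : Module.End (ZMod p) V) (r : V →+ W.toAffine.Point) (hr : Function.Injective r)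
    (hf : ∀ P, r (f P) = frobEnd W hW (r P)) :
    f.charpoly = X ^ 2 - C (trEnd W hW : ZMod p) * X + C (l : ZMod p) := by
  classical
  have hpp := (Fact.out : p.Prime)
  have hll := (Fact.out : l.Prime)
  have hsm : ∀ (n : ℤ) (P : V), r ((n : ZMod p) • P) = n • r P := fun n P => by
    rw [Int.cast_smul_eq_zsmul, map_zsmul]
  set a := trEnd W hW
  set q : (ZMod p)[X] := X ^ 2 - C (a : ZMod p) * X + C (l : ZMod p) with hq
  have hqm : q.Monic := by rw [hq]; monicity!
  have hqd : q.natDegree = 2 := by rw [hq]; compute_degree!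
  have h0 : aeval f q = 0 := by
    refine LinearMap.ext fun P => hr ?_
    simp only [hq, map_add, map_sub, map_pow, map_mul, map_zero, aeval_X, aeval_C,
      LinearMap.add_apply, LinearMap.sub_apply, LinearMap.zero_apply, Module.algebraMap_end_apply,
      sq, Module.End.mul_apply, hsm, hf]
    rw [show ((l : ZMod p)) = ((l : ℤ) : ZMod p) by norm_cast, hsm]
    exact frobEnd_quadratic W hW (r P)
  by_cases hns : ∀ c : ZMod p, f ≠ c • 1
  · exact charpoly_eq_of_aeval hV hqm hqd h0 hns
  push Not at hns
  obtain ⟨c, hc⟩ := hns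
  have hlp : ¬ (l : ℤ) ∣ p := fun h =>
    hpl ((Nat.prime_dvd_prime_iff_eq hll hpp).mp (Int.natCast_dvd_natCast.mp h)).symm
  obtain ⟨c₀, hc₀, hc₀l⟩ : ∃ c₀ : ℤ, (c₀ : ZMod p) = c ∧ ¬ (l : ℤ) ∣ c₀ := by
    by_cases h : (l : ℤ) ∣ c.val
    · exact ⟨c.val + p, by simp, fun h' => hlp ((Int.dvd_add_right h).mp h')⟩
    · exact ⟨c.val, by simp, h⟩
  have hcard : Nat.card r.range = p ^ 2 := by
    rw [← Nat.card_congr (AddMonoidHom.ofInjective hr).toEquiv,
      Module.natCard_eq_pow_finrank (K := ZMod p), hV, Nat.card_zmod]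
  have hdvd : ∀ m : ℤ, (m : ZMod p) = c → ¬ (l : ℤ) ∣ m →
      (p : ℤ) ^ 2 ∣ m ^ 2 - a * m + l := by
    intro m hm hml
    rw [← natCard_ker_sub W hW hml, ← Nat.cast_pow, Int.natCast_dvd_natCast, ← hcard]
    refine AddSubgroup.card_dvd_of_le ?_
    rintro _ ⟨P, rfl⟩
    simp only [AddMonoidHom.mem_ker, AddMonoidHom.sub_apply, AddMonoidHom.coe_smul, Pi.smul_apply,
      AddMonoidHom.id_apply]
    rw [← hf, hc, LinearMap.smul_apply, Module.End.one_apply, ← hm, hsm, sub_self]
  obtain ⟨u, hu⟩ := hdvd c₀ hc₀ hc₀l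
  obtain ⟨v, hv⟩ := hdvd (c₀ + l * p) (by simp [hc₀]) fun h => hc₀l
    ((Int.dvd_add_left (dvd_mul_right _ _)).mp h)
  have hp0 : (p : ℤ) ≠ 0 := by exact_mod_cast hpp.ne_zero
  have hd2 : (l : ℤ) * (2 * c₀ - a) = p * (v - u - l * l) := by
    refine mul_left_cancel₀ hp0 ?_
    linear_combination hv - hu
  have hd3 := congrArg (Int.cast : ℤ → ZMod p) hd2
  have hd4 := congrArg (Int.cast : ℤ → ZMod p) hu
  push_cast [hc₀, ZMod.natCast_self, zero_mul, mul_zero] at hd3 hd4
  have hl0 : (l : ZMod p) ≠ 0 := fun h => by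
    rw [ZMod.natCast_eq_zero_iff] at h
    exact hpl ((Nat.prime_dvd_prime_iff_eq hpp hll).mp h)
  have ha : (a : ZMod p) = 2 * c := by
    linear_combination -(mul_eq_zero.mp hd3).resolve_left hl0
  have hl : (l : ZMod p) = c ^ 2 := by
    rw [zero_pow two_ne_zero, zero_mul] at hd4
    linear_combination hd4 + c * ha
  rw [hc, two_smul_charpoly hV, hq, ha, hl]

section primeField

variable (W₀ : WeierstrassCurve (ZMod l)) (f : ZMod l →+* k)

lemma map_frobenius_map : (W₀.map f).map (frobenius k l) = W₀.map f := by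
  rw [WeierstrassCurve.map_map]
  congr 1
  ext a
  rw [RingHom.comp_apply, frobenius_def, ← map_pow, ZMod.pow_card]

variable [W₀.IsElliptic] [DecidableEq (FF (W₀.map f))]

/-- The trace of Frobenius is `l + 1 - #E(F_l)`. -/
theorem trEnd_map :
    trEnd (W₀.map f) (map_frobenius_map W₀ f) = W₀.traceOfFrobenius := by
  have hl := (Fact.out : l.Prime)
  have h := natCard_ker_sub (W₀.map f) (map_frobenius_map W₀ f) (c := 1) fun h => hl.one_lt.ne'
    (Nat.dvd_one.mp (by exact_mod_cast h))
  have hr : (mapHom f rfl : W₀.toAffine.Point →+ (W₀.map f).toAffine.Point).range =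
      ((1 : ℤ) • AddMonoidHom.id _ - frobEnd (W₀.map f) (map_frobenius_map W₀ f)).ker := by
    ext P
    simp only [AddMonoidHom.mem_ker, AddMonoidHom.sub_apply, one_zsmul, AddMonoidHom.id_apply,
      sub_eq_zero, AddMonoidHom.mem_range]
    constructor
    · rintro ⟨_ | ⟨x, y, hxy⟩, rfl⟩
      · rfl
      · simp only [frobEnd, mapHom_some, frobenius_def, ← map_pow, ZMod.pow_card]
    · intro hP
      rcases P with _ | ⟨x, y, hxy⟩
      · exact ⟨0, rfl⟩
      have hroot : ∀ z : k, z ^ l = z → ∃ a, f a = z := by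
        intro z hz
        by_contra hne
        push Not at hne
        have hX : (X ^ l - X : k[X]) ≠ 0 := fun h => by
          have := congrArg (fun q : k[X] => q.coeff l) h
          simp [coeff_X, hl.one_lt.ne] at this
        have hsub : insert z (Finset.univ.image f) ⊆ (X ^ l - X : k[X]).roots.toFinset := by
          intro w hw
          rw [Multiset.mem_toFinset, mem_roots hX]
          rcases Finset.mem_insert.mp hw with rfl | hw
          · simp [hz]
          · obtain ⟨a, -, rfl⟩ := Finset.mem_image.mp hw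
            simp [← map_pow]
        have hc := (Finset.card_le_card hsub).trans ((Multiset.toFinset_card_le _).trans
          ((card_roots' _).trans (natDegree_sub_le _ _)))
        rw [Finset.card_insert_of_notMem (by simpa using fun a => hne a),
          Finset.card_image_of_injective _ f.injective, Finset.card_univ, ZMod.card,
          natDegree_X_pow, natDegree_X, max_eq_left hl.one_le] at hc
        omega
      simp only [frobEnd, mapHom_some, Affine.Point.some.injEq, frobenius_def] at hP
      obtain ⟨a, rfl⟩ := hroot x hP.1.symm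
      obtain ⟨b, rfl⟩ := hroot y hP.2.symm
      exact ⟨.some a b ((W₀.toAffine.map_nonsingular f.injective a b).mp hxy), rfl⟩
  rw [← hr, Nat.card_congr (AddMonoidHom.ofInjective (mapHom_injective f rfl)).toEquiv.symm] at h
  rw [WeierstrassCurve.traceOfFrobenius, WeierstrassCurve.card, h, Nat.card_zmod]
  ring

end primeField

end

end FA.Frob
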